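/-
S59 PRE-WORK / E8.4 LLP at `p = 3`, leaf END-ODD (helper17): **helper96's (END) `level_of_eigen₁`
and the fields `end₁`, `end₂` for EVERY odd `p`** — `GF/End/Core.level_of_eigen₁` uses `5 ≤ p` only
for the two side conditions `(h2 : p = 2 → 3 ∣ M') (h3 : p = 3 → 2 ∣ M')` of
`GF/D2/Asm.d2Export_of_F1` (audit 7065 §3 [S]).  Same proof with binders `(hp2 : p ≠ 2)`
`(h3 : p = 3 → 2 ∣ M')`.

* `level_of_eigen₁_odd` : twin of `End.level_of_eigen₁`;
* `end₁_odd`, `end₂_odd` : twins of `End.Fields.end₁_thm`, `end₂_thm`.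
-/
import Fermat.Agent.GF.End.Fields

set_option autoImplicit false
set_option linter.unusedSectionVars false
set_option linter.unusedVariables false
set_option linter.style.haveILetI false

noncomputable section

namespace Fermat.Agent.GE8.LLP.EndOdd

open AlgebraicCurve IntermediateField Module IsLocalRing ModularCurve
open Fermat.Agent.S24 Fermat.Agent.S24_helper62 Fermat.Agent.RRh45 Fermat.Agent.RR
open Fermat.Agent.GJ.J1 Fermat.Agent.GJ.J1.Val Fermat.Agent.GJ.J1.InstGen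
open Fermat.Agent.GK.MultiVal Fermat.Agent.GK.BallTwo Fermat.Agent.GK.NodalGraded
open Fermat.Agent.GS.Nodal.LSR2 Fermat.Agent.GS.Nodal.Inst Fermat.Agent.GS.Nodal.ROfSurj2
open Fermat.Agent.GJ Fermat.Agent.GJ.KumGroup Fermat.Agent.GJ.Kum.KumType
open Fermat.Agent.GK.UQ Fermat.Agent.GK.New Fermat.Agent.GK.AL Fermat.Agent.GK.UqKronecker
open Fermat.Agent.GB.A.A6.ECDet Fermat.Agent.GB.A.A6.EigQ
open Fermat.Agent.GF.Setup.Plane Fermat.Agent.GF.Setup.S0
open Fermat.Agent.GF.Trop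
open Fermat.Agent.GF.End Fermat.Agent.GF.End.Fields
open Fermat.Agent.GF.Top.CompW

attribute [local instance] finiteResidues_FN hasPrincipalDivisors_FN nonempty_place_FN
  isAlgClosed_res finiteResidues_Fres hasPrincipalDivisors_Fres nonempty_place_Fres

section Core

variable (W : WeierstrassCurve ℤ) {p : ℕ} [Fact p.Prime] (hp2 : p ≠ 2) {M' : ℕ} [NeZero M']
  (hpM' : ¬ p ∣ M') (h3 : p = 3 → 2 ∣ M') (A : ValuationSubring Kbar) (hA : A.LiesOverPrime p)
variable {ι : Type} [Fintype ι] {P Q : ι → Place (ResidueField A) (FresBar (M' * p) A)}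
variable {C : Divisor Kbar (FN (M' * p))}
  {C₁ C₂ : Divisor (ResidueField A) (FresBar (M' * p) A)} {g c : ℤ} {n₀ : ℕ}
variable (H : NodalHyp (redCompatFN (M' * p) A (exactDvd hpM')) P Q C C₁ C₂ g c n₀)

include hp2 h3 H hA in
/-- **(END), first component, every odd `p`** (`p = 3 → 2 ∣ M'`): twin of
`End.level_of_eigen₁`. -/
theorem level_of_eigen₁_odd {x : Additive (Kum Kb (FK (M' * p)) p)}
    (hT : ∀ (ℓ : ℕ) (hℓ : ℓ.Prime), W.IsGoodPrimeFor ℓ → ∀ hℓM : ¬ ℓ ∣ M' * p,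
      kumTl (M' * p) p hℓ hℓM x = ((W.apOfModel ℓ : ℤ) : ZMod p) • x)
    (htrop : trop1FN (q := p) (M' * p) A P x = 0) (hker : x ∉ kerRed (M' * p) A p) :
    W.IsResiduallyModularOfLevel p M' := by
  have hp : p.Prime := Fact.out
  haveI : NeZero p := ⟨hp.ne_zero⟩
  haveI : CharP (ResidueField A) p := Fermat.Agent.GJ.Kum.charP_residueField A hp hA
  have h : ExactDvd p (M' * p) := exactDvd hpM'
  obtain ⟨u, hu, rfl, hdiv⟩ := exists_rep_of_mem_Vf1 (M' * p) A h H hA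
    (fun j => by rw [htrop]; rfl)
  -- transport of the reduction to the level `M'`
  have hEq : FresBar (M' * p) A = FresBar M' A :=
    Fermat.Agent.GK.PsiFNGood.FresBar_mul_eq A hA M' h
  have hdiv' := dvd_ord_equivOfEq hEq (p : ℤ) _ hdiv
  have hcoe := coe_equivOfEq hEq
    ((redDataBar (M' * p) A).red ⟨((u : (FN (M' * p))ˣ) : FN (M' * p)), hu.1.2.1⟩)
  have hne0 : IntermediateField.equivOfEq hEq
      ((redDataBar (M' * p) A).red ⟨((u : (FN (M' * p))ˣ) : FN (M' * p)), hu.1.2.1⟩) ≠ 0 := by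
    intro h0
    exact hu.1.red_ne_zero ((map_eq_zero_iff _ (IntermediateField.equivOfEq hEq).injective).mp h0)
  -- GF-D2
  have hD2 : Fermat.Agent.GF.D2.D2Export M' A iotaC p :=
    Fermat.Agent.GF.D2.Asm.d2Export_of_F1 M' A iotaC hp hA hpM' (fun h2 => absurd h2 hp2) h3
      (Fermat.Agent.GF.D2.F1.formsToFunctions M' iotaC)
  obtain ⟨f, b, hfb, hth⟩ := hD2 _ hne0 hdiv'
  rw [hcoe] at hth
  -- GF-D1
  have hne := Fermat.Agent.GF.D1.exists_residue_ne_zero_of_notMem_kerRed A hA u hu.1 hker b hth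
  -- GF-D4
  refine Fermat.Agent.GF.D4.isResiduallyModularOfLevel_of_modEigen (M := M')
    (ι := iotaC.comp A.subtype) (red := IsLocalRing.residue A) f b W
    (CharP.cast_eq_zero (ResidueField A) p)
    (iotaC_injective.comp Subtype.val_injective) hfb hne ?_
  intro ℓ hℓ hgood hℓM' hℓp n
  have hℓM : ¬ ℓ ∣ M' * p := by
    intro hd
    rcases (Nat.Prime.dvd_mul hℓ).1 hd with hd | hd
    · exact hℓM' hd
    · exact hℓp ((Nat.prime_dvd_prime_iff_eq hℓ hp).1 hd)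
  haveI : NeZero ℓ := ⟨hℓ.ne_zero⟩
  have hℓk : (ℓ : ResidueField A) ≠ 0 := by
    intro h0
    have hd : p ∣ ℓ := (CharP.cast_eq_zero_iff (ResidueField A) p ℓ).1 h0
    exact hℓp ((Nat.prime_dvd_prime_iff_eq hp hℓ).1 hd).symm
  -- GF-D3
  exact Fermat.Agent.GF.D3.heig_of_d2_eigen A
    (Fermat.Agent.GJ.Kum.KumGate.hnMemHyp (M' * p) hℓ hℓM)
    (Fermat.Agent.GJ.Kum.KumGate.hnDivHyp (M' * p) p hℓ hℓM) hℓk u hu.1 (W.apOfModel ℓ)
    (hT ℓ hℓ hgood hℓM) b hth n


end Core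

section Thm

variable (W : WeierstrassCurve ℤ) {p : ℕ} [Fact p.Prime] (hp2 : p ≠ 2) {M' : ℕ} [NeZero M']
  (hpM' : ¬ p ∣ M') (h3 : p = 3 → 2 ∣ M') (C : Copy W p (M' * p))
  (hC : C.Y0 ≤ eigQ (M' * p) p (Sset W (M' * p) p) (hMS W (M' * p) p) (aW W))
  (A : ValuationSubring Kbar) (hA : A.LiesOverPrime p)
variable {ι : Type} [Fintype ι] {P Q : ι → Place (ResidueField A) (FresBar (M' * p) A)}
variable {C₀ : Divisor Kbar (FN (M' * p))}
  {C₁ C₂ : Divisor (ResidueField A) (FresBar (M' * p) A)} {g c : ℤ} {n₀ : ℕ}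
variable (H : NodalHyp (redCompatFN (M' * p) A (exactDvd hpM')) P Q C₀ C₁ C₂ g c n₀)

include hp2 h3 hC hA H in
/-- **`end₁` for every odd `p`** (every copy, every `A | p`, every nodal frame). -/
theorem end₁_odd : ∀ x ∈ C.Y0, trop1FN (q := p) (M' * p) A P x = 0 →
    x ∉ kerRed (M' * p) A p → W.IsResiduallyModularOfLevel p M' :=
  fun _ hx htrop hker =>
    level_of_eigen₁_odd W hp2 hpM' h3 A hA H (hT_of_mem W C hC hx) htrop hker

include hp2 h3 hC hA H in
/-- **`end₂` from `trop₁ (W_p x) = 0`, every odd `p`.** -/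
theorem end₂_odd : ∀ x ∈ C.Y0,
    trop1FN (q := p) (M' * p) A P (autEnd (wAut (exactDvd hpM')) p x) = 0 →
    x ∉ kerRed₂ (exactDvd hpM') A p → W.IsResiduallyModularOfLevel p M' := by
  intro x hx htrop hker
  have hp : p.Prime := Fact.out
  have hpS' : ∀ r : ℕ, r.Prime → r ∣ p → r ∈ Sset W (M' * p) p := fun r hr hrp => by
    rw [(Nat.prime_dvd_prime_iff_eq hr hp).mp hrp]
    exact hpS W (M' * p) p
  exact level_of_eigen₁_odd W hp2 hpM' h3 A hA H
    (hT_of_mem W (compW C (exactDvd hpM')) (compW_le_eigQ C (exactDvd hpM') hpS' hC)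
      (mem_compW_Y0 C (exactDvd hpM') hx))
    htrop (notMem_kerRed_compW (exactDvd hpM') A hker)

end Thm

end Fermat.Agent.GE8.LLP.EndOdd

end
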