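/-
S59 PRE-WORK / E8.4-ORD (LLP at `p`, ordinary shapes, general `W`, `p ∈ {3, 5}`), slice (c)
(helper17): **the `p`-FREE INNER CHAIN at a rigid level `M' p`.**

GATE-F proves `Core44O` (`5 ≤ p`) through `NLAll → NLSupplyK → NodeSupplyK → TropZeroT → Core44O`
with the GLOBAL test unit `θ = etaQ` (numerology `(Tt, N0) = (12 (p − 1), 12)`, dead at `p = 3`) and
the E-side hypotheses `(hss hmult hpeu)` that only manufacture `hKU : KummerUnit W p A ζ`.  Here the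
same chain with

* the E-side as BINDERS: `hKU` (for `A = padicPlace p`) and `hord : OrdAt W p` — so that it applies
  to multiplicative-peu (`ETate` + `OrdAtW.ordAt_of_mult`) AND good-ordinary (`KummerUnitGood` + line)
  curves;
* the node lemma in NODE-LOCAL form (helper91, board 7284): per node `P s` a subgroup
  `U ⊇ UsInst.Us T` of the `K'`-rational units, a test unit `θ k ∈ U` with
  `(w₁, w₂, nodeOrd) = (0, Tt, N0)`, `Tt ≡ κ N0`, `N0 ≢ 0 (p)`, and NL on `U` — the Prop `NodeLocal`,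
  and its `W`-free supplier statement `NodeLocalStmt p`;
* `p ≠ 2`, `p = 3 → 2 ∣ M'`, `nuTwo M' = nuThree M' = 0` (rigid level) only.

* `tropZero_of_nodeLocal` : `trop₁ = 0` on `Y₀` (`F2Local.const_of_nodes_local` + `tropZero_of_const`);
* `llp_of_nodeLocalStmt`  : `ResMod p (M' p) → ResMod p M'`  (twin of `core44O_of_tropZeroT`).
-/
import Fermat.Agent.GF.Top.Integrate7
import Fermat.Agent.GF.KCover.NodeMod.NlAllOfHyps
import Fermat.Agent.GE8.LLP.F2Local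
import Fermat.Agent.GE8.LLP.EndOdd

set_option autoImplicit false
set_option linter.unusedSectionVars false
set_option linter.unusedVariables false
set_option linter.style.haveILetI false

noncomputable section

namespace Fermat.Agent.GE8.LLP.Inner

open AlgebraicCurve IntermediateField Module IsLocalRing ModularCurve
open Fermat.Agent.Common_helper32
open Fermat.Agent.S24 Fermat.Agent.S24_helper62 Fermat.Agent.RRh45 Fermat.Agent.RR
open Fermat.Agent.GJ.J1 Fermat.Agent.GJ.J1.Val Fermat.Agent.GJ.J1.InstGen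
open Fermat.Agent.GK.MultiVal Fermat.Agent.GK.BallTwo Fermat.Agent.GK.NodalGraded
open Fermat.Agent.GS.Nodal.LSR2 Fermat.Agent.GS.Nodal.Inst Fermat.Agent.GS.Nodal.ROfSurj2
open Fermat.Agent.GJ Fermat.Agent.GJ.KumGroup Fermat.Agent.GJ.Kum.KumType
open Fermat.Agent.GJ.CycChar Fermat.Agent.GB.A.A6.ECDet
open Fermat.Agent.GK.UQ Fermat.Agent.GK.New Fermat.Agent.GK.AL Fermat.Agent.GK.UqKronecker
open Fermat.Agent.GK.SS
open Fermat.Agent.GL.Eta Fermat.Agent.GK.CuspSep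
open Fermat.Agent.GB.A.A6.EigQ
open Fermat.Agent.GF.Setup.Plane Fermat.Agent.GF.Setup.S0 Fermat.Agent.GF.Shape.Sub
open Fermat.Agent.GF.Shape.Plug Fermat.Agent.GF.Trop Fermat.Agent.GF.Peu Fermat.Agent.GF.ETate
open Fermat.Agent.GF.Top.S44TopOrd
open Fermat.Agent.GF.Top.Provider44T Fermat.Agent.GF.Top.Provider44D
open Fermat.Agent.GF.KCover Fermat.Agent.GF.F2Asm.Inst Fermat.Agent.GF.F2Asm.NRAsm
open Fermat.Agent.GF.F2Asm.OmegaProj
open Fermat.Agent.GF.F2Asm.UsInst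
open Fermat.Agent.GF.KCover.Field Fermat.Agent.GF.KCover.Field.Disc
open Fermat.Agent.GF.KCover.Field.WDataOf Fermat.Agent.GF.KCover.Node.OrdRedExt
open Fermat.Agent.GF.KCover.Field.WDataFinal
open Fermat.Agent.GF.KCover.Compl Fermat.Agent.GF.KCover.Compl.SheetsMod
open Fermat.Agent.GF.KCover.Int Fermat.Agent.GF.KCover.Int.TameLift
open Fermat.Agent.GF.KCover.AuxLevel
open Fermat.Agent.GF.KCover.NodeMod.ASKDef

attribute [local instance] finiteResidues_FN hasPrincipalDivisors_FN nonempty_place_FN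
  isAlgClosed_res finiteResidues_Fres hasPrincipalDivisors_Fres nonempty_place_Fres

/-! ### the node-local package -/

section NodeLocal

variable {p : ℕ} [hpF : Fact p.Prime] {M' : ℕ} [NeZero M'] (hpM' : ¬ p ∣ M')
  {A : ValuationSubring Kbar} (hA : A.LiesOverPrime p) {ζ : Kb}
  (T : TameDatum (M' * p) p A ζ)
  (hD₁ : IsDisc (valF₁ T (Fermat.Agent.GK.SS.galVal1 (M' * p) A)) (ϖ₁ T))
  (hD₂ : IsDisc (valF₁ T (Fermat.Agent.GK.SS.galVal2 (M' * p) A (exactDvd hpM'))) (ϖ₁ T))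
  {γ₁ : Pack.Lc hD₁} (hγ₁ : γ₁ ^ p = Pack.jc hD₁ (g₁ T))
  {γ₂ : Pack.Lc hD₂} (hγ₂ : γ₂ ^ p = Pack.jc hD₂ (g₁ T))

/-- **the node-local package at a place `Pl`** (helper91's seam, board 7284): a subgroup
`U ⊇ Us T` of the `K'`-rational units, a shift `c`, test units `θ k ∈ U` with
`(w₁ k, w₂ (k + c), nodeOrd_k) (θ k) = (0, Tt, N0)`, `N0 ≢ 0`, `Tt ≡ κ N0 (p)`, and the node lemma
on `U` (spelling of helper62's `NlAllOfHyps.nlPoint_mod`). -/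
def NodeLocal (Pl : Place (ResidueField A) (FresBar (M' * p) A)) (κ : ZMod p) : Prop :=
  ∃ (U : Subgroup (fixedUnits (tameGroup A ζ) T.Fp)) (c : ZMod p)
    (θ : ZMod p → fixedUnits (tameGroup A ζ) T.Fp) (Tt N0 : ℤ),
    Us T ≤ U ∧ (∀ k, θ k ∈ U) ∧
    (∀ k, wOf T hD₁ hγ₁ k (θ k) = 0) ∧ (∀ k, wOf T hD₂ hγ₂ (k + c) (θ k) = Tt) ∧
    (∀ k, nodeOrd (sheet₁ T hA hD₁ hγ₁ k) (unram_sheet₁ T hA hD₁ hγ₁ k) Pl
      (fixedUnits (tameGroup A ζ) T.Fp) (θ k) = N0) ∧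
    ((N0 : ℤ) : ZMod p) ≠ 0 ∧ ((Tt : ℤ) : ZMod p) = κ * ((N0 : ℤ) : ZMod p) ∧
    ∀ k, ∀ y ∈ U, wOf T hD₁ hγ₁ k y = 0 → wOf T hD₂ hγ₂ (k + c) y = 0 →
      (p : ℤ) ∣ nodeOrd (sheet₁ T hA hD₁ hγ₁ k) (unram_sheet₁ T hA hD₁ hγ₁ k) Pl
        (fixedUnits (tameGroup A ζ) T.Fp) y

end NodeLocal

/-! ### `trop₁ = 0` on `Y₀` -/

section Trop

variable {W : WeierstrassCurve ℤ} {p : ℕ} [hpF : Fact p.Prime] [NeZero p] {M' : ℕ} [NeZero M']

/-- **(F2) node-local + (EIS) constant ⟹ `trop₁ = 0` on `Y₀`**, at a rigid level `M' p`, every odd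
`p` (`p = 3 → 2 ∣ M'`). -/
theorem tropZero_of_nodeLocal (hΔ : W.Δ ≠ 0) (hpM' : ¬ p ∣ M') (hp2 : p ≠ 2)
    (h3 : p = 3 → 2 ∣ M') (hν2 : nuTwo M' = 0) (hν3 : nuThree M' = 0)
    (C : Copy W p (M' * p))
    (hC : C.Y0 ≤ eigQ (M' * p) p (Sset W (M' * p) p) (hMS W (M' * p) p) (aW W))
    (ℓ₀ : ℕ) (hℓ₀ : ℓ₀.Prime) (hℓ₀S : ℓ₀ ∉ Sset W (M' * p) p)
    (hne : ((aW W ℓ₀ : ℤ) : ZMod p) ≠ ((ℓ₀ : ℕ) : ZMod p) + 1)
    (A : ValuationSubring Kbar) (hA : A.LiesOverPrime p)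
    {ι : Type} [Fintype ι]
    {P Q : ι → Place (ResidueField A) (FresBar (M' * p) A)} {c : ℤ} {n₀ : ℕ}
    (FF : FrameFacts (M' * p) A (exactDvd hpM') P Q)
    (NH : NodalHyp (redCompatFN (M' * p) A (exactDvd hpM')) P Q (CS (M' * p) (exactDvd hpM'))
      (Dτ (M' * p) A p) (Dτ (M' * p) A p) (genusRR Kbar (FN (M' * p))) c n₀)
    (hd : ∀ Q' : Place (ResidueField A) (FresBar (M' * p) A), 0 ≤ Q'.ord (tauF (M' * p) A) →
      (∀ s, Q' ≠ P s) →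
      Q'.ord ((redDataBar (M' * p) A).red
        ⟨etaQ (M' * p) p (exactDvd hpM').dvd,
          etaQ_mem_Rw1 (M' * p) A p (exactDvd hpM').dvd⟩) = 0)
    (he : ∀ s, 0 < (P s).ord ((redDataBar (M' * p) A).red
        ⟨etaQ (M' * p) p (exactDvd hpM').dvd,
          etaQ_mem_Rw1 (M' * p) A p (exactDvd hpM').dvd⟩))
    {ζ : Kb} (hKU : KummerUnit W p A ζ)
    (D : LineData (gal (M' * p) p) (A.inertiaSubgroupIn ℚ) C.Y0
      (M0Kum (M' * p) A (exactDvd hpM') p) (fun σ => ((cyc p σ : (ZMod p)ˣ) : ZMod p)))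
    (T : TameDatum (M' * p) p A ζ)
    (hg : (Additive.ofMul (Kum.mk T.g) : Additive (Kum Kb (FK (M' * p)) p)) =
      (-1 : ZMod p) • D.w₀)
    (hlc : (qEmb (M' * p) T.g₀).leadingCoeff = 1)
    (hD₁ : IsDisc (valF₁ T (Fermat.Agent.GK.SS.galVal1 (M' * p) A)) (ϖ₁ T))
    (hD₂ : IsDisc (valF₁ T (Fermat.Agent.GK.SS.galVal2 (M' * p) A (exactDvd hpM'))) (ϖ₁ T))
    {γ₁ : Pack.Lc hD₁} (hγ₁ : γ₁ ^ p = Pack.jc hD₁ (g₁ T))
    {γ₂ : Pack.Lc hD₂} (hγ₂ : γ₂ ^ p = Pack.jc hD₂ (g₁ T))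
    (κ : ZMod p) (hκ : κ ≠ 0)
    (hloc : ∀ s, NodeLocal hpM' hA T hD₁ hD₂ hγ₁ hγ₂ (P s) κ) :
    ∀ y ∈ C.Y0, trop1FN (q := p) (M' * p) A P y = 0 := by
  have hneg : (-1 : ZMod p) ≠ 0 := neg_ne_zero.mpr one_ne_zero
  choose U cs θ Tt N0 hU hθU hθ1 hθ2 hθn hN0 hTκ NL using hloc
  have hun := Fermat.Agent.GS.F.unram_redDataBar (M' * p) A
  refine F2Local.tropZero_of_const hΔ hpM' hp2 h3 hν2 hν3 C hC ℓ₀ hℓ₀ hℓ₀S hne A hA FF NH hd he ?_
  exact F2Local.const_of_nodes_local T (wData T hA hD₁ hD₂ hγ₁ hγ₂) C hA hKU D (-1) hneg hg hlc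
    (hvK T hA hD₁ hD₂ hγ₁ hγ₂) (fun _ => 0) cs (fun s _ => U s)
    (fun s _ => hU s (piUnit_mem_Us T))
    (fun u _ f hf s _ => hU s (mem_Us_of_kummer T u f hf))
    (fun s j => nodeOrd (sheet₁ T hA hD₁ hγ₁ j) (unram_sheet₁ T hA hD₁ hγ₁ j) (P s)
      (fixedUnits (tameGroup A ζ) T.Fp))
    (fun s j y z => nodeOrd_mul (sheet₁ T hA hD₁ hγ₁ j) (unram_sheet₁ T hA hD₁ hγ₁ j) (P s) _ y z)
    (fun s j c hc => by
      obtain ⟨c₀, hc₀⟩ := T.mem_C.mp hc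
      exact nodeOrd_const (sheet₁ T hA hD₁ hγ₁ j) (unram_sheet₁ T hA hD₁ hγ₁ j) (P s) _ c hc₀)
    (fun s j => θ s j) (fun s j => hθU s j) Tt N0
    (fun s j => by
      show wOf T hD₁ hγ₁ (j + 0) (θ s j) = 0
      rw [add_zero]
      exact hθ1 s j)
    (fun s j => hθ2 s j) (fun s j => hθn s j) hN0 κ hκ hTκ
    (fun s j u hu h1 h2 => NL s j u hu (by
      have h1' : wOf T hD₁ hγ₁ (j + 0) u = 0 := h1
      rwa [add_zero] at h1') h2)
    (fun x => trop1FN (q := p) (M' * p) A P x)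
    (fun u _ f hf s j => by
      obtain ⟨h, hh, hf⟩ := hf
      show ((ordRed (sheet₁ T hA hD₁ hγ₁ j) (unram_sheet₁ T hA hD₁ hγ₁ j) (P s)
        (((f : T.Fpˣ) : T.Fp)) : ℤ) : ZMod p) =
          ((ordRed (redDataBar (M' * p) A) hun (P s)
            (((u : (FK (M' * p))ˣ) : FK (M' * p))) : ℤ) : ZMod p)
      exact ordRed_kummer_rep_one (redExt_sheet₁ T hA hD₁ hγ₁ j) hun
        (unram_sheet₁ T hA hD₁ hγ₁ j) (P s) p (u : (FK (M' * p))ˣ).ne_zero hh hf)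

end Trop

/-! ### the `W`-free supplier statement and the level-lowering conclusion -/

section LLP

open Fermat.Agent.GF.Top.SkeletonZ Fermat.Agent.GF.Top.S44Top
open Fermat.Agent.GF.Top.Provider44Z Fermat.Agent.GF.Top.CompW Fermat.Agent.GF.Top.Provider44O
open Fermat.Agent.GF.Top.Provider44Op Fermat.Agent.GF.Top.Provider44P

/-- **the `W`-free supplier of the node-local packages** (helper91's deliverable, slice (a)): at a
rigid level `M' p` (`p = 3 → 2 ∣ M'`, `nuTwo M' = nuThree M' = 0`), for every supersingular nodal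
frame with clauses (d) (e), every tame datum `T` with `lc_q T.g₀ = 1`, `SigmaRel T`, the two deep
representatives and the Artin–Schreier + Krull input, and every pair of roots `γ₁ γ₂`: ONE unit
`κ ∈ 𝔽_p` and a `NodeLocal` package at every node `P s`. -/
def NodeLocalStmt (p : ℕ) [Fact p.Prime] : Prop :=
  ∀ (M' : ℕ) [NeZero M'] (hpM' : ¬ p ∣ M') (_ : p = 3 → 2 ∣ M')
    (_ : nuTwo M' = 0) (_ : nuThree M' = 0)
    (A : ValuationSubring Kbar) (hA : A.LiesOverPrime p)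
    (ι : Type) [Fintype ι]
    (P Q : ι → Place (ResidueField A) (FresBar (M' * p) A)) (c : ℤ) (n₀ : ℕ)
    (_ : FrameFacts (M' * p) A (exactDvd hpM') P Q)
    (_ : NodalHyp (redCompatFN (M' * p) A (exactDvd hpM')) P Q (CS (M' * p) (exactDvd hpM'))
      (Dτ (M' * p) A p) (Dτ (M' * p) A p) (genusRR Kbar (FN (M' * p))) c n₀)
    (_ : clauseD p M' hpM' A ι P Q)
    (ζ : Kb) (T : TameDatum (M' * p) p A ζ)
    (_ : (qEmb (M' * p) T.g₀).leadingCoeff = 1)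
    (_ : SigmaRel T)
    (_ : DeepRep T (Fermat.Agent.GK.SS.galVal1 (M' * p) A))
    (_ : DeepRep T (Fermat.Agent.GK.SS.galVal2 (M' * p) A (exactDvd hpM')))
    (_ : ∀ c₀ : ResidueField A, ASK T (exactDvd hpM') c₀)
    (hD₁ : IsDisc (valF₁ T (Fermat.Agent.GK.SS.galVal1 (M' * p) A)) (ϖ₁ T))
    (hD₂ : IsDisc (valF₁ T (Fermat.Agent.GK.SS.galVal2 (M' * p) A (exactDvd hpM'))) (ϖ₁ T))
    (γ₁ : Pack.Lc hD₁) (hγ₁ : γ₁ ^ p = Pack.jc hD₁ (g₁ T))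
    (γ₂ : Pack.Lc hD₂) (hγ₂ : γ₂ ^ p = Pack.jc hD₂ (g₁ T)),
    ∃ κ : ZMod p, κ ≠ 0 ∧ ∀ s, NodeLocal hpM' hA T hD₁ hD₂ hγ₁ hγ₂ (P s) κ

/-- **E8.4-ORD, inner form at a rigid level**: for `W` with `E`-side Kummer unit at
`A = padicPlace p` and an ordinary line (`OrdAt W p`), `ρ̄` irreducible, `p ≠ 2`, a rigid level
`M'` prime to `p` (`p = 3 → 2 ∣ M'`): residually modular of level `M' p` ⟹ of level `M'`.
Twin of `Provider44T.core44O_of_tropZeroT ∘ F2PlugK.tropZeroT_of_nodeSupplyK` with the E-side as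
binders and the node lemma in node-local form. -/
theorem llp_of_nodeLocalStmt (W : WeierstrassCurve ℤ) (hΔ : W.Δ ≠ 0) (p : ℕ) [Fact p.Prime]
    (hp2 : p ≠ 2) (hirr : W.ModRepIsIrreducible p) (hord : OrdAt W p)
    (hKU : ∀ ζ : Kb, IsPrimitiveRoot ζ p → KummerUnit W p (padicPlace p) ζ)
    (hNL : NodeLocalStmt p)
    (M' : ℕ) [NeZero M'] (hpM' : ¬ p ∣ M') (h3 : p = 3 → 2 ∣ M')
    (hν2 : nuTwo M' = 0) (hν3 : nuThree M' = 0)
    (hmod : W.IsResiduallyModularOfLevel p (M' * p)) :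
    W.IsResiduallyModularOfLevel p M' := by
  have hp : p.Prime := Fact.out
  haveI : NeZero p := ⟨hp.ne_zero⟩
  by_contra hnot
  obtain ⟨C, hC⟩ := exists_setup W hΔ hp2 hirr hmod
  obtain ⟨ℓ₀, hℓ₀, hℓ₀S, hne⟩ := exists_nonEis W hΔ hp2 hirr (M' * p) (p := p)
  obtain ⟨A, hAp⟩ : ∃ A : ValuationSubring Kbar, A = padicPlace p := ⟨_, rfl⟩
  have hA : A.LiesOverPrime p := by
    rw [hAp]
    exact Fermat.Agent.GP.Loc.PadicPlace.padicPlace_liesOverPrime p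
  obtain ⟨ι, _, P, Q, c, n₀, FF, NH, hd, he⟩ :=
    Fermat.Agent.GF.Eis.NodesSS.exists_nodalHyp_ss (M' * p) p A (exactDvd hpM') hA
      (fun h2 => absurd h2 hp2) (fun e => Dvd.dvd.mul_right (h3 e) p)
  have hpS' : ∀ r : ℕ, r.Prime → r ∣ p → r ∈ Sset W (M' * p) p := fun r hr hrp => by
    rw [(Nat.prime_dvd_prime_iff_eq hr hp).mp hrp]
    exact hpS W (M' * p) p
  have hC' := compW_le_eigQ C (exactDvd hpM') hpS' hC
  obtain ⟨ζ, hζ⟩ := exists_primitiveRoot p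
  have hKU' : KummerUnit W p A ζ := by
    rw [hAp]
    exact hKU ζ hζ
  have hcard₁ : Nat.card (Tp W p) = p ^ 2 := hcard_of W hΔ p
  -- [SS]
  have hnl : ∀ C' : Copy W p (M' * p),
      ¬ ((C'.Y0 : Set (Additive (Kum Kb (FK (M' * p)) p))) ⊆
        M0Kum (M' * p) A (exactDvd hpM') p) := fun C' =>
    Fermat.Agent.GF.SS.OfOrdinary.not_le_of_isOrdinaryAt C' (exactDvd hpM') hp2
      (fun e => Dvd.dvd.mul_right (h3 e) p) A hA hcard₁ (finiteLevel_rho hcard₁)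
      (hord hcard₁ (finiteLevel_rho hcard₁))
  -- (F2) + (EIS)
  have key : ∀ (C' : Copy W p (M' * p))
      (_ : C'.Y0 ≤ eigQ (M' * p) p (Sset W (M' * p) p) (hMS W (M' * p) p) (aW W)),
      ∀ x ∈ C'.Y0, trop1FN (q := p) (M' * p) A P x = 0 := by
    intro C' hCC
    obtain ⟨D⟩ := (Fermat.Agent.GF.Setup.ShapePlug.shapeHyp C' hΔ hcard₁ hirr hp2 A hA _
      (fun _ hσ y _ => gal_sub_mem_M0Kum hA hσ y) (hnl C')).nonempty_lineData
    obtain ⟨T, hneg, hg, hlc, hσ⟩ :=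
      Fermat.Agent.GF.F2Asm.TameSigma.exists_tameDatum_sigma_of_lineData (ζ := ζ) hA hζ D
    have hD₁ : IsDisc (valF₁ T (Fermat.Agent.GK.SS.galVal1 (M' * p) A)) (ϖ₁ T) :=
      isDisc T hA (Fermat.Agent.GK.SS.galVal1 (M' * p) A) (fun u hu hfix =>
        Fermat.Agent.GF.KCover.Int.exists_zpow_valuation_of_fixed₁ (M' * p) A hA T.prim u hu hfix)
    have hD₂ : IsDisc (valF₁ T (Fermat.Agent.GK.SS.galVal2 (M' * p) A (exactDvd hpM'))) (ϖ₁ T) :=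
      isDisc T hA (Fermat.Agent.GK.SS.galVal2 (M' * p) A (exactDvd hpM')) (fun u hu hfix =>
        Fermat.Agent.GF.KCover.Int.exists_zpow_valuation_of_fixed₂ (M' * p) A (exactDvd hpM') hA
          T.prim u hu hfix)
    have hdeep := Fermat.Agent.GF.KCover.ASRep.DeepRepPlug.deepRep_of_lineData W hpM' hA hp2 hnot
      C' hCC FF NH T hlc le_rfl D (-1) hg
    obtain ⟨⟨d₁, z₁, hd₁, hz₁, hg₁, hdeep₁⟩, ⟨d₂, z₂, hd₂, hz₂, hg₂, hdeep₂⟩⟩ := hdeep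
    obtain ⟨γ₁, hγ₁⟩ := exists_root T hA hD₁ hd₁ hz₁ hg₁ hdeep₁
    obtain ⟨γ₂, hγ₂⟩ := exists_root T hA hD₂ hd₂ hz₂ hg₂ hdeep₂
    have hASK : ∀ c₀ : ResidueField A, ASK T (exactDvd hpM') c₀ := fun c₀ =>
      Fermat.Agent.GF.KCover.ASRep.ASKSupply.ask_of_lineData W hpM' hA hp2 hnot C' hCC FF NH T hlc
        le_rfl D (-1) hg c₀
    obtain ⟨κ, hκ, hloc⟩ := hNL M' hpM' h3 hν2 hν3 A hA ι P Q c n₀ FF NH ⟨hd, he⟩ ζ T hlc hσ
      ⟨d₁, z₁, hd₁, hz₁, hg₁, hdeep₁⟩ ⟨d₂, z₂, hd₂, hz₂, hg₂, hdeep₂⟩ hASK hD₁ hD₂ γ₁ hγ₁ γ₂ hγ₂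
    exact tropZero_of_nodeLocal hΔ hpM' hp2 h3 hν2 hν3 C' hCC ℓ₀ hℓ₀ hℓ₀S hne A hA FF NH hd he
      hKU' D T hg hlc hD₁ hD₂ hγ₁ hγ₂ κ hκ hloc
  have F : FieldsAtO W p M' hpM' C A P :=
    ⟨hnl C, key C hC, EndOdd.end₁_odd W hp2 hpM' h3 C hC A hA NH⟩
  have F' : FieldsAtO W p M' hpM' (compW C (exactDvd hpM')) A P :=
    ⟨hnl _, key _ hC', EndOdd.end₁_odd W hp2 hpM' h3 (compW C (exactDvd hpM')) hC' A hA NH⟩
  exact hnot (chainZ_of_fieldsAtZ W p M' hpM' C A hA P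
    (fieldsAtZ_of_fieldsAtO W p M' hpM' C A P F F')).goal

end LLP

end Fermat.Agent.GE8.LLP.Inner

end
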