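/-
GATE-E (S59) / E8.4-ORD, p = 3 chain (helper75): **`nl_point_loc_U'`** = `NlPointU.nl_point_loc_U`
with the horizontal-divisor binder `hhor` RECEIVING the rank
`hrank : Module.finrank F₀ (fixedTame x) = p` (which is produced INSIDE from `K0Inst.hrank` +
`HzAS.norm_emb_Z_le_one`), so that helper57's `HhorK0Inst.hhor_locSub` and helper91's
`HhorLoc.hhor_locSub_loc` (both take `hrank`) plug in by
`fun hrank θ₀ => hhor_locSub.. h T hτ hx _ hA hgen hrank θ₀`.
-/
import Fermat.Agent.GE8.LLP.NlPointU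
import Fermat.Agent.GF.KCover.NodeMod.K0Inst
import Fermat.Agent.GF.KCover.NodeMod.HzAS
import Fermat.Agent.GF.KCover.NodeMod.HintF1
import Fermat.Agent.GF.KCover.NodeMod.SheetDataMod
import Fermat.Agent.GF.KCover.NodeMod.HhorK0Inst

set_option autoImplicit false
set_option linter.unusedSectionVars false
set_option linter.unusedVariables false
set_option linter.style.haveILetI false

noncomputable section

open Polynomial AlgebraicCurve

namespace Fermat.Agent.GE8.LLP.NlPointU2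

open Fermat.Agent.GF Fermat.Agent.GF.KCover Fermat.Agent.GF.KCover.NodeMod

open ModularCurve IsLocalRing IsDedekindDomain
open Fermat.Agent.GL.Val.GaussK0 Fermat.Agent.GL.Val.SecondK0
open Fermat.Agent.GJ.KumGroup Fermat.Agent.GJ.J1 Fermat.Agent.GJ.J1.Val
open Fermat.Agent.GK.AL Fermat.Agent.GL.AL Fermat.Agent.GK.QS Fermat.Agent.GK.SS
open Fermat.Agent.Common_helper32
open Fermat.Agent.S24 Fermat.Agent.S24_helper6
open Fermat.Agent.GF.Trop
open Fermat.Agent.GL.BRingK0 Fermat.Agent.GL.BRingChart Fermat.Agent.GL.Thick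
open Fermat.Agent.GL.KrullHeightOne
open Fermat.Agent.GF.KCover.Node Fermat.Agent.GF.KCover.Node.NodeRingK0Pkg
open Fermat.Agent.GF.KCover.Node.NodeRingK0Level
open Fermat.Agent.GF.KCover.Field Fermat.Agent.GF.KCover.Field.Disc
  Fermat.Agent.GF.KCover.Field.Pack
open Fermat.Agent.GF.KCover.Compl Fermat.Agent.GF.KCover.Compl.Bridge
  Fermat.Agent.GF.KCover.Compl.RedCompl Fermat.Agent.GF.KCover.Compl.RedAut
  Fermat.Agent.GF.KCover.Compl.BridgeTau
open Fermat.Agent.GF.KCover.Node.OrdRedExt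
  Fermat.Agent.GF.KCover.Node.NlNode Fermat.Agent.GF.KCover.Node.NlNodeSheets
open Fermat.Agent.GF.KCover.NodeMod.NlNodeSmoothMod
open Fermat.Agent.GF.KCover.ASNode Fermat.Agent.GF.KCover.ASNode.KrullUp

attribute [local instance] Fermat.Agent.GL.Frame.InstK0.algSubringFullC

local notation "Qb" => AlgebraicClosure ℚ
local notation "GQ" => (AlgebraicClosure ℚ ≃ₐ[ℚ] AlgebraicClosure ℚ)

open Fermat.Agent.GF.F2Asm.KummerExt Fermat.Agent.GF.F2Asm.Inst Fermat.Agent.GF.KCover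
open Fermat.Agent.GF.Peu Fermat.Agent.GF.F2Asm
open Fermat.Agent.GF.KCover.Field.WDataOf Fermat.Agent.GF.KCover.Field.RescaleMod
open Fermat.Agent.GF.KCover.Compl.SheetsMod
open Fermat.Agent.GF.KCover.Int Fermat.Agent.GF.KCover.Int.TameLift
open Fermat.Agent.GF.KCover.Int.K0Model

attribute [local instance] actFK algE'

variable {A : ValuationSubring Qb} {N' : ℕ} [NeZero N'] {p : ℕ} [hpF : Fact p.Prime] [NeZero p]
  (h : ExactDvd p (N' * p)) (hpN : ¬ p ∣ N') (hA : A.LiesOverPrime p)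

variable [IsDedekindDomain (CRing N' A)] [IsFractionRing (CRing N' A) (FresBar N' A)]

variable {ζ : Qb} (T : TameDatum (N' * p) p A ζ)

local notation "F0" => modularFunctionFieldFullC (K0 A) (N' * p)

set_option maxHeartbeats 8000000 in
/-- **The modular per-point theorem on a subgroup `U`, `K₀`-model block discharged**, with the
horizontal-divisor binder `hhor` RECEIVING `hrank` (so that `HhorK0Inst.hhor_locSub` /
`HhorLoc.hhor_locSub_loc` plug in without re-deriving the rank outside). -/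
theorem nl_point_loc_U' [IsFractionRing (BRingK0 N' p A h) F0]
    (h2 : p = 2 → 3 ∣ N') (h3 : p = 3 → 2 ∣ N')
    (hν2 : nuTwo N' = 0) (hν3 : nuThree N' = 0)
    -- the two Gauss valuations of the cover frame
    (hD₁ : IsDisc (valF₁ T (Fermat.Agent.GK.SS.galVal1 (N' * p) A)) (ϖ₁ T))
    (hD₂ : IsDisc (valF₁ T (Fermat.Agent.GK.SS.galVal2 (N' * p) A h)) (ϖ₁ T))
    {γ₁ : Pack.Lc hD₁} (hγ₁ : γ₁ ^ p = Pack.jc hD₁ (g₁ T))
    {γ₂ : Pack.Lc hD₂} (hγ₂ : γ₂ ^ p = Pack.jc hD₂ (g₁ T))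
    -- the Artin–Schreier form of the cover, with the Krull datum of `g1` at `c₀`
    {v g1 : F₁ (N' * p) A ζ} (hv : v ≠ 0) (hrel : 1 + cz T ^ p * g1 = g₁ T * v ^ p)
    {Mg : Type*} [Group Mg] [Finite Mg] {χ : GQ →* Mg} {c₀ : IsLocalRing.ResidueField A}
    (hK : KrullData A (N' * p) h χ c₀ (g1 : FK (N' * p)))
    -- the tame generator (= the outputs of `Int.exists_tame_generator`, `TameUs.exists_tame_action`)
    {τ : GQ} (hτ : τ ∈ A.inertiaSubgroupIn ℚ)
    (hgen : ∀ σ ∈ A.inertiaSubgroupIn ℚ, ∃ m : ℕ, IsTameFix A ζ ((τ ^ m)⁻¹ * σ))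
    {x : E' T ≃+* E' T}
    (hx : IsOver (x : E' T →+* E' T)
      ((tauF₁ T hτ : F₁ (N' * p) A ζ ≃+* F₁ (N' * p) A ζ) :
        F₁ (N' * p) A ζ →+* F₁ (N' * p) A ζ))
    (hxδ : Commute (x : E' T →+* E' T) (deck (isAdj' T) (ζ₁_prim T)))
    (hxd : x ^ (p - 1) = 1)
    (U : Subgroup (fixedUnits (tameGroup A ζ) T.Fp))
    (a : U →* U)
    (ha : ∀ u : U, toE' T (a u : fixedUnits (tameGroup A ζ) T.Fp)
      = x (toE' T (u : fixedUnits (tameGroup A ζ) T.Fp)))
    -- the place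
    (Pl : Place (IsLocalRing.ResidueField A) (FresBar (N' * p) A))
    (hPl : ContainsC hpN hA Pl)
    (hc₀ : Fermat.Agent.GK.NodalGraded.ValueAt Pl
      (fresInclInv hpN hA (Fermat.Agent.GK.QS.jt N' A)) c₀)
    -- the horizontal-divisor binder over `U`, in the spelling of `HhorK0Inst.hhor_locSub`
    (hhor :
      letI := K0Inst.algF₀ T hτ hx
      letI := K0Inst.algR
          (R := locSub F0 (centreP (A := A) h hpN hA (primeL hpN hA Pl hPl))) T hτ hx
      Module.finrank F0 (fixedTame x) = p →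
      ∀ (θ₀ : fixedTame x) (u : U) (u₀ : fixedTame x),
      toE' T (u : fixedUnits (tameGroup A ζ) T.Fp) = (u₀ : E' T) →
      ∀ V : ValuationSubring (fixedTame x), IsDiscreteValuationRing V →
      (∀ r : locSub F0 (centreP (A := A) h hpN hA (primeL hpN hA Pl hPl)),
        algebraMap (locSub F0 (centreP (A := A) h hpN hA (primeL hpN hA Pl hPl)))
          (fixedTame x) r ∈ V) → θ₀ ∈ V →
      (algebraMap (locSub F0 (centreP (A := A) h hpN hA (primeL hpN hA Pl hPl))) (fixedTame x)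
        (algebraMap (BRingK0 N' p A h)
          (locSub F0 (centreP (A := A) h hpN hA (primeL hpN hA Pl hPl)))
          (NodeRingK0.ellB h)))⁻¹ ∈ V →
      ∃ z : fixedTame x, z ≠ 0 ∧ u₀ * z ^ p ∈ V ∧ (u₀ * z ^ p)⁻¹ ∈ V) :
    ∃ c : ZMod p, ∀ k : ZMod p, ∀ y ∈ U,
      wOf T hD₁ hγ₁ k y = 0 → wOf T hD₂ hγ₂ (k + c) y = 0 →
      (p : ℤ) ∣ nodeOrd (sheet₁ T hA hD₁ hγ₁ k) (unram_sheet₁ T hA hD₁ hγ₁ k) Pl
        (fixedUnits (tameGroup A ζ) T.Fp) y := by
  have hp := hpF.out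
  haveI := isNoetherianRing_BRingK0 h hA
  haveI := isIntegrallyClosed_BRingK0 h hA
  -- the local ring of the chart at the point
  haveI : IsNoetherianRing (locSub F0 (centreP (A := A) h hpN hA (primeL hpN hA Pl hPl))) :=
    K0Inst.isNoetherianRing_locSub _
  haveI : IsIntegrallyClosed (locSub F0 (centreP (A := A) h hpN hA (primeL hpN hA Pl hPl))) :=
    K0Inst.isIntegrallyClosed_locSub _
  -- the `K₀`-model of the fixed field
  letI := K0Inst.algF₀ T hτ hx
  letI := K0Inst.algR (R := locSub F0 (centreP (A := A) h hpN hA (primeL hpN hA Pl hPl))) T hτ hx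
  haveI := K0Inst.tower_algR
    (R := locSub F0 (centreP (A := A) h hpN hA (primeL hpN hA Pl hPl))) T hτ hx
  -- frame facts
  have hcop : Nat.Coprime (p - 1) p := by
    rw [Nat.coprime_comm, hp.coprime_iff_not_dvd]
    intro hdvd
    have := Nat.le_of_dvd (by have := hp.one_lt; omega) hdvd
    have := hp.one_lt
    omega
  have hg₀ : (1 + cz T ^ p * g1 : F₁ (N' * p) A ζ) ≠ 0 := by
    rw [hrel]
    exact mul_ne_zero (g₁_ne_zero T) (pow_ne_zero _ hv)
  have hxd' : (x : E' T →+* E' T) ^ (p - 1) = 1 := by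
    rw [ringEquiv_coe_pow, hxd]
    rfl
  have hxδ' : Commute (x : E' T →+* E' T) (deck (frameAS T hv hrel) (ζ₁_prim T)) := by
    rw [deck_frameAS]
    exact hxδ
  have hg1A : valF₁ T (Fermat.Agent.GK.SS.galVal1 (N' * p) A) g1 ≤ 1 := by
    rw [valF₁_apply, ValuationSubring.valuation_le_one_iff]
    exact hK.mem1
  have hg1B : valF₁ T (Fermat.Agent.GK.SS.galVal2 (N' * p) A h) g1 ≤ 1 := by
    rw [valF₁_apply, ValuationSubring.valuation_le_one_iff]
    exact hK.mem2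
  -- the tame trace
  have hθmem : TraceRes.traceTame x (p - 1) (Zas T hv hrel) ∈ fixedTame x :=
    TraceRes.traceTame_mem_fixedTame hxd _
  -- `hrank`
  have hz : ‖emb (frameAS T hv hrel) (ζ₁_prim T) (jc hD₁) (rootAS_pow T hrel hD₁ hγ₁) 0
      (Zas T hv hrel)‖ ≤ 1 :=
    HzAS.norm_emb_Z_le_one hD₁ (frameAS T hv hrel) (ζ₁_prim T) (rootAS_pow T hrel hD₁ hγ₁)
      (ζ₁_eq T) (frameAS_root_eq T hv hrel) rfl hg1A 0
  obtain ⟨hrank, hfin⟩ := K0Inst.hrank T hτ hx hgen hA hD₁ (frameAS T hv hrel)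
    (rootAS_pow T hrel hD₁ hγ₁) hxδ' hg₀ hcop hxd' (tauF₁_pow T hτ) (ζ₁_eq T) (cz_ne_zero T)
    (valF₁_cz_lt_one T hA _) (frameAS_root_eq T hv hrel) hz
    ⟨TraceRes.traceTame x (p - 1) (Zas T hv hrel), hθmem⟩ rfl
  haveI : FiniteDimensional F0 (fixedTame x) := hfin
  exact NlPointU.nl_point_mod_U h hpN hA T h2 h3 hν2 hν3 hD₁ hD₂ hγ₁ hγ₂ hv hrel hg1A hg1B hτ hgen
    hx hxδ hxd U a ha Pl hPl
    (R := locSub F0 (centreP (A := A) h hpN hA (primeL hpN hA Pl hPl)))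
    (K0Inst.hι₀ T hτ hx) hrank
    (HintF1.hintg_of_krullData h hpN hA hK Pl hPl hc₀ g1.2)
    ⟨TraceRes.traceTame x (p - 1) (Zas T hv hrel), hθmem⟩ rfl
    (fun r => K0Inst.hRA h hpN hA _ T (ker_redC1K0_le_centreP h hpN hA _) r)
    (fun hnode r => K0Inst.hRB h hpN hA _ T (ker_redC2K0_le_centreP h hpN hA _ hnode) r)
    (fun i b hb => SheetDataMod.hρB₁_sheetK h hpN hA (F₁ (N' * p) A ζ).subtype (hincl₁ T) hD₁
      (harch₁ T hA) (ζ₁_prim T) hγ₁ (isAdjS T) (E' T).subtype (fixedTame x) (fun b => rfl) i b hb)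
    (fun hnode i b hb => SheetDataMod.hρB₂_sheetK h hpN hA (F₁ (N' * p) A ζ).subtype (hincl₂ T h)
      hD₂ (harch₂ T h hA) (ζ₁_prim T) hγ₂ (isAdjS T) (E' T).subtype (fixedTame x) (fun b => rfl)
      i b hb)
    (hhor hrank _)

end Fermat.Agent.GE8.LLP.NlPointU2
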