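/-
S59 PRE-WORK / E8.4 LLP at `p = 3` (helper96's design note, board 6943 (3); helper17's `F2Local`),
slice (a), file 1 (helper91, second seat of helper17): **the NODE-LOCAL subgroup `UsLoc`**.

GATE-F's `UsInst.Us T` asks `p ∣ ord_P y` at EVERY place `P` of the cover `T.Fp / ℚ̄` at which `j` is
regular.  The node-local test unit `θ_s` of `F2Local.const_of_nodes_local` (a `K₀`-rational local
equation of the second branch at the node `P s`) has a horizontal divisor which is `p`-divisible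
only NEAR the node; the per-point theorem `NlPointDataK0.nl_point_data_K0` is however abstract in
`Us` and its horizontal binder `hhor` only looks at the discrete valuation rings `V ⊇ R = B_𝔫`
(the places of the generic fibre specialising to the point).  So the right subgroup is

  `UsLoc T Rs = {y ∈ fixedUnits I′ T.Fp | ∀ P : Place ℚ̄ T.Fp, (∀ r ∈ Rs, r ∈ O_P) → p ∣ ord_P y}`

for a set `Rs` of `K₀`-rational functions (`Rs := locSub F₀ 𝔫`, embedded through
`algebraMap (FK N) T.Fp ∘ mapK0Bar A N`).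

* `UsLoc T Rs`, `mem_UsLoc`, `UsLoc_anti` (`Rs ⊆ Rs' ⟹ UsLoc T Rs ≤ UsLoc T Rs'`);
* `Us_le_UsLoc` : `j ∈ Rs ⟹ UsInst.Us T ≤ UsLoc T Rs` (so `hUf`, `hϖU` of `F2Local` are inherited);
* `mem_UsLoc_of_const`, `piUnit_mem_UsLoc`, `mem_UsLoc_of_kummer`, `mem_UsLoc_of_ord_eq_zero`;
* `actU_mem_UsLoc`, `actUsLoc`, **`exists_tame_action_loc`** : the tame generator on `UsLoc T Rs`
  (twin of `TameUs.exists_tame_action`; same `x`, `g` for every `Rs`).
-/
import Fermat.Agent.GF.KCover.Int.TameUs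
import Fermat.Agent.GF.KCover.Int.K0Model
import Fermat.Agent.GL.Val.OrthK0

set_option autoImplicit false
set_option linter.unusedSectionVars false
set_option linter.style.haveILetI false
set_option linter.dupNamespace false

noncomputable section

namespace Fermat.Agent.GE8.LLP.UsLoc

open ModularCurve Polynomial AlgebraicCurve
open Fermat.Agent.S24
open Fermat.Agent.GK.SS Fermat.Agent.GK.AL Fermat.Agent.GJ.KumGroup Fermat.Agent.GF.Peu
open Fermat.Agent.GJ.Kum.KumType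
open Fermat.Agent.GF.F2Asm.Inst Fermat.Agent.GF.KCover
open Fermat.Agent.GF.KCover.Field Fermat.Agent.GF.KCover.Field.WDataOf
open Fermat.Agent.GF.KCover.Field.Disc Fermat.Agent.GF.KCover.Int
open Fermat.Agent.GF.KCover.Int.TameLift Fermat.Agent.GF.KCover.Int.TameExt
open Fermat.Agent.GF.KCover.Int.TameUs
open Fermat.Agent.GF.F2Asm Fermat.Agent.GF.KCover.Node
open Fermat.Agent.GF.F2Asm.NRAsm Fermat.Agent.GF.F2Asm.EtaCover
open Fermat.Agent.GL.Val.GaussK0 Fermat.Agent.GL.Val.SecondK0 Fermat.Agent.GL.RatLiftK0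

local notation "Qb" => AlgebraicClosure ℚ
local notation "GQ" => (AlgebraicClosure ℚ ≃ₐ[ℚ] AlgebraicClosure ℚ)

variable {N : ℕ} [NeZero N] {p : ℕ} [hpF : Fact p.Prime] {A : ValuationSubring Qb} {ζ : Qb}

attribute [local instance] actFK algE'

variable (T : TameDatum N p A ζ)

/-- a `K₀`-rational function on the cover. -/
def k0Cover (r : modularFunctionFieldFullC (K0 A) N) : T.Fp :=
  algebraMap (FK N) T.Fp (mapK0Bar A N r)

theorem k0Cover_jK0 : k0Cover T (Fermat.Agent.GL.Val.OrthK0.jK0 A N) = UsInst.jCover T := by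
  unfold k0Cover UsInst.jCover
  rw [Fermat.Agent.GL.Val.OrthK0.mapK0Bar_jK0]

/-- the places of the cover whose valuation ring contains the `K₀`-rational functions of `Rs`. -/
def Over (Rs : Set (modularFunctionFieldFullC (K0 A) N)) (P : Place Qb T.Fp) : Prop :=
  ∀ r ∈ Rs, k0Cover T r ∈ P.toValuationSubring

/-- **the `K′`-rational functions with `p ∣ div` at the places over `Rs`.** -/
def UsLoc (Rs : Set (modularFunctionFieldFullC (K0 A) N)) :
    Subgroup (fixedUnits (tameGroup A ζ) T.Fp) where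
  carrier := {y | ∀ P : Place Qb T.Fp, Over T Rs P → (p : ℤ) ∣ P.ord (((y : T.Fpˣ) : T.Fp))}
  one_mem' := fun P _ => by
    show (p : ℤ) ∣ P.ord (1 : T.Fp)
    rw [Place.ord_one]
    exact dvd_zero _
  mul_mem' := by
    intro y z hy hz P hP
    show (p : ℤ) ∣ P.ord ((((y : T.Fpˣ) : T.Fp)) * (((z : T.Fpˣ) : T.Fp)))
    rw [P.ord_mul (y : T.Fpˣ).ne_zero (z : T.Fpˣ).ne_zero]
    exact dvd_add (hy P hP) (hz P hP)
  inv_mem' := by
    intro y hy P hP
    have h1 : ((((y⁻¹ : fixedUnits (tameGroup A ζ) T.Fp) : T.Fpˣ) : T.Fp)) =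
        (((y : T.Fpˣ) : T.Fp))⁻¹ := by
      rw [Subgroup.coe_inv, Units.val_inv_eq_inv_val]
    show (p : ℤ) ∣ P.ord ((((y⁻¹ : fixedUnits (tameGroup A ζ) T.Fp) : T.Fpˣ) : T.Fp))
    rw [h1, Place.ord_inv]
    exact (dvd_neg).2 (hy P hP)

variable {T}

theorem mem_UsLoc {Rs : Set (modularFunctionFieldFullC (K0 A) N)}
    {y : fixedUnits (tameGroup A ζ) T.Fp} :
    y ∈ UsLoc T Rs ↔ ∀ P : Place Qb T.Fp, Over T Rs P →
      (p : ℤ) ∣ P.ord (((y : T.Fpˣ) : T.Fp)) := Iff.rfl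

/-- a bigger set of functions has fewer places over it. -/
theorem UsLoc_anti {Rs Rs' : Set (modularFunctionFieldFullC (K0 A) N)} (hsub : Rs ⊆ Rs') :
    UsLoc T Rs ≤ UsLoc T Rs' :=
  fun _ hy P hP => hy P (fun r hr => hP r (hsub hr))

/-- **`Us T ≤ UsLoc T Rs` as soon as `j ∈ Rs`.** -/
theorem Us_le_UsLoc {Rs : Set (modularFunctionFieldFullC (K0 A) N)}
    (hj : Fermat.Agent.GL.Val.OrthK0.jK0 A N ∈ Rs) : UsInst.Us T ≤ UsLoc T Rs := by
  intro y hy P hP
  refine hy P ?_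
  rw [← k0Cover_jK0]
  exact hP _ hj

/-- constants are in `UsLoc`. -/
theorem mem_UsLoc_of_const (Rs : Set (modularFunctionFieldFullC (K0 A) N))
    {y : fixedUnits (tameGroup A ζ) T.Fp} (hy : ((y : T.Fpˣ) : T.Fp) ∈ T.C) : y ∈ UsLoc T Rs := by
  intro P _
  obtain ⟨c, hc⟩ := T.mem_C.mp hy
  have hc0 : c ≠ 0 := by
    rintro rfl
    rw [map_zero] at hc
    exact (y : T.Fpˣ).ne_zero hc
  rw [hc, PlaceB.ord_algebraMap P hc0]
  exact dvd_zero _

/-- `ϖ = 1 − ζ ∈ UsLoc` (the binder `hϖU` of `F2Local`). -/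
theorem piUnit_mem_UsLoc (Rs : Set (modularFunctionFieldFullC (K0 A) N)) :
    piUnit T ∈ UsLoc T Rs := mem_UsLoc_of_const Rs (piUnit_mem_C T)

/-- **the binder `hUf` of `F2Local`** (no hypothesis on `Rs`). -/
theorem mem_UsLoc_of_kummer (Rs : Set (modularFunctionFieldFullC (K0 A) N))
    (u : pDivUnits Qb (FK N) p) (f : fixedUnits (tameGroup A ζ) T.Fp)
    (hf : ∃ h : T.Fp, h ≠ 0 ∧ ((f : T.Fpˣ) : T.Fp) =
      1 * algebraMap (FK N) T.Fp (((u : (FK N)ˣ) : FK N)) * h ^ p) : f ∈ UsLoc T Rs := by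
  obtain ⟨h, hh, hf⟩ := hf
  intro P _
  exact dvd_ord_kummer_rep T u ⟨1, one_ne_zero, (map_one _).symm⟩ hh hf P

/-- units of order `0` at the places over `Rs` (the binder `hθU` of `F2Local`). -/
theorem mem_UsLoc_of_ord_eq_zero {Rs : Set (modularFunctionFieldFullC (K0 A) N)}
    {y : fixedUnits (tameGroup A ζ) T.Fp}
    (hy : ∀ P : Place Qb T.Fp, Over T Rs P → P.ord (((y : T.Fpˣ) : T.Fp)) = 0) :
    y ∈ UsLoc T Rs := by
  intro P hP
  rw [hy P hP]
  exact dvd_zero _

/-! ### the tame generator on `UsLoc` -/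

section Act

variable {g : SemilinearAut Qb T.Fp} {x : E' T ≃+* E' T}
  (hgx : ∀ e : E' T, ((x e : E' T) : T.Fp) = g • (e : T.Fp))

/-- `x̃` fixes the `K₀`-rational functions when it lies over an element of the inertia group. -/
theorem smul_k0Cover {τ : GQ} (hτ : τ ∈ A.inertiaSubgroupIn ℚ)
    (hgF : ∀ a : FK N, g • algebraMap (FK N) T.Fp a
      = algebraMap (FK N) T.Fp (arithmeticRingAut (modularFunctionFieldFull N) τ a))
    (r : modularFunctionFieldFullC (K0 A) N) : g • k0Cover T r = k0Cover T r := by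
  unfold k0Cover
  rw [hgF]
  congr 1
  exact galF_mapK0Bar A N τ hτ r

/-- `g⁻¹ • P` lies over `Rs` when `P` does and `g` fixes the `K₀`-rational functions. -/
theorem over_inv_smul {Rs : Set (modularFunctionFieldFullC (K0 A) N)}
    (hgR : ∀ r : modularFunctionFieldFullC (K0 A) N, g • k0Cover T r = k0Cover T r)
    {P : Place Qb T.Fp} (hP : Over T Rs P) : Over T Rs (g⁻¹ • P) := by
  intro r hr
  rw [SemilinearAut.smul_toValuationSubring,
    ValuationSubring.mem_pointwise_smul_iff_inv_smul_mem, inv_inv, hgR]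
  exact hP r hr

include hgx in
/-- **`x̃ (UsLoc T Rs) ⊆ UsLoc T Rs`.** -/
theorem actU_mem_UsLoc {Rs : Set (modularFunctionFieldFullC (K0 A) N)}
    (hgR : ∀ r : modularFunctionFieldFullC (K0 A) N, g • k0Cover T r = k0Cover T r)
    {y : fixedUnits (tameGroup A ζ) T.Fp} (hy : y ∈ UsLoc T Rs) :
    actU T hgx y ∈ UsLoc T Rs := by
  intro P hP
  rw [coe_actU]
  have h := SemilinearAut.ord_smul g (g⁻¹ • P) (((y : T.Fpˣ) : T.Fp))
  rw [smul_inv_smul] at h
  rw [h]
  exact hy _ (over_inv_smul hgR hP)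

/-- **the tame generator on `UsLoc T Rs`.** -/
def actUsLoc (Rs : Set (modularFunctionFieldFullC (K0 A) N))
    (hgR : ∀ r : modularFunctionFieldFullC (K0 A) N, g • k0Cover T r = k0Cover T r) :
    UsLoc T Rs →* UsLoc T Rs where
  toFun u := ⟨actU T hgx (u : fixedUnits (tameGroup A ζ) T.Fp), actU_mem_UsLoc hgx hgR u.2⟩
  map_one' := by
    apply Subtype.ext
    show actU T hgx ((1 : UsLoc T Rs) : fixedUnits (tameGroup A ζ) T.Fp) = _
    rw [Subgroup.coe_one, map_one]
  map_mul' u v := by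
    apply Subtype.ext
    show actU T hgx ((u * v : UsLoc T Rs) : fixedUnits (tameGroup A ζ) T.Fp) = _
    rw [Subgroup.coe_mul, map_mul]
    rfl

theorem coe_actUsLoc (Rs : Set (modularFunctionFieldFullC (K0 A) N))
    (hgR : ∀ r : modularFunctionFieldFullC (K0 A) N, g • k0Cover T r = k0Cover T r)
    (u : UsLoc T Rs) :
    ((actUsLoc hgx Rs hgR u : UsLoc T Rs) : fixedUnits (tameGroup A ζ) T.Fp)
      = actU T hgx (u : fixedUnits (tameGroup A ζ) T.Fp) := rfl

theorem coe_actUsLoc_iterate (Rs : Set (modularFunctionFieldFullC (K0 A) N))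
    (hgR : ∀ r : modularFunctionFieldFullC (K0 A) N, g • k0Cover T r = k0Cover T r)
    (n : ℕ) (u : UsLoc T Rs) :
    (((actUsLoc hgx Rs hgR)^[n] u : UsLoc T Rs) : fixedUnits (tameGroup A ζ) T.Fp)
      = (actU T hgx)^[n] (u : fixedUnits (tameGroup A ζ) T.Fp) := by
  induction n generalizing u with
  | zero => rfl
  | succ n ih =>
    rw [Function.iterate_succ_apply, Function.iterate_succ_apply, ih]
    rfl

theorem actUsLoc_iterate_eq (Rs : Set (modularFunctionFieldFullC (K0 A) N))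
    (hgR : ∀ r : modularFunctionFieldFullC (K0 A) N, g • k0Cover T r = k0Cover T r)
    {d : ℕ} (hxd : x ^ d = 1) (u : UsLoc T Rs) : (actUsLoc hgx Rs hgR)^[d] u = u := by
  apply Subtype.ext
  rw [coe_actUsLoc_iterate]
  exact actU_iterate_eq T hgx hxd _

end Act

/-- **the tame generator on `UsLoc T Rs`** — twin of `TameUs.exists_tame_action`, for EVERY set `Rs`
of `K₀`-rational functions at once (the same `x`, `g`). -/
theorem exists_tame_action_loc (hσ : SigmaRel T) (hA : (p : Qb) ∈ A.nonunits) {τ : GQ}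
    (hτ : τ ∈ A.inertiaSubgroupIn ℚ) :
    ∃ (x : E' T ≃+* E' T) (g : SemilinearAut Qb T.Fp),
      (∀ e : E' T, ((x e : E' T) : T.Fp) = g • (e : T.Fp)) ∧
      (∀ b : FK N, g • algebraMap (FK N) T.Fp b
        = algebraMap (FK N) T.Fp (arithmeticRingAut (modularFunctionFieldFull N) τ b)) ∧
      x ^ (p - 1) = 1 ∧
      IsOver (x : E' T →+* E' T) ((tauF₁ T hτ : F₁ N A ζ ≃+* F₁ N A ζ) : F₁ N A ζ →+* F₁ N A ζ) ∧
      Commute (x : E' T →+* E' T) (deck (isAdj' T) (ζ₁_prim T)) ∧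
      ∀ Rs : Set (modularFunctionFieldFullC (K0 A) N),
        ∃ a : UsLoc T Rs →* UsLoc T Rs,
          (∀ u, a^[p - 1] u = u) ∧
          (∀ u : UsLoc T Rs, toE' T (a u : fixedUnits (tameGroup A ζ) T.Fp)
            = x (toE' T (u : fixedUnits (tameGroup A ζ) T.Fp))) ∧
          (∀ {V : GalVal N A} (hD : IsDisc (valF₁ T V) (ϖ₁ T)) {γ : Pack.Lc hD}
            (hγ : γ ^ p = Pack.jc hD (g₁ T)) (k : ZMod p) (u : UsLoc T Rs),
            wOf T hD hγ k (a u : fixedUnits (tameGroup A ζ) T.Fp)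
              = wOf T hD hγ k (u : fixedUnits (tameGroup A ζ) T.Fp)) := by
  obtain ⟨g, x, h1, h2, h3, h4, -, h6, h7, h8, h9⟩ := exists_tame_semilinear hσ hτ
  have hgR : ∀ r : modularFunctionFieldFullC (K0 A) N, g • k0Cover T r = k0Cover T r :=
    fun r => smul_k0Cover hτ h2 r
  refine ⟨x, g, h4, h2, h6, h7, h8, fun Rs => ⟨actUsLoc h4 Rs hgR, fun u =>
    actUsLoc_iterate_eq h4 Rs hgR h6 u, fun u => toE'_actU T h4 _, ?_⟩⟩
  intro V hD γ hγ k u
  exact wOf_actU T h4 hD hγ hA hτ h7 h8 h9 k _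

end Fermat.Agent.GE8.LLP.UsLoc

end
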