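/-
S59 PRE-WORK / E8.4 LLP at `p = 3` (helper96's design note, board 6943 (3); helper17's `F2Local`),
slice (a), file 3 (helper91, second seat of helper17): **the NODE-LOCAL test unit `θ_s`** of
`F2Local.const_of_nodes_local`, with its three numbers `(w₁, w₂, n_s)(θ_s) = (0, p − 1, 1)`.

At a node `P` of a RIGID level `N' p` (`nuTwo N' = nuThree N' = 0`), helper96's
`GL/Reg/EtaInstK0B.exists_lift_pow_eq_K0_B` gives `y, c` in the finite chart `B = BRingK0 N' p A h`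
with `y ∈ P'₂` (the second vertical prime), `y ^ 12 = η · c`, `η = Δ(z)/Δ(pz)`, `c ∉ 𝔫 = centreP P`.
So `y` is a `K₀`-rational local equation of the second branch at the node:

* `w₁ y = 0`   (`η`, `c` are units of the first Gauss valuation);
* `y / p` is a unit of the second Gauss valuation (`η / p¹²` and `c` are), so `w₂ y = v(p) = p − 1`
  in `(1 − ζ)`-units;
* `12 · ord_P red₁ y = ord_P red₁ η + ord_P red₁ c = 12 + 0` (`Eis/EtaOrd.ord_red_etaQ_eq_mul`), so
  the node order of `y` is `1`;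
* on the generic fibre `12 · div y = div η + div c`: cuspidal + away from the node, so
  `y ∈ UsLoc T (locSub F₀ 𝔫)` (NOT in `UsInst.Us T`).

Hence `(Tt s, N0 s) = (p − 1, 1)`, `κ = −1` in `F2Local.const_of_nodes_local`.

* `isNodeP_of_ord_pos` : a zero of `red₁ η` off the cusps is a node (`IsNodeP`);
* `exists_root12` ; `isU₁_root`, `isU₂_root`, `ordRed_root` (downstairs, level `N' p`);
* `thetaLoc T y hy0`, `thetaLoc_mem_UsLoc` (`hθU`), `w₁_thetaLoc` (`hθ1`), `w₂_thetaLoc` (`hθ2`),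
  `nodeOrd_thetaLoc` (`hθn`), and the `wData` forms;
* **`exists_theta_local`** : everything in one statement at a place `Pl` of the frame.
-/
import Fermat.Agent.GF.F2Asm.EtaUnitW
import Fermat.Agent.GF.Eis.EtaOrd
import Fermat.Agent.GF.KCover.NodeMod.K0LocMem
import Fermat.Agent.GL.Reg.EtaInstK0B
import Fermat.Agent.GE8.LLP.UsLoc
import Fermat.Agent.GF.Trop.RedKum
import Fermat.Agent.GJ.FF.ValRing

set_option autoImplicit false
set_option linter.unusedSectionVars false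
set_option linter.unusedVariables false
set_option linter.style.haveILetI false

noncomputable section

namespace Fermat.Agent.GE8.LLP.ThetaLocal

open ModularCurve IsLocalRing AlgebraicCurve IsDedekindDomain Polynomial
open Fermat.Agent.GL.Val.GaussK0 Fermat.Agent.GL.Val.SecondK0
open Fermat.Agent.GJ.KumGroup Fermat.Agent.GJ.J1 Fermat.Agent.GJ.J1.Val
open Fermat.Agent.GK.AL Fermat.Agent.GL.AL Fermat.Agent.GK.QS Fermat.Agent.GK.SS
open Fermat.Agent.Common_helper32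
open Fermat.Agent.S24 Fermat.Agent.S24_helper6
open Fermat.Agent.GF.Trop
open Fermat.Agent.GL.BRingK0 Fermat.Agent.GL.BRingChart Fermat.Agent.GL.Thick
open Fermat.Agent.GL.KrullHeightOne Fermat.Agent.GL.Eta Fermat.Agent.GL.EtaK0
open Fermat.Agent.GF.KCover.Node Fermat.Agent.GF.KCover.Node.NodeRingK0Pkg
open Fermat.Agent.GF.KCover.Node.NodeRingK0Level
open Fermat.Agent.GF.KCover.NodeMod.K0LocMem
open Fermat.Agent.GF.KCover.Node.OrdRedExt
open Fermat.Agent.GK.CuspSep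

attribute [local instance] Fermat.Agent.GL.Frame.InstK0.algSubringFullC

variable {A : ValuationSubring Qb} {N' : ℕ} [NeZero N'] {p : ℕ} [hpF : Fact p.Prime] [NeZero p]
  (h : ExactDvd p (N' * p)) (hpN : ¬ p ∣ N') (hA : A.LiesOverPrime p)

variable [IsDedekindDomain (CRing N' A)] [IsFractionRing (CRing N' A) (FresBar N' A)]

local notation "F0" => modularFunctionFieldFullC (K0 A) (N' * p)
local notation "kA" => IsLocalRing.ResidueField A

/-! ### downstairs: the `12`-th root of `η · c` at a node -/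

section Down

/-- **the `12`-th root at a node**: `y ∈ P'₂`, `y ^ 12 = η · c`, `c` outside the centre. -/
theorem exists_root12 (h2 : p = 2 → 3 ∣ N') (h3 : p = 3 → 2 ∣ N')
    (hν2 : nuTwo N' = 0) (hν3 : nuThree N' = 0)
    (P : HeightOneSpectrum (CRing N' A)) (hnode : IsNodeP h hpN hA P) :
    ∃ y c : BRingK0 N' p A h, y ∈ P2K0 h hpN hA ∧
      y ^ 12 = etaBK0 N' p A h (ValuationSubring.nonunits_le hA) * c ∧
      c ∉ centreP h hpN hA P := by
  obtain ⟨J', hJ, hBT, -, -, -, hmap⟩ := exists_ideal_K0 h hpN hA h2 h3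
  have hJP : J' ≤ P.asIdeal := by
    rw [← hmap, Ideal.map_le_iff_le_comap]
    intro b hb
    exact hnode b ((mem_P2K0_iff h hpN hA).1 hb)
  obtain ⟨y, hy, c, hyc, hc⟩ := Fermat.Agent.GL.EtaInstK0B.exists_lift_pow_eq_K0_B h hpN hA h2 h3
    hν2 hν3 hJ hBT P hJP
  exact ⟨y, c, hy, hyc, hc⟩

/-- a zero of `red₁ η` at which `C` is regular: `rd₁ η` lies in the prime of the place. -/
theorem redC1K0_eta_mem_primeL
    (Pl : Place kA (FresBar (N' * p) A)) (hPl : ContainsC hpN hA Pl)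
    (he : 0 < Pl.ord ((redDataBar (N' * p) A).red
      ⟨etaQ (N' * p) p h.dvd, etaQ_mem_Rw1 (N' * p) A p h.dvd⟩)) :
    redC1K0 h hpN hA (etaBK0 N' p A h (ValuationSubring.nonunits_le hA)) ∈
      (primeL hpN hA Pl hPl).asIdeal := by
  letI := algCFres (ℓ := p) hpN hA
  have hmem : mapK0Bar A (N' * p) ((etaBK0 N' p A h (ValuationSubring.nonunits_le hA) :
      BRingK0 N' p A h) : F0) ∈ (redDataBar (N' * p) A).Rw :=
    (mapK0Bar_mem_Rw h _).1
  have hred := red1_mapK0Bar h hpN hA (etaBK0 N' p A h (ValuationSubring.nonunits_le hA)) hmem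
  have hcoe : mapK0Bar A (N' * p) ((etaBK0 N' p A h (ValuationSubring.nonunits_le hA) :
      BRingK0 N' p A h) : F0) = etaQ (N' * p) p h.dvd := mapK0Bar_etaQK0 N' p A h
  by_contra hnot
  have h0 := hvE_level hpN hA Pl hPl _ hnot
  rw [← hred] at h0
  have e : (⟨mapK0Bar A (N' * p) ((etaBK0 N' p A h (ValuationSubring.nonunits_le hA) :
      BRingK0 N' p A h) : F0), hmem⟩ : (redDataBar (N' * p) A).Rw) =
      ⟨etaQ (N' * p) p h.dvd, etaQ_mem_Rw1 (N' * p) A p h.dvd⟩ := Subtype.ext hcoe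
  rw [e] at h0
  rw [h0] at he
  exact lt_irrefl _ he



/-- membership in the centre of a prime, as a lemma (kernel-cheap). -/
theorem mem_centreP_iff' (P : HeightOneSpectrum (CRing N' A)) (b : BRingK0 N' p A h) :
    b ∈ centreP h hpN hA P ↔ redC1K0 h hpN hA b ∈ P.asIdeal := by
  unfold centreP
  exact Ideal.mem_comap

/-- **a zero of `red₁ η` at which `C` is regular is a node.** -/
theorem isNodeP_of_ord_pos (h2 : p = 2 → 3 ∣ N') (h3 : p = 3 → 2 ∣ N')
    (Pl : Place kA (FresBar (N' * p) A)) (hPl : ContainsC hpN hA Pl)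
    (he : 0 < Pl.ord ((redDataBar (N' * p) A).red
      ⟨etaQ (N' * p) p h.dvd, etaQ_mem_Rw1 (N' * p) A p h.dvd⟩)) :
    IsNodeP h hpN hA (primeL hpN hA Pl hPl) := by
  obtain ⟨J', hJ, hBT, -, -, -, hmap⟩ := exists_ideal_K0 h hpN hA h2 h3
  have hmemP := redC1K0_eta_mem_primeL h hpN hA Pl hPl he
  have hJP : J' ≤ (primeL hpN hA Pl hPl).asIdeal := by
    haveI : (primeL hpN hA Pl hPl).asIdeal.IsPrime := (primeL hpN hA Pl hPl).isPrime
    rw [le_prime_iff_ssPolyAll_mem hpN hA hBT, ← Fermat.Agent.GL.EtaInstK0.redC1K0_etaBK0 h hpN hA]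
    exact hmemP
  intro b hb
  rw [mem_centreP_iff']
  apply hJP
  rw [← hmap]
  exact Ideal.mem_map_of_mem _ ((mem_P2K0_iff h hpN hA).2 hb)

variable {y c : BRingK0 N' p A h}

/-- `mapK0Bar y ^ 12 = η · mapK0Bar c`. -/
theorem map_root_pow
    (hyc : y ^ 12 = etaBK0 N' p A h (ValuationSubring.nonunits_le hA) * c) :
    mapK0Bar A (N' * p) (y : F0) ^ 12 =
      etaQ (N' * p) p h.dvd * mapK0Bar A (N' * p) (c : F0) := by
  have e : mapK0Bar A (N' * p) ((y ^ 12 : BRingK0 N' p A h) : F0) =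
      mapK0Bar A (N' * p)
        ((etaBK0 N' p A h (ValuationSubring.nonunits_le hA) * c : BRingK0 N' p A h) : F0) := by
    rw [hyc]
  rw [show ((y ^ 12 : BRingK0 N' p A h) : F0) = (y : F0) ^ 12 from rfl, map_pow,
    show ((etaBK0 N' p A h (ValuationSubring.nonunits_le hA) * c : BRingK0 N' p A h) : F0) =
      etaQK0 N' p A h * (c : F0) from rfl, map_mul, mapK0Bar_etaQK0] at e
  exact e

/-- the root is nonzero. -/
theorem root_ne_zero
    (hyc : y ^ 12 = etaBK0 N' p A h (ValuationSubring.nonunits_le hA) * c) (hc0 : c ≠ 0) :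
    mapK0Bar A (N' * p) (y : F0) ≠ 0 := by
  intro h0
  have e := map_root_pow h hA hyc
  rw [h0, zero_pow (by norm_num)] at e
  have hη := etaQ_ne_zero (N' * p) p h.dvd
  have hc' : mapK0Bar A (N' * p) (c : F0) ≠ 0 := by
    rw [Ne, map_eq_zero_iff _ (mapK0Bar A (N' * p)).injective]
    exact fun h1 => hc0 (Subtype.ext h1)
  exact mul_ne_zero hη hc' e.symm

/-- **`hθ1` downstairs**: the root is a unit of the first Gauss valuation. -/
theorem isU₁_root (P : HeightOneSpectrum (CRing N' A))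
    (hyc : y ^ 12 = etaBK0 N' p A h (ValuationSubring.nonunits_le hA) * c)
    (hc : c ∉ centreP h hpN hA P) :
    IsU (redDataBar (N' * p) A) (mapK0Bar A (N' * p) (y : F0)) := by
  have hη : IsU (redDataBar (N' * p) A) (etaQ (N' * p) p h.dvd : FN (N' * p)) :=
    ⟨etaQ_ne_zero (N' * p) p h.dvd, etaQ_mem_Rw1 (N' * p) A p h.dvd,
      etaQ_inv_mem_Rw1 (N' * p) A p h.dvd⟩
  have hcU : IsU (redDataBar (N' * p) A) (mapK0Bar A (N' * p) (c : F0)) :=
    isU_of_red_ne_zero (mapK0Bar_mem_Rw h c).1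
      (red1_mapK0Bar_ne_zero h hpN hA P hc (mapK0Bar_mem_Rw h c).1)
  have h12 : IsU (redDataBar (N' * p) A) (mapK0Bar A (N' * p) (y : F0) ^ 12) := by
    rw [map_root_pow h hA hyc]
    exact hη.mul hcU
  exact isU_of_pow (by norm_num) h12

/-- **`hθ2` downstairs**: `root / p` is a unit of the second Gauss valuation. -/
theorem isU₂_root (P : HeightOneSpectrum (CRing N' A)) (hnode : IsNodeP h hpN hA P)
    (hyc : y ^ 12 = etaBK0 N' p A h (ValuationSubring.nonunits_le hA) * c)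
    (hc : c ∉ centreP h hpN hA P) :
    IsU (redData2 (N' * p) A h) (mapK0Bar A (N' * p) (y : F0) / (p : FN (N' * p))) := by
  have hp0 : (p : FN (N' * p)) ≠ 0 := Nat.cast_ne_zero.2 hpF.out.ne_zero
  have hη : IsU (redData2 (N' * p) A h)
      (etaQ (N' * p) p h.dvd / (p : FN (N' * p)) ^ 12 : FN (N' * p)) :=
    ⟨div_ne_zero (etaQ_ne_zero (N' * p) p h.dvd) (pow_ne_zero _ hp0), etaQ_div_mem_Rw2 A h,
      etaQ_div_inv_mem_Rw2 A h⟩
  have hcU : IsU (redData2 (N' * p) A h) (mapK0Bar A (N' * p) (c : F0)) :=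
    isU_of_red_ne_zero (mapK0Bar_mem_Rw h c).2
      (red2_mapK0Bar_ne_zero h hpN hA P hnode hc (mapK0Bar_mem_Rw h c).2)
  have h12 : IsU (redData2 (N' * p) A h)
      ((mapK0Bar A (N' * p) (y : F0) / (p : FN (N' * p))) ^ 12) := by
    rw [div_pow, map_root_pow h hA hyc, mul_div_right_comm]
    exact hη.mul hcU
  exact isU_of_pow (by norm_num) h12

/-- **`hθn` downstairs**: the node order of the root is `1` when `ord red₁ η = 12`. -/
theorem ordRed_root (Pl : Place kA (FresBar (N' * p) A)) (hPl : ContainsC hpN hA Pl)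
    (hun : Unram (redDataBar (N' * p) A))
    (hyc : y ^ 12 = etaBK0 N' p A h (ValuationSubring.nonunits_le hA) * c)
    (hc : c ∉ centreP h hpN hA (primeL hpN hA Pl hPl))
    (he12 : Pl.ord ((redDataBar (N' * p) A).red
      ⟨etaQ (N' * p) p h.dvd, etaQ_mem_Rw1 (N' * p) A p h.dvd⟩) = 12) :
    ordRed (redDataBar (N' * p) A) hun Pl (mapK0Bar A (N' * p) (y : F0)) = 1 := by
  letI := algCFres (ℓ := p) hpN hA
  have hc0 : c ≠ 0 := fun h0 => hc (h0 ▸ Ideal.zero_mem _)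
  have hy0 := root_ne_zero h hA hyc hc0
  have hη : IsU (redDataBar (N' * p) A) (etaQ (N' * p) p h.dvd : FN (N' * p)) :=
    ⟨etaQ_ne_zero (N' * p) p h.dvd, etaQ_mem_Rw1 (N' * p) A p h.dvd,
      etaQ_inv_mem_Rw1 (N' * p) A p h.dvd⟩
  have hcU : IsU (redDataBar (N' * p) A) (mapK0Bar A (N' * p) (c : F0)) :=
    isU_of_red_ne_zero (mapK0Bar_mem_Rw h c).1
      (red1_mapK0Bar_ne_zero h hpN hA _ hc (mapK0Bar_mem_Rw h c).1)
  have h1 : ordRed (redDataBar (N' * p) A) hun Pl (mapK0Bar A (N' * p) (y : F0) ^ 12) =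
      12 * ordRed (redDataBar (N' * p) A) hun Pl (mapK0Bar A (N' * p) (y : F0)) := by
    rw [ordRed_pow hun Pl hy0]
    norm_num
  have h2 : ordRed (redDataBar (N' * p) A) hun Pl (etaQ (N' * p) p h.dvd : FN (N' * p)) = 12 := by
    rw [ordRed_of_isU hun Pl hη]
    exact he12
  have h3 : ordRed (redDataBar (N' * p) A) hun Pl (mapK0Bar A (N' * p) (c : F0)) = 0 := by
    rw [ordRed_of_isU hun Pl hcU, red1_mapK0Bar h hpN hA c hcU.2.1]
    exact hvE_level hpN hA Pl hPl _ (fun hmem => hc ((mem_centreP_iff' h hpN hA _ c).2 hmem))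
  rw [map_root_pow h hA hyc, ordRed_mul hun Pl hη.1 hcU.1, h2, h3] at h1
  omega

end Down

/-! ### on the cover -/

section Cover

open Fermat.Agent.GF.F2Asm.KummerExt Fermat.Agent.GF.F2Asm.Inst Fermat.Agent.GF.KCover
open Fermat.Agent.GF.Peu Fermat.Agent.GF.F2Asm Fermat.Agent.GF.F2Asm.PeuBridge
open Fermat.Agent.GF.KCover.Field Fermat.Agent.GF.KCover.Field.Disc
open Fermat.Agent.GF.KCover.Field.WDataOf Fermat.Agent.GF.F2Asm.EtaUnit
open Fermat.Agent.GF.F2Asm.EtaUnitW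
open Fermat.Agent.GF.KCover.Int.K0Model
open Fermat.Agent.GE8.LLP.UsLoc

attribute [local instance] actFK algE'

variable {ζ : Qb} (T : TameDatum (N' * p) p A ζ)

/-- a `K₀`-rational function is fixed by the tame group. -/
theorem smul_mapK0Bar (r : F0) (ρ : tameGroup A ζ) :
    arithmeticGalois (modularFunctionFieldFull (N' * p)) ρ.1 • mapK0Bar A (N' * p) r =
      mapK0Bar A (N' * p) r :=
  (embF₁ (N' * p) A ζ r).2 ρ

/-- **the node-local test unit**: a nonzero element of the finite chart as a `K′`-rational unit of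
the cover. -/
def thetaLoc (y : BRingK0 N' p A h) (hy0 : mapK0Bar A (N' * p) (y : F0) ≠ 0) :
    fixedUnits (tameGroup A ζ) T.Fp :=
  ofFixed T (mapK0Bar A (N' * p) (y : F0)) hy0 (smul_mapK0Bar (y : F0))

theorem coe_thetaLoc (y : BRingK0 N' p A h) (hy0 : mapK0Bar A (N' * p) (y : F0) ≠ 0) :
    (((thetaLoc h T y hy0 : fixedUnits (tameGroup A ζ) T.Fp) : T.Fpˣ) : T.Fp) =
      k0Cover T (y : F0) := rfl

variable [IsFractionRing (BRingK0 N' p A h) (modularFunctionFieldFullC (K0 A) (N' * p))]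

/-- **`hθU`**: the root lies in the node-local subgroup at `𝔫` as soon as `c ∉ 𝔫` and `j ∈ B`. -/
theorem thetaLoc_mem_UsLoc (𝔫 : Ideal (BRingK0 N' p A h)) [𝔫.IsPrime]
    {y c : BRingK0 N' p A h}
    (hyc : y ^ 12 = etaBK0 N' p A h (ValuationSubring.nonunits_le hA) * c)
    (hc : c ∉ 𝔫) (hy0 : mapK0Bar A (N' * p) (y : F0) ≠ 0) :
    thetaLoc h T y hy0 ∈
      UsLoc T ((locSub F0 𝔫 : Subalgebra (BRingK0 N' p A h) F0) : Set F0) := by
  apply mem_UsLoc_of_ord_eq_zero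
  intro P hP
  rw [coe_thetaLoc]
  -- `12 · ord y = ord η + ord c`
  have hc0 : (c : F0) ≠ 0 := fun h0 => hc ((Subtype.ext h0 : c = 0) ▸ Ideal.zero_mem _)
  have hcF : mapK0Bar A (N' * p) (c : F0) ≠ 0 := by
    rw [Ne, map_eq_zero_iff _ (mapK0Bar A (N' * p)).injective]
    exact hc0
  have e12 : k0Cover T (y : F0) ^ 12 =
      algebraMap (FK (N' * p)) T.Fp (etaQ (N' * p) p h.dvd) * k0Cover T (c : F0) := by
    unfold k0Cover
    rw [← map_pow, map_root_pow h hA hyc, map_mul]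
  -- `j` is regular at `P`
  have hjP : UsInst.jCover T ∈ P.toValuationSubring := by
    rw [← k0Cover_jK0]
    refine hP _ ?_
    have hjB : Fermat.Agent.GL.Val.OrthK0.jK0 A (N' * p) ∈ BRingK0 N' p A h := by
      rw [Fermat.Agent.GL.Val.OrthK0.jK0_eq_jC]
      exact jC_mem_BRingK0 N' p A h
    exact algebraMap_mem_locSub 𝔫 (⟨_, hjB⟩ : BRingK0 N' p A h)
  have hη0 : P.ord (algebraMap (FK (N' * p)) T.Fp (etaQ (N' * p) p h.dvd)) = 0 :=
    Fermat.Agent.GF.F2Asm.EtaCover.ord_etaQ_cover_eq_zero T p h.dvd P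
      ((PlaceB.ord_nonneg_iff P (UsInst.jCover_ne_zero T)).mpr hjP)
  -- `c` is a unit of `B_𝔫`
  have hcP : k0Cover T (c : F0) ∈ P.toValuationSubring :=
    hP _ (algebraMap_mem_locSub 𝔫 c)
  have hciR : (c : F0)⁻¹ ∈ locSub F0 𝔫 := by
    rw [mem_locSub_iff]
    refine ⟨c, hc, 1, ?_⟩
    rw [map_one, Algebra.smul_def]
    exact (mul_inv_cancel₀ hc0).symm
  have hciP : (k0Cover T (c : F0))⁻¹ ∈ P.toValuationSubring := by
    have := hP _ hciR
    unfold k0Cover at this ⊢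
    rwa [map_inv₀, map_inv₀] at this
  have hcK : k0Cover T (c : F0) ≠ 0 := by
    unfold k0Cover
    rw [Ne, map_eq_zero_iff _ (algebraMap (FK (N' * p)) T.Fp).injective]
    exact hcF
  have hc0' : P.ord (k0Cover T (c : F0)) = 0 := by
    have h1 := (PlaceB.ord_nonneg_iff P hcK).mpr hcP
    have h2 := (PlaceB.ord_nonneg_iff P (inv_ne_zero hcK)).mpr hciP
    rw [Place.ord_inv] at h2
    omega
  have hyK : k0Cover T (y : F0) ≠ 0 := by
    unfold k0Cover
    rw [Ne, map_eq_zero_iff _ (algebraMap (FK (N' * p)) T.Fp).injective]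
    exact hy0
  have hηK : algebraMap (FK (N' * p)) T.Fp (etaQ (N' * p) p h.dvd) ≠ 0 := by
    rw [Ne, map_eq_zero_iff _ (algebraMap (FK (N' * p)) T.Fp).injective]
    exact etaQ_ne_zero (N' * p) p h.dvd
  have h12 := congrArg P.ord e12
  rw [← zpow_natCast, Place.ord_zpow, P.ord_mul hηK hcK, hη0, hc0'] at h12
  push_cast at h12
  omega

variable (Wd : T.WData)

/-- **`hθ1`**, hypothesis form. -/
theorem w₁_thetaLoc (P : HeightOneSpectrum (CRing N' A)) {y c : BRingK0 N' p A h}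
    (hyc : y ^ 12 = etaBK0 N' p A h (ValuationSubring.nonunits_le hA) * c)
    (hc : c ∉ centreP h hpN hA P) (hy0 : mapK0Bar A (N' * p) (y : F0) ≠ 0)
    (hb : Base T (redDataBar (N' * p) A).Rw Wd.w₁) (k : ZMod p) :
    Wd.w₁ k (thetaLoc h T y hy0) = 0 :=
  hb k _ _ _ (isU₁_root h hpN hA P hyc hc).2.1 (isU₁_root h hpN hA P hyc hc).2.2

/-- `v(p) = v(1 − ζ) ^ (p − 1)`, integer exponent. -/
theorem valuation_p (hζ : IsPrimitiveRoot ζ p) :
    A.valuation (p : Qb) = A.valuation (1 - ζ) ^ (((p : ℤ) - 1 : ℤ)) := by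
  have hp := hpF.out
  have h1 := Fermat.Agent.GL.Local.InertiaField.valuation_one_sub_zeta_pow A hp hζ
  have h2 : ((p : ℤ) - 1 : ℤ) = ((p - 1 : ℕ) : ℤ) := by
    have : 1 ≤ p := hp.one_lt.le
    push_cast [Nat.cast_sub this]
    ring
  rw [← h1, h2, zpow_natCast]

include Wd in
/-- **`hθ2`**, hypothesis form: `w₂ k θ = p − 1` on every sheet. -/
theorem w₂_thetaLoc (P : HeightOneSpectrum (CRing N' A)) (hnode : IsNodeP h hpN hA P)
    {y c : BRingK0 N' p A h}
    (hyc : y ^ 12 = etaBK0 N' p A h (ValuationSubring.nonunits_le hA) * c)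
    (hc : c ∉ centreP h hpN hA P) (hy0 : mapK0Bar A (N' * p) (y : F0) ≠ 0)
    (hvK : ∀ (c : fixedUnits (tameGroup A ζ) T.Fp) (c₀ : Qb),
      ((c : T.Fpˣ) : T.Fp) = algebraMap Qb T.Fp c₀ →
        A.valuation c₀ = A.valuation (1 - ζ) ^ Wd.vK c)
    (hb : Base T (redData2 (N' * p) A h).Rw Wd.w₂) (k : ZMod p) :
    Wd.w₂ k (thetaLoc h T y hy0) = (p : ℤ) - 1 := by
  have hp := hpF.out
  have hp0 : (p : FN (N' * p)) ≠ 0 := Nat.cast_ne_zero.2 hp.ne_zero
  have hpK : (p : Qb) ≠ 0 := Nat.cast_ne_zero.2 hp.ne_zero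
  have hU := isU₂_root h hpN hA P hnode hyc hc
  set z : FK (N' * p) := mapK0Bar A (N' * p) (y : F0) / (p : FN (N' * p)) with hz
  have hzfix : ∀ ρ : tameGroup A ζ,
      arithmeticGalois (modularFunctionFieldFull (N' * p)) ρ.1 • z = z := by
    intro ρ
    have h1 := smul_mapK0Bar (ζ := ζ) (y : F0) ρ
    rw [smul_eq_ringAut] at h1 ⊢
    rw [hz, map_div₀, map_natCast, h1]
  have hcfix : ∀ ρ : tameGroup A ζ, ρ.1 (p : Qb) = (p : Qb) := fun ρ => by
    rw [map_natCast]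
  have hsplit : thetaLoc h T y hy0 = ofFixed T z hU.1 hzfix * constUnit T (p : Qb) hpK hcfix := by
    have e1 : algebraMap Qb (FK (N' * p)) (p : Qb) = (p : FN (N' * p)) := by
      rw [map_natCast]
    have e2 : mapK0Bar A (N' * p) (y : F0) = z * algebraMap Qb (FK (N' * p)) (p : Qb) := by
      rw [e1, hz, div_mul_cancel₀ _ hp0]
    have key : algebraMap (FK (N' * p)) T.Fp (mapK0Bar A (N' * p) (y : F0)) =
        algebraMap (FK (N' * p)) T.Fp z * algebraMap Qb T.Fp (p : Qb) := by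
      rw [IsScalarTower.algebraMap_apply Qb (FK (N' * p)) T.Fp, ← map_mul, ← e2]
    exact Subtype.ext (Units.ext key)
  have hvKc : Wd.vK (constUnit T (p : Qb) hpK hcfix) = (p : ℤ) - 1 := by
    have h1 := hvK (constUnit T (p : Qb) hpK hcfix) _ (coe_constUnit T _ hpK hcfix)
    rw [valuation_p T.prim] at h1
    exact (zpow_unique hA T.prim h1).symm
  rw [hsplit, Wd.w₂_mul, hb k z hU.1 hzfix hU.2.1 hU.2.2,
    Wd.w₂_const k _ (constUnit_mem_C T _ hpK hcfix), hvKc, zero_add]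

/-- **`hθn`**: the node order upstairs of the root is `1`, on every sheet. -/
theorem nodeOrd_thetaLoc (Pl : Place kA (FresBar (N' * p) A)) (hPl : ContainsC hpN hA Pl)
    (hun : Unram (redDataBar (N' * p) A))
    (R' : RedData Qb T.Fp kA (FresBar (N' * p) A)) (hun' : Unram R')
    (hext : RedExt (redDataBar (N' * p) A) R')
    {y c : BRingK0 N' p A h}
    (hyc : y ^ 12 = etaBK0 N' p A h (ValuationSubring.nonunits_le hA) * c)
    (hc : c ∉ centreP h hpN hA (primeL hpN hA Pl hPl))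
    (hy0 : mapK0Bar A (N' * p) (y : F0) ≠ 0)
    (he12 : Pl.ord ((redDataBar (N' * p) A).red
      ⟨etaQ (N' * p) p h.dvd, etaQ_mem_Rw1 (N' * p) A p h.dvd⟩) = 12) :
    nodeOrd R' hun' Pl (fixedUnits (tameGroup A ζ) T.Fp) (thetaLoc h T y hy0) = 1 := by
  unfold thetaLoc
  rw [nodeOrd_ofFixed T (redDataBar (N' * p) A) hun R' hun' hext Pl]
  exact ordRed_root h hpN hA Pl hPl hun hyc hc he12

/-! ### everything in one statement, `wData` spelling -/

section Final

variable (hD₁ : IsDisc (valF₁ T (galVal1 (N' * p) A)) (ϖ₁ T))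
  (hD₂ : IsDisc (valF₁ T (galVal2 (N' * p) A h)) (ϖ₁ T))
  {γ₁ : Pack.Lc hD₁} (hγ₁ : γ₁ ^ p = Pack.jc hD₁ (g₁ T))
  {γ₂ : Pack.Lc hD₂} (hγ₂ : γ₂ ^ p = Pack.jc hD₂ (g₁ T))

/-- **the node-local test unit at a node `Pl` of a rigid level `N' p`**: a `K′`-rational unit `θ` of
the cover in the node-local subgroup `UsLoc T (locSub F₀ 𝔫)`, `𝔫` the centre of `Pl`, with
`(w₁, w₂, n)(θ) = (0, p − 1, 1)` on EVERY sheet — the binders `θ hθU hθ1 hθ2 hθn` of
`F2Local.const_of_nodes_local` with `(Tt s, N0 s) = (p − 1, 1)`, `κ = −1`. -/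
theorem exists_theta_local (h2 : p = 2 → 3 ∣ N') (h3 : p = 3 → 2 ∣ N')
    (hν2 : nuTwo N' = 0) (hν3 : nuThree N' = 0)
    (Pl : Place kA (FresBar (N' * p) A)) (hPl : ContainsC hpN hA Pl)
    (hτ : 0 ≤ Pl.ord (tauF (N' * p) A))
    (he : 0 < Pl.ord ((redDataBar (N' * p) A).red
      ⟨etaQ (N' * p) p h.dvd, etaQ_mem_Rw1 (N' * p) A p h.dvd⟩)) :
    ∃ θ : fixedUnits (tameGroup A ζ) T.Fp,
      θ ∈ UsLoc T ((locSub F0 (centreP (A := A) h hpN hA (primeL hpN hA Pl hPl)) :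
        Subalgebra (BRingK0 N' p A h) F0) : Set F0) ∧
      (∀ k : ZMod p, (wData T hA hD₁ hD₂ hγ₁ hγ₂).w₁ k θ = 0) ∧
      (∀ k : ZMod p, (wData T hA hD₁ hD₂ hγ₁ hγ₂).w₂ k θ = (p : ℤ) - 1) ∧
      ∀ (hun : Unram (redDataBar (N' * p) A))
        (R' : RedData Qb T.Fp kA (FresBar (N' * p) A)) (hun' : Unram R')
        (_ : RedExt (redDataBar (N' * p) A) R'),
        nodeOrd R' hun' Pl (fixedUnits (tameGroup A ζ) T.Fp) θ = 1 := by
  have hnode := isNodeP_of_ord_pos h hpN hA h2 h3 Pl hPl he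
  obtain ⟨y, c, -, hyc, hc⟩ := exists_root12 h hpN hA h2 h3 hν2 hν3 (primeL hpN hA Pl hPl) hnode
  have hc0 : c ≠ 0 := fun h0 => hc (h0 ▸ Ideal.zero_mem _)
  have hy0 := root_ne_zero h hA hyc hc0
  have he12 := Fermat.Agent.GF.Eis.EtaOrd.ord_red_etaQ_eq_mul N' p A h hA hpN h2 h3 hν2 hν3 Pl hτ
    he.ne'
  refine ⟨thetaLoc h T y hy0, thetaLoc_mem_UsLoc h hA T _ hyc hc hy0, fun k => ?_, fun k => ?_,
    fun hun R' hun' hext => ?_⟩
  · exact w₁_thetaLoc h hpN hA T (wData T hA hD₁ hD₂ hγ₁ hγ₂) _ hyc hc hy0 (base_wOf T hD₁ hγ₁) k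
  · exact w₂_thetaLoc h hpN hA T (wData T hA hD₁ hD₂ hγ₁ hγ₂) _ hnode hyc hc hy0
      (hvK T hA hD₁ hD₂ hγ₁ hγ₂) (base_wOf T hD₂ hγ₂) k
  · exact nodeOrd_thetaLoc h hpN hA T Pl hPl hun R' hun' hext hyc hc hy0 he12

end Final

end Cover

end Fermat.Agent.GE8.LLP.ThetaLocal

end
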