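/-
S59 PRE-WORK / E8.4-ORD, slice (a), FINAL ASSEMBLY — plug-test twin (helper17, ORD sub-gate owner):
**`Inner.NodeLocalStmt p` for every odd `p`, binder-free**, from

* helper91 `UsLoc.exists_tame_action_loc` / `Us_le_UsLoc`   (the node-local subgroup + tame action),
* helper91 `HhorLoc.hhor_locSub_loc`                         (the horizontal binder on `UsLoc`),
* helper91 `ThetaLocal.exists_theta_local`                   (the test unit, `(0, p − 1, 1)`),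
* helper75 `NlPointU2.nl_point_loc_U'`                       (the per-point theorem on ANY `U`),
* helper62's obtain-chain of `NlAllOfHyps.nlPoint_mod` (`ASK` ⟹ raw AS datum + Krull input).

`nodeLocal_at`  : the package `Inner.NodeLocal … Pl (-1)` at ONE finite zero `Pl` of `red₁ η`;
`nodeLocalStmt` : `p ≠ 2 → Inner.NodeLocalStmt p`.
-/
import Fermat.Agent.GE8.LLP.Inner
import Fermat.Agent.GE8.LLP.NlPointU2
import Fermat.Agent.GE8.LLP.UsLoc
import Fermat.Agent.GE8.LLP.HhorLoc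
import Fermat.Agent.GE8.LLP.ThetaLocal
import Fermat.Agent.GF.KCover.NodeMod.ValueJt
import Fermat.Agent.GF.KCover.NodeMod.NlAllOfHyps

set_option autoImplicit false
set_option linter.unusedSectionVars false
set_option linter.unusedVariables false
set_option linter.style.haveILetI false

noncomputable section

open Polynomial AlgebraicCurve

namespace Fermat.Agent.GE8.LLP.NodeLocalFin

open ModularCurve IsLocalRing IsDedekindDomain
open Fermat.Agent.GL.Val.GaussK0 Fermat.Agent.GL.Val.SecondK0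
open Fermat.Agent.GJ.KumGroup Fermat.Agent.GJ.J1 Fermat.Agent.GJ.J1.Val
open Fermat.Agent.GK.AL Fermat.Agent.GL.AL Fermat.Agent.GK.QS Fermat.Agent.GK.SS
open Fermat.Agent.Common_helper32
open Fermat.Agent.S24 Fermat.Agent.S24_helper6
open Fermat.Agent.GF.Trop
open Fermat.Agent.GL.Eta Fermat.Agent.GK.CuspSep
open Fermat.Agent.GL.BRingK0 Fermat.Agent.GL.BRingChart Fermat.Agent.GL.Thick
open Fermat.Agent.GL.KrullHeightOne
open Fermat.Agent.GF.KCover.Node Fermat.Agent.GF.KCover.Node.NodeRingK0Pkg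
open Fermat.Agent.GF.KCover.Node.NodeRingK0Level
open Fermat.Agent.GF.KCover.Field Fermat.Agent.GF.KCover.Field.Disc
  Fermat.Agent.GF.KCover.Field.Pack
open Fermat.Agent.GF.KCover.Compl Fermat.Agent.GF.KCover.Compl.Bridge
  Fermat.Agent.GF.KCover.Compl.RedCompl Fermat.Agent.GF.KCover.Compl.RedAut
  Fermat.Agent.GF.KCover.Compl.BridgeTau
open Fermat.Agent.GF.KCover.Node.OrdRedExt
  Fermat.Agent.GF.KCover.Node.NlNode Fermat.Agent.GF.KCover.Node.NlNodeSheets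
  Fermat.Agent.GF.KCover.Node.NlNodeData
open Fermat.Agent.GF.F2Asm.KummerExt Fermat.Agent.GF.F2Asm.Inst Fermat.Agent.GF.KCover
open Fermat.Agent.GF.Peu Fermat.Agent.GF.F2Asm
open Fermat.Agent.GF.F2Asm.UsInst
open Fermat.Agent.GF.KCover.Field.WDataOf Fermat.Agent.GF.KCover.Field.RescaleMod
open Fermat.Agent.GF.KCover.Compl.SheetsMod
open Fermat.Agent.GF.KCover.Int Fermat.Agent.GF.KCover.Int.TameLift
open Fermat.Agent.GF.KCover.Int.K0Model
open Fermat.Agent.GF.KCover.AuxLevel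
open Fermat.Agent.GF.KCover.NodeMod.ASKDef
open Fermat.Agent.GF.KCover.NodeMod.NlAllOfHyps
open Fermat.Agent.GF.Top.S44TopOrd Fermat.Agent.GF.Setup.S0
open Fermat.Agent.GB.A4.FrameTwo Fermat.Agent.GF.KCover.Field.RescaleRaw
open Fermat.Agent.GF.Top.Provider44T Fermat.Agent.GF.Top.Provider44D
open Fermat.Agent.GE8.LLP.Inner Fermat.Agent.GE8.LLP.UsLoc Fermat.Agent.GE8.LLP.HhorLoc
open Fermat.Agent.GE8.LLP.ThetaLocal Fermat.Agent.GE8.LLP.NlPointU2

attribute [local instance] Fermat.Agent.GL.Frame.InstK0.algSubringFullC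

local notation "Qb" => AlgebraicClosure ℚ

attribute [local instance] actFK algE'

set_option maxHeartbeats 4000000 in
/-- **the node-local package at ONE finite zero `Pl` of `red₁ η`, rigid level `M' p`, every odd
`p`**: `U := UsLoc T (locSub F₀ 𝔫)`, `𝔫` the centre of `Pl` on the finite chart; `θ` helper91's
12-th root; `(Tt, N0, κ) = (p − 1, 1, −1)`. -/
theorem nodeLocal_at {p : ℕ} [hpF : Fact p.Prime] {M' : ℕ} [NeZero M'] (hpM' : ¬ p ∣ M')
    {A : ValuationSubring Qb} (hA : A.LiesOverPrime p) {ζ : Qb}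
    (hp2 : p ≠ 2) (h3 : p = 3 → 2 ∣ M') (hν2 : nuTwo M' = 0) (hν3 : nuThree M' = 0)
    (T : TameDatum (M' * p) p A ζ) (hσ : SigmaRel T)
    (hASK : ∀ c₀ : IsLocalRing.ResidueField A, ASK T (exactDvd hpM') c₀)
    (hD₁ : IsDisc (valF₁ T (Fermat.Agent.GK.SS.galVal1 (M' * p) A)) (ϖ₁ T))
    (hD₂ : IsDisc (valF₁ T (Fermat.Agent.GK.SS.galVal2 (M' * p) A (exactDvd hpM'))) (ϖ₁ T))
    {γ₁ : Pack.Lc hD₁} (hγ₁ : γ₁ ^ p = Pack.jc hD₁ (g₁ T))
    {γ₂ : Pack.Lc hD₂} (hγ₂ : γ₂ ^ p = Pack.jc hD₂ (g₁ T))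
    (Pl : Place (IsLocalRing.ResidueField A) (FresBar (M' * p) A))
    (hτP : 0 ≤ Pl.ord (tauF (M' * p) A))
    (heP : 0 < Pl.ord ((redDataBar (M' * p) A).red
      ⟨etaQ (M' * p) p (exactDvd hpM').dvd,
        etaQ_mem_Rw1 (M' * p) A p (exactDvd hpM').dvd⟩)) :
    NodeLocal hpM' hA T hD₁ hD₂ hγ₁ hγ₂ Pl (-1) := by
  have hp := hpF.out
  haveI : NeZero p := ⟨hp.ne_zero⟩
  haveI := Fermat.Agent.GK.SS.Modular.isDedekindDomain_CRing M' p A hA
  haveI := Fermat.Agent.GL.SmallQ.isFractionRing_CRing M' A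
  obtain ⟨i1, i2, i3, -⟩ := id (frame_BRingK0 (exactDvd hpM') hA)
  haveI := i1
  haveI := i2
  haveI := i3
  -- the place is off the cusps
  have hjt : Fermat.Agent.GK.QS.jt (M' * p) A ∈ Pl.toValuationSubring :=
    (Fermat.Agent.GJ.J1.PlaceLattice.ord_nonneg_iff_mem Pl _).1 hτP
  have ejt : fresInclInv hpM' hA (Fermat.Agent.GK.QS.jt M' A) = Fermat.Agent.GK.QS.jt (M' * p) A :=
    Subtype.ext (by
      rw [coe_fresInclInv, Fermat.Agent.GK.QS.coe_jt, Fermat.Agent.GK.QS.coe_jt])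
  have hPl : ContainsC hpM' hA Pl := containsC_of_jt_mem hpM' hA Pl (by rw [ejt]; exact hjt)
  obtain ⟨c₀, hc₀⟩ :=
    Fermat.Agent.GF.KCover.NodeMod.ValueJt.exists_valueAt_jt hpM' hA Pl hPl
  -- the raw Artin–Schreier datum with its Krull input
  obtain ⟨u, g1, hu0, hu, hg1, hg0, hK⟩ := hASK c₀
  -- the tame generator and its action on the node-local subgroup
  obtain ⟨τ, hτ, ω, -, hgen⟩ := exists_tame_generator (A := A) hA T.prim
  obtain ⟨x, g, -, -, hxd, hx, hxδ, hact⟩ := exists_tame_action_loc hσ hA hτ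
  obtain ⟨a, -, ha, -⟩ := hact
    ((locSub (modularFunctionFieldFullC (K0 A) (M' * p))
      (centreP (A := A) (exactDvd hpM') hpM' hA (primeL hpM' hA Pl hPl)) :
        Subalgebra (BRingK0 M' p A (exactDvd hpM'))
          (modularFunctionFieldFullC (K0 A) (M' * p))) :
      Set (modularFunctionFieldFullC (K0 A) (M' * p)))
  -- the test unit
  obtain ⟨θ, hθU, hθ1, hθ2, hθn⟩ := exists_theta_local (ζ := ζ) (exactDvd hpM') hpM' hA T hD₁ hD₂
    hγ₁ hγ₂ (fun h2 => absurd h2 hp2) h3 hν2 hν3 Pl hPl hτP heP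
  -- the node lemma on `UsLoc`
  obtain ⟨c, hc⟩ := nl_point_loc_U' (exactDvd hpM') hpM' hA T (fun h2 => absurd h2 hp2) h3 hν2 hν3
    hD₁ hD₂ hγ₁ hγ₂ (vRaw_ne_zero hu0 hu) (hrel_raw T hu0 hu hg1 hg0) hK hτ hgen hx hxδ hxd _ a ha
    Pl hPl hc₀
    (fun hrank θ₀ u u₀ => hhor_locSub_loc (exactDvd hpM') T hτ hx _ hA hgen hrank θ₀ u u₀)
  refine ⟨_, c, fun _ => θ, (p : ℤ) - 1, 1, Us_le_UsLoc ?_, fun _ => hθU, fun k => hθ1 k,
    fun k => hθ2 (k + c), fun k => hθn (Fermat.Agent.GS.F.unram_redDataBar (M' * p) A) _ _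
      (redExt_sheet₁ T hA hD₁ hγ₁ k), ?_, ?_, fun k y hy h1 h2 => hc k y hy h1 h2⟩
  · -- `j ∈ B_𝔫`
    have hjB : Fermat.Agent.GL.Val.OrthK0.jK0 A (M' * p) ∈ BRingK0 M' p A (exactDvd hpM') := by
      rw [Fermat.Agent.GL.Val.OrthK0.jK0_eq_jC]
      exact jC_mem_BRingK0 M' p A (exactDvd hpM')
    exact algebraMap_mem_locSub _ (⟨_, hjB⟩ : BRingK0 M' p A (exactDvd hpM'))
  · rw [Int.cast_one]
    exact one_ne_zero
  · push_cast
    rw [ZMod.natCast_self]
    ring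

/-- **slice (a) CLOSED: the `W`-free supplier of the node-local packages, every odd `p`.** -/
theorem nodeLocalStmt {p : ℕ} [hpF : Fact p.Prime] (hp2 : p ≠ 2) : NodeLocalStmt p := by
  intro M' _ hpM' h3 hν2 hν3 A hA ι _ P Q c n₀ FF NH hcl ζ T hlc hσ hdr1 hdr2 hASK hD₁ hD₂ γ₁ hγ₁
    γ₂ hγ₂
  refine ⟨-1, neg_ne_zero.2 one_ne_zero, fun s => ?_⟩
  exact nodeLocal_at hpM' hA hp2 h3 hν2 hν3 T hσ hASK hD₁ hD₂ hγ₁ hγ₂ (P s)
    (Fermat.Agent.GF.Eis.Final.hoff_of_frameFacts M' A (exactDvd hpM') FF s) (hcl.2 s)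

end Fermat.Agent.GE8.LLP.NodeLocalFin

end
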