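/-
S59 PRE-WORK / E8.4 LLP, RISK-1 "good SUPERSINGULAR at `p`" (helper5, per helper10 board 7178 §D):
**the statement (TOR-p) and its consumer.**

`M = M' p`, `p ∤ M'`, `A | p`, `V = Kum_p(F_M) ≅ J₀(M)[p]`, `M⁰ = M0Kum M A h p` (the classes with a
Kummer generator that is a unit with constant reduction at both Gauss valuations = the kernel of
reduction on `J₀(M)[p]`), `Knew = ker α_* ∩ ker β_*` (`aLow`, `bLow`).

* `TorPStmt p` : **(TOR-p)**, a pure `J`-side statement (no elliptic curve in it):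
  `I_A` acts on `M⁰ ∩ Knew` through `ω` (= `cyc p`).
  Classical content: `M⁰ = Ĵ[p]`, `Ĵ / T̂ = (Ĵ₀(M')²)`, `(α_*, β_*) = [[1, V], [V, 1]]` on it, whose
  kernel lies in the multiplicative part; so `M⁰ ∩ Knew ⊆ Ĵ[p]^mult`.
* `CocStmt p`, `torP_of_coc` : the node split of (TOR-p) = an `ω`-equivariant INJECTIVE map on
  `M⁰ ∩ Knew` (graph cocycle + (K0)).
* `ordAt_of_torPOn`, `ordAt_of_torP` : **`p`-new ⟹ ordinary shape** — for EVERY `W/ℤ` with `W[p]`
  irreducible, `p` odd: if `W` is residually modular of level `M' p` and NOT of level `M'`, then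
  `OrdAt W p` (the frozen `IsOrdinaryAt` shape of `W[p]` at `p` = the binder `hord` of the GATE-F
  line).  Proof: `L := e⁻¹(M⁰) ⊆ W[p]` is `D_A`-stable, `(σ - 1) W[p] ⊆ L` for `σ ∈ I_A` by (U),
  `I_A` acts on `L` by `ω` by (TOR-p); `L = ⊤` would give `det = ω² ≠ ω`, `L = ⊥` would give
  `det = 1 ≠ ω`; so `L` is a line.
* `lower_or_ordAt_of_torP` : `W` lowers to `M'`, or `OrdAt W p`.
* `s40Shape_of_torP` : the frozen S40 SHAPE at `p` from (TOR-p) and the S40 shape WITH the extra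
  input `OrdAt W p` (= what the GATE-F chain delivers).  The ordinary / supersingular dichotomy of
  `W[p] | D_p` is never used: the supersingular branch is closed by (TOR-p) alone.
-/
import Mathlib
import Fermat.Agent.GF.Top.S44TopOrd
import Fermat.Agent.GF.Setup.S0
import Fermat.Agent.GF.Shape.Plug

set_option autoImplicit false
set_option linter.unusedSectionVars false

noncomputable section

namespace Fermat.Agent.GE8.LLP.TorP

open AlgebraicCurve ModularCurve WeierstrassCurve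
open Fermat.Agent.GJ Fermat.Agent.GJ.KumGroup Fermat.Agent.GJ.Kum
open Fermat.Agent.GK.UQ Fermat.Agent.GK.New Fermat.Agent.GK.UTr Fermat.Agent.GK.AL
open Fermat.Agent.GJ.CycChar Fermat.Agent.GB.A.A6.ECDet Fermat.Agent.GB.A.A6.EigQ
open Fermat.Agent.GF.Setup.Plane Fermat.Agent.GF.Setup.S0 Fermat.Agent.GF.Shape.Plug
open Fermat.Agent.GF.Top.S44TopOrd Fermat.Agent.GS.F

local notation "Qb" => AlgebraicClosure ℚ
local notation "GQ" => (AlgebraicClosure ℚ ≃ₐ[ℚ] AlgebraicClosure ℚ)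

/-! ### the statement -/

/-- **(TOR-p)**: at `A | p ∥ M' p`, inertia acts through `ω` on the `p`-new part of `M⁰`. -/
def TorPStmt (p : ℕ) [Fact p.Prime] : Prop :=
  ∀ (M' : ℕ) [NeZero M'] (h : ExactDvd p (M' * p)) (A : ValuationSubring Qb),
    A.LiesOverPrime p → ∀ σ ∈ A.inertiaSubgroupIn ℚ,
      ∀ x : Additive (Kum Qb (FK (M' * p)) p),
        x ∈ M0Kum (M' * p) A h p → aLow M' p p x = 0 → bLow h p x = 0 →
          KumType.gal (M' * p) p σ x = ((cyc p σ : (ZMod p)ˣ) : ZMod p) • x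

/-- the local form consumed below: `I_A` acts through `ω` on `Y ∩ M⁰`, for every `A | p`. -/
def TorPOn {p : ℕ} [Fact p.Prime] {M' : ℕ} [NeZero M'] (h : ExactDvd p (M' * p))
    (Y : Submodule (ZMod p) (Additive (Kum Qb (FK (M' * p)) p))) : Prop :=
  ∀ (A : ValuationSubring Qb), A.LiesOverPrime p → ∀ σ ∈ A.inertiaSubgroupIn ℚ,
    ∀ x ∈ Y, x ∈ M0Kum (M' * p) A h p →
      KumType.gal (M' * p) p σ x = ((cyc p σ : (ZMod p)ˣ) : ZMod p) • x

/-- (TOR-p) gives the local form on every submodule of `Knew`. -/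
theorem torPOn_of_torP {p : ℕ} [Fact p.Prime] (hT : TorPStmt p) {M' : ℕ} [NeZero M']
    (h : ExactDvd p (M' * p)) (Y : Submodule (ZMod p) (Additive (Kum Qb (FK (M' * p)) p)))
    (hY : ∀ x ∈ Y, aLow M' p p x = 0 ∧ bLow h p x = 0) : TorPOn h Y :=
  fun A hA σ hσ x hx hxM => hT M' h A hA σ hσ x hxM (hY x hx).1 (hY x hx).2

/-! ### `M⁰` is `D_A`-stable, in the `Kum` vocabulary -/

theorem gal_mem_M0Kum {N : ℕ} [NeZero N] {A : ValuationSubring Qb} {q : ℕ} {h : ExactDvd q N}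
    {m : ℕ} [NeZero m] {σ : GQ} (hσ : σ ∈ A.decompositionSubgroup ℚ)
    {x : Additive (Kum Qb (FK N) m)} (hx : x ∈ M0Kum N A h m) :
    KumType.gal N m σ x ∈ M0Kum N A h m := by
  rw [mem_M0Kum, kumJ_gal]
  exact smul_mem_M0mod hσ (mem_M0Kum.1 hx)

/-! ### the node split of (TOR-p): the graph cocycle -/

/-- **[COC]** = the node split of (TOR-p) (helper40 board 5894 §B, helper85 board 6098 (δ)): at every
`A | p` a map `c` on `V` which on `M⁰ ∩ Knew` is `ω`-equivariant for `I_A`, `𝔽_p`-homogeneous and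
INJECTIVE.  Intended instance: the graph cocycle `c : V^μ → (ℤ/p)^Σ / diag` (node roots `r_s` of a
deep representative, S3 = `GF/NormDepth/Inst/Final.deep_of_mem_M0_Knew` on main; `I_A` acts on the
target through `ω`), injective by (K0) "a compatible formal system with poles `≤ E₀` on the nodal
fibre is a constant". -/
def CocStmt (p : ℕ) [Fact p.Prime] : Prop :=
  ∀ (M' : ℕ) [NeZero M'] (h : ExactDvd p (M' * p)) (A : ValuationSubring Qb),
    A.LiesOverPrime p →
    ∃ (H : Type) (_ : AddCommGroup H) (_ : Module (ZMod p) H)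
      (c : Additive (Kum Qb (FK (M' * p)) p) → H),
      (∀ σ ∈ A.inertiaSubgroupIn ℚ, ∀ x : Additive (Kum Qb (FK (M' * p)) p),
        x ∈ M0Kum (M' * p) A h p → aLow M' p p x = 0 → bLow h p x = 0 →
          c (KumType.gal (M' * p) p σ x) = ((cyc p σ : (ZMod p)ˣ) : ZMod p) • c x) ∧
      (∀ (a : ZMod p) (x : Additive (Kum Qb (FK (M' * p)) p)),
        x ∈ M0Kum (M' * p) A h p → aLow M' p p x = 0 → bLow h p x = 0 → c (a • x) = a • c x) ∧
      (∀ x y : Additive (Kum Qb (FK (M' * p)) p),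
        x ∈ M0Kum (M' * p) A h p → aLow M' p p x = 0 → bLow h p x = 0 →
        y ∈ M0Kum (M' * p) A h p → aLow M' p p y = 0 → bLow h p y = 0 → c x = c y → x = y)

/-- **(TOR-p) from [COC].** -/
theorem torP_of_coc {p : ℕ} [Fact p.Prime] (hC : CocStmt p) : TorPStmt p := by
  intro M' _ h A hA σ hσ x hxM hxa hxb
  obtain ⟨H, _, _, c, hequiv, hhom, hinj⟩ := hC M' h A hA
  have hσD : σ ∈ A.decompositionSubgroup ℚ :=
    Fermat.Agent.S05.mem_decompositionSubgroup_of_mem_inertiaSubgroupIn hσ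
  refine hinj _ _ (gal_mem_M0Kum hσD hxM) ?_ ?_ ?_ ?_ ?_ ?_
  · rw [aLow_gal, hxa, map_zero]
  · rw [bLow_gal, hxb, map_zero]
  · exact (AddSubgroup.toZModSubmodule p (M0Kum (M' * p) A h p)).smul_mem _ hxM
  · rw [map_smul, hxa, smul_zero]
  · rw [map_smul, hxb, smul_zero]
  · rw [hequiv σ hσ x hxM hxa hxb, hhom _ x hxM hxa hxb]

/-! ### linear algebra -/

/-- in a plane over `𝔽_p` every nonzero vector is the first vector of a basis. -/
theorem exists_basis_zero_eq' {p : ℕ} [Fact p.Prime] {V : Type*} [AddCommGroup V]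
    [Module (ZMod p) V] (hrank : Module.finrank (ZMod p) V = 2) {v : V} (hv : v ≠ 0) :
    ∃ b : Module.Basis (Fin 2) (ZMod p) V, b 0 = v := by
  obtain ⟨w, hli⟩ := exists_linearIndependent_pair_of_one_lt_finrank
    (R := ZMod p) (M := V) (by rw [hrank]; norm_num) hv
  refine ⟨basisOfLinearIndependentOfCardEqFinrank hli (by rw [hrank, Fintype.card_fin]), ?_⟩
  rw [coe_basisOfLinearIndependentOfCardEqFinrank]
  rfl

/-! ### `p`-new ⟹ ordinary shape -/

section Main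

variable {W : WeierstrassCurve ℤ} {p : ℕ} [Fact p.Prime] {M' : ℕ} [NeZero M']

/-- **`p`-new ⟹ ordinary shape**, local form: a `G_ℚ`-equivariant copy `Y₀` of an irreducible
`W[p]` (`p` odd) in `Kum_p(F_{M' p})` on which (TOR-p) holds forces `OrdAt W p`. -/
theorem ordAt_of_torPOn (hΔ : W.Δ ≠ 0) (hp2 : p ≠ 2) (hirr : W.ModRepIsIrreducible p)
    (hpM' : ¬ p ∣ M') (C : Copy W p (M' * p)) (hT : TorPOn (exactDvd hpM') C.Y0) :
    OrdAt W p := by
  intro hcard₁ hker A hA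
  have hp : p.Prime := Fact.out
  have hfin2 : Module.finrank (ZMod p) (Tp W p) = 2 := finrank_Tp hcard₁
  have hfinite : Finite (Tp W p) := finite_Tp hcard₁
  have hmf : Module.Finite (ZMod p) (Tp W p) := Module.Finite.of_finite
  -- the line
  let L : Submodule (ZMod p) (Tp W p) :=
    (AddSubgroup.toZModSubmodule p (M0Kum (M' * p) A (exactDvd hpM') p)).comap C.e
  have hmemL : ∀ v : Tp W p, v ∈ L ↔ C.e v ∈ M0Kum (M' * p) A (exactDvd hpM') p := fun v => Iff.rfl
  -- (a) `D_A`-stable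
  have hD : ∀ σ ∈ A.decompositionSubgroup ℚ, ∀ v ∈ L, rho W p σ v ∈ L := by
    intro σ hσ v hv
    rw [hmemL] at hv ⊢
    rw [C.equivariant]
    exact gal_mem_M0Kum hσ hv
  -- (b) (U)
  have hU : ∀ σ ∈ A.inertiaSubgroupIn ℚ, ∀ v : Tp W p, rho W p σ v - v ∈ L := by
    intro σ hσ v
    rw [hmemL, map_sub, C.equivariant]
    exact gal_sub_mem_M0Kum hA hσ (C.e v)
  -- (c) (TOR-p)
  have hω : ∀ σ ∈ A.inertiaSubgroupIn ℚ, ∀ v ∈ L,
      rho W p σ v = ((cyc p σ : (ZMod p)ˣ) : ZMod p) • v := by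
    intro σ hσ v hv
    apply C.inj
    rw [C.equivariant, map_smul]
    exact hT A hA σ hσ (C.e v) (C.e_mem v) ((hmemL v).1 hv)
  -- `ω ≠ 1` on `I_A`
  obtain ⟨σ₀, hσ₀, hne⟩ := Fermat.Agent.GF.Shape.Cyc.exists_inertia_cyc_ne_one hp2 A
    ((Fermat.Agent.S05.natCast_mem_nonunits_iff hp hA p).2 dvd_rfl)
  have hdet₀ := det_rho (W := W) (p := p) hΔ hcard₁ hirr σ₀
  -- `L ≠ ⊤`
  have hLtop : L ≠ ⊤ := by
    intro htop
    have hsc : rho W p σ₀ = ((cyc p σ₀ : (ZMod p)ˣ) : ZMod p) • (LinearMap.id : Tp W p →ₗ[ZMod p] Tp W p) := by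
      refine LinearMap.ext fun v => ?_
      rw [LinearMap.smul_apply, LinearMap.id_apply]
      exact hω σ₀ hσ₀ v (htop ▸ Submodule.mem_top)
    rw [hsc, LinearMap.det_smul, hfin2, LinearMap.det_id, mul_one] at hdet₀
    have hu : ((cyc p σ₀ : (ZMod p)ˣ) : ZMod p) ≠ 0 := Units.ne_zero _
    apply hne
    have h2 : ((cyc p σ₀ : (ZMod p)ˣ) : ZMod p) * ((cyc p σ₀ : (ZMod p)ˣ) : ZMod p)
        = ((cyc p σ₀ : (ZMod p)ˣ) : ZMod p) * 1 := by rw [mul_one, ← sq]; exact hdet₀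
    exact mul_left_cancel₀ hu h2
  -- `L ≠ ⊥`
  have hLbot : L ≠ ⊥ := by
    intro hbot
    have hone : rho W p σ₀ = (LinearMap.id : Tp W p →ₗ[ZMod p] Tp W p) := by
      refine LinearMap.ext fun v => ?_
      have := hU σ₀ hσ₀ v
      rw [hbot, Submodule.mem_bot, sub_eq_zero] at this
      rw [this, LinearMap.id_apply]
    rw [hone, LinearMap.det_id] at hdet₀
    exact hne hdet₀.symm
  -- `L` is a line
  obtain ⟨v, hvL, hv0⟩ := Submodule.exists_mem_ne_zero_of_ne_bot hLbot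
  obtain ⟨b, hb⟩ := exists_basis_zero_eq' hfin2 hv0
  have hle : Submodule.span (ZMod p) {b 0} ≤ L := by
    rw [Submodule.span_singleton_le_iff_mem, hb]
    exact hvL
  have hfrL : Module.finrank (ZMod p) L = 1 := by
    have h1 : Module.finrank (ZMod p) L < 2 := hfin2 ▸ Submodule.finrank_lt hLtop
    have h2 : 0 < Module.finrank (ZMod p) L := by
      rw [Module.finrank_pos_iff]
      exact Submodule.nontrivial_iff_ne_bot.2 hLbot
    omega
  have hfrS : Module.finrank (ZMod p) (Submodule.span (ZMod p) {b 0}) = 1 :=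
    finrank_span_singleton (b.ne_zero 0)
  have hLeq : L = Submodule.span (ZMod p) {b 0} :=
    (Submodule.eq_of_le_of_finrank_eq hle (by rw [hfrS, hfrL])).symm
  exact ⟨L, ⟨b, hLeq⟩, hD, hU⟩

/-- **`p`-new ⟹ ordinary shape** from (TOR-p). -/
theorem ordAt_of_torP (hT : TorPStmt p) (hΔ : W.Δ ≠ 0) (hp2 : p ≠ 2)
    (hirr : W.ModRepIsIrreducible p) (hpM' : ¬ p ∣ M')
    (hmod : W.IsResiduallyModularOfLevel p (M' * p))
    (hnot : ¬ W.IsResiduallyModularOfLevel p M') : OrdAt W p := by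
  obtain ⟨C, hC⟩ := exists_setup W hΔ hp2 hirr hmod
  refine ordAt_of_torPOn hΔ hp2 hirr hpM' C
    (torPOn_of_torP hT (exactDvd hpM') C.Y0 fun x hx => knew W hpM' hnot (hC hx))

/-- `W` lowers to level `M'`, or `W[p]` has ordinary shape at `p`. -/
theorem lower_or_ordAt_of_torP (hT : TorPStmt p) (hΔ : W.Δ ≠ 0) (hp2 : p ≠ 2)
    (hirr : W.ModRepIsIrreducible p) (hpM' : ¬ p ∣ M')
    (hmod : W.IsResiduallyModularOfLevel p (M' * p)) :
    W.IsResiduallyModularOfLevel p M' ∨ OrdAt W p := by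
  by_cases hlow : W.IsResiduallyModularOfLevel p M'
  · exact Or.inl hlow
  · exact Or.inr (ordAt_of_torP hT hΔ hp2 hirr hpM' hmod hlow)

/-- **the supersingular branch**: if `W[p]` is NOT of ordinary shape at `p`, (TOR-p) alone lowers
the level. -/
theorem lower_of_torP_of_not_ordAt (hT : TorPStmt p) (hΔ : W.Δ ≠ 0) (hp2 : p ≠ 2)
    (hirr : W.ModRepIsIrreducible p) (hpM' : ¬ p ∣ M')
    (hmod : W.IsResiduallyModularOfLevel p (M' * p)) (hss : ¬ OrdAt W p) :
    W.IsResiduallyModularOfLevel p M' :=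
  (lower_or_ordAt_of_torP hT hΔ hp2 hirr hpM' hmod).resolve_right hss

end Main

/-! ### the frozen S40 shape at `p` -/

/-- the frozen S40 shape at the prime `p`. -/
def S40Shape (p : ℕ) : Prop :=
  ∀ (W : WeierstrassCurve ℤ) (_ : W.Δ ≠ 0) (_ : p.Prime) (_ : p ≠ 2)
    (_ : W.IsGoodPrimeFor p) (_ : W.ModRepIsIrreducible p)
    (M : ℕ) (_ : 0 < M) (_ : p ∣ M) (_ : ¬ p ^ 2 ∣ M)
    (_ : W.IsResiduallyModularOfLevel p M), W.IsResiduallyModularOfLevel p (M / p)

/-- the frozen S40 shape at `p` with the extra input `OrdAt W p` (the E-side ordinary line at `p`):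
the statement the GATE-F chain (`hord` binder) is built to deliver. -/
def S40OrdShape (p : ℕ) : Prop :=
  ∀ (W : WeierstrassCurve ℤ) (_ : W.Δ ≠ 0) (hp : p.Prime) (_ : p ≠ 2)
    (_ : W.IsGoodPrimeFor p) (_ : W.ModRepIsIrreducible p) (_ : @OrdAt W p ⟨hp⟩)
    (M : ℕ) (_ : 0 < M) (_ : p ∣ M) (_ : ¬ p ^ 2 ∣ M)
    (_ : W.IsResiduallyModularOfLevel p M), W.IsResiduallyModularOfLevel p (M / p)

/-- **E8.4 (good reduction at `p`) = (TOR-p) + the ordinary chain.** -/
theorem s40Shape_of_torP {p : ℕ} (hT : ∀ hp : p.Prime, @TorPStmt p ⟨hp⟩)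
    (hO : S40OrdShape p) : S40Shape p := by
  intro W hΔ hp hp2 hgood hirr M hM hpM hp2M hmod
  have : Fact p.Prime := ⟨hp⟩
  obtain ⟨M', rfl⟩ : ∃ M', M = M' * p := ⟨M / p, (Nat.div_mul_cancel hpM).symm⟩
  have hM'0 : M' ≠ 0 := by
    rintro rfl
    simp at hM
  have : NeZero M' := ⟨hM'0⟩
  have hpM' : ¬ p ∣ M' := by
    intro hd
    apply hp2M
    rw [pow_two]
    exact Nat.mul_dvd_mul hd (dvd_refl p)
  have hdiv : M' * p / p = M' := Nat.mul_div_cancel _ hp.pos
  rw [hdiv]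
  rcases lower_or_ordAt_of_torP (hT hp) hΔ hp2 hirr hpM' hmod with h | h
  · exact h
  · have := hO W hΔ hp hp2 hgood hirr h (M' * p) hM hpM hp2M hmod
    rwa [hdiv] at this

end Fermat.Agent.GE8.LLP.TorP

end
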