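/-
S59 PRE-WORK / E8.4 LLP, RISK-1 "good SUPERSINGULAR at `p`", node (DS-ω) (helper77, per helper10
RULING A8/A9/A10): **the statement (DS-ω), level by level, and its consumers.**

`M = M' p`, `p ∤ M'`, `A | p`, `V = Kum_p(F_M)`, `M⁰ = M0Kum M A h p`.  A class `x` of `V` is DOUBLY
DEEP at `A` if, for both Gauss valuations `w₁ = redDataBar M A` and `w₂ = redData2 M A h` of `F_M`
above `A`, it has Kummer representatives arbitrarily close to `1`
(`GF/NormDepth/Inst/Deep.Deep`; the completion-free form of "the Kummer function is a `p`-th power in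
both completions").

* `DSOmegaAt p M' h` : **(DS-ω) at the level `M' p`** -- for every `A | p`, inertia `I_A` acts through
  `ω = cyc p` on the doubly deep classes of `M⁰`.  (Classical content: doubly deep classes of
  `M⁰ = Ĵ[p]` have all formal coordinates of depth `≥ v(ζ_p - 1)`, hence lie in the multiplicative
  part.)  NO Hecke operator occurs in the statement.
* `DSOmegaStmt p` : (DS-ω) at every level.
* `torPOn_of_dsOmegaAt` : (DS-ω) at the level `M' p` gives helper5's local form `TorPOn h Y` on every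
  submodule `Y` of the `p`-new part `ker α_* ∩ ker β_*`; the only input is S3 (completion-free)
  `GF/NormDepth/Inst/Final.deep_of_mem_M0_Knew` and the dictionary `M⁰ ⊆ ker r₁ ⊓ ker r₂`.
* `torP_of_dsOmega` : `DSOmegaStmt p → TorPStmt p`.
* `ordAt_of_dsOmegaAt`, `lower_or_ordAt_of_dsOmegaAt` : the LEVEL BY LEVEL forms of helper5's
  `ordAt_of_torP`, `lower_or_ordAt_of_torP` -- they consume (DS-ω) only at the level at hand, so a
  producer of `DSOmegaAt` with side conditions on the level (e.g. `p = 3 → 2 ∣ M'`, as in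
  `GS/Top/FrameNodeAll.frameNode_all`) still feeds them.
-/
import Mathlib
import Fermat.Agent.GE8.LLP.TorPStmt
import Fermat.Agent.GF.NormDepth.Inst.Final
import Fermat.Agent.GZ.LocP.BOB.Chain

set_option autoImplicit false
set_option linter.unusedSectionVars false

noncomputable section

namespace Fermat.Agent.GE8.LLP.DSOmega

open AlgebraicCurve ModularCurve WeierstrassCurve
open Fermat.Agent.GJ Fermat.Agent.GJ.KumGroup Fermat.Agent.GJ.Kum
open Fermat.Agent.GJ.J1 Fermat.Agent.GJ.J1.Val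
open Fermat.Agent.GK.UQ Fermat.Agent.GK.New Fermat.Agent.GK.UTr Fermat.Agent.GK.AL
open Fermat.Agent.GK.UqKronecker
open Fermat.Agent.GJ.CycChar Fermat.Agent.GB.A.A6.ECDet Fermat.Agent.GB.A.A6.EigQ
open Fermat.Agent.GF.Setup.Plane Fermat.Agent.GF.Setup.S0 Fermat.Agent.GF.Shape.Plug
open Fermat.Agent.GF.Top.S44TopOrd Fermat.Agent.GS.F
open Fermat.Agent.GF.NormDepth.Inst Fermat.Agent.GE8.LLP.TorP

local notation "Qb" => AlgebraicClosure ℚ
local notation "GQ" => (AlgebraicClosure ℚ ≃ₐ[ℚ] AlgebraicClosure ℚ)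

/-! ### the statement -/

/-- **(DS-ω) at the level `M' p`**: at every `A | p ∥ M' p`, inertia acts through `ω` on the classes
of `M⁰` which are deep for BOTH Gauss valuations above `A`. -/
def DSOmegaAt (p : ℕ) [Fact p.Prime] (M' : ℕ) [NeZero M'] (h : ExactDvd p (M' * p)) : Prop :=
  ∀ (A : ValuationSubring Qb), A.LiesOverPrime p → ∀ σ ∈ A.inertiaSubgroupIn ℚ,
    ∀ x : Additive (Kum Qb (FK (M' * p)) p),
      x ∈ M0Kum (M' * p) A h p →
      Deep (redDataBar (M' * p) A) p x → Deep (redData2 (M' * p) A h) p x →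
        KumType.gal (M' * p) p σ x = ((cyc p σ : (ZMod p)ˣ) : ZMod p) • x

/-- **(DS-ω)** at every level. -/
def DSOmegaStmt (p : ℕ) [Fact p.Prime] : Prop :=
  ∀ (M' : ℕ) [NeZero M'] (h : ExactDvd p (M' * p)), DSOmegaAt p M' h

/-! ### the dictionary `M⁰ ⊆ ker r₁ ⊓ ker r₂` in the `Kum` vocabulary -/

theorem mem_kerRed_inf_of_mem_M0Kum {N : ℕ} [NeZero N] {A : ValuationSubring Qb} {q : ℕ}
    {h : ExactDvd q N} {m : ℕ} [NeZero m] {x : Additive (Kum Qb (FK N) m)}
    (hx : x ∈ M0Kum N A h m) : x ∈ kerRed N A m ⊓ kerRed₂ h A m :=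
  Fermat.Agent.GZ.LocP.BOB.Chain.mem_kerRed_inf_of_coe_mem_M0mod h (mem_M0Kum.1 hx)

/-! ### (DS-ω) ⟹ (TOR-p) -/

section Level

variable {p : ℕ} [Fact p.Prime] {M' : ℕ} [NeZero M'] {h : ExactDvd p (M' * p)}

/-- the `p`-new classes of `M⁰` are doubly deep (S3, completion-free). -/
theorem deep_of_mem_M0Kum_Knew {A : ValuationSubring Qb} (hA : A.LiesOverPrime p)
    {x : Additive (Kum Qb (FK (M' * p)) p)} (hx : x ∈ M0Kum (M' * p) A h p)
    (h1 : aLow M' p p x = 0) (h2 : bLow h p x = 0) :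
    Deep (redDataBar (M' * p) A) p x ∧ Deep (redData2 (M' * p) A h) p x :=
  deep_of_mem_M0_Knew h hA (mem_kerRed_inf_of_mem_M0Kum hx).1 (mem_kerRed_inf_of_mem_M0Kum hx).2
    h1 h2

/-- **(DS-ω) at the level `M' p` ⟹ helper5's local form `TorPOn h Y`** on every submodule of the
`p`-new part. -/
theorem torPOn_of_dsOmegaAt (hD : DSOmegaAt p M' h)
    (Y : Submodule (ZMod p) (Additive (Kum Qb (FK (M' * p)) p)))
    (hY : ∀ x ∈ Y, aLow M' p p x = 0 ∧ bLow h p x = 0) : TorPOn h Y :=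
  fun A hA σ hσ x hx hxM =>
    hD A hA σ hσ x hxM (deep_of_mem_M0Kum_Knew hA hxM (hY x hx).1 (hY x hx).2).1
      (deep_of_mem_M0Kum_Knew hA hxM (hY x hx).1 (hY x hx).2).2

end Level

/-- **(DS-ω) ⟹ (TOR-p).** -/
theorem torP_of_dsOmega {p : ℕ} [Fact p.Prime] (hD : DSOmegaStmt p) : TorPStmt p :=
  fun M' _ h A hA σ hσ x hxM hxa hxb =>
    hD M' h A hA σ hσ x hxM (deep_of_mem_M0Kum_Knew hA hxM hxa hxb).1
      (deep_of_mem_M0Kum_Knew hA hxM hxa hxb).2

/-! ### level by level consumers -/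

section Main

variable {W : WeierstrassCurve ℤ} {p : ℕ} [Fact p.Prime] {M' : ℕ} [NeZero M']

/-- **`p`-new ⟹ ordinary shape** from (DS-ω) AT THE LEVEL `M' p` only. -/
theorem ordAt_of_dsOmegaAt (hΔ : W.Δ ≠ 0) (hp2 : p ≠ 2)
    (hirr : W.ModRepIsIrreducible p) (hpM' : ¬ p ∣ M')
    (hD : DSOmegaAt p M' (exactDvd hpM'))
    (hmod : W.IsResiduallyModularOfLevel p (M' * p))
    (hnot : ¬ W.IsResiduallyModularOfLevel p M') : OrdAt W p := by
  obtain ⟨C, hC⟩ := exists_setup W hΔ hp2 hirr hmod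
  exact ordAt_of_torPOn hΔ hp2 hirr hpM' C
    (torPOn_of_dsOmegaAt hD C.Y0 fun x hx => knew W hpM' hnot (hC hx))

/-- `W` lowers to level `M'`, or `W[p]` has ordinary shape at `p`; (DS-ω) at the level `M' p`
only. -/
theorem lower_or_ordAt_of_dsOmegaAt (hΔ : W.Δ ≠ 0) (hp2 : p ≠ 2)
    (hirr : W.ModRepIsIrreducible p) (hpM' : ¬ p ∣ M')
    (hD : DSOmegaAt p M' (exactDvd hpM'))
    (hmod : W.IsResiduallyModularOfLevel p (M' * p)) :
    W.IsResiduallyModularOfLevel p M' ∨ OrdAt W p := by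
  by_cases hlow : W.IsResiduallyModularOfLevel p M'
  · exact Or.inl hlow
  · exact Or.inr (ordAt_of_dsOmegaAt hΔ hp2 hirr hpM' hD hmod hlow)

end Main

end Fermat.Agent.GE8.LLP.DSOmega

end
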