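/-
S59 PRE-WORK / E8.4 LLP (lowering at `p` for a GENERAL semistable `W`), leaf ORDAT-W (helper17):
**the E-side ordinary line of `W[p]` at a prime `p` of MULTIPLICATIVE reduction, in the frozen
`IsOrdinaryAt` shape** = the binder `hord : OrdAt W p` of the whole GATE-F line
(`GF/Top/S44TopOrd.Core44O`, `Provider44T.TropZeroT`, `F2PlugK.NodeSupplyK`, …), which on main is
discharged for the Frey curve only (`S44TopOrd.frey_ordAt`).

Source: helper25's `GE7/OrdMult/Main.ordAtMult` (Tate curve over `ℂ_[p]`, ANY prime `p`) at the level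
`n = 1`: `L := C ∩ W[p]` is cyclic of order `p` (a line), `D_A`-stable, and `(σ - 1) W[p] ⊆ L` for
`σ ∈ I_A`.

* `ordAt_of_ordAtMult : OrdAtMult W p → OrdAt W p`;
* `ordAt_of_mult (hΔ) (hpΔ : p ∣ Δ) (hc₄ : ¬ p ∣ c₄) : OrdAt W p`, `ordAt_of_semistable`;
* `core44_of_core44O : Core44O → Core44` — the `hord` binder removed for EVERY `W`.
-/
import Fermat.Agent.GF.Top.S44TopOrd
import Fermat.Agent.GE7.OrdMult.Main

set_option autoImplicit false

open scoped WeierstrassCurve.Affine
open Fermat.Agent.Common_helper32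

namespace Fermat.Agent.GE8.LLP.OrdAtW

open WeierstrassCurve WeierstrassCurve.Affine.Point
open Fermat.Agent.GB.A.A6.ECDet Fermat.Agent.GF.Top.S44Top Fermat.Agent.GF.Top.S44TopOrd
open Fermat.Agent.GE7.OrdMult

variable {W : WeierstrassCurve ℤ} {p : ℕ} [hp : Fact p.Prime]

/-- in a plane over `𝔽_p` every nonzero vector is the first vector of a basis. -/
theorem exists_basis_zero_eq {V : Type*} [AddCommGroup V] [Module (ZMod p) V]
    (hrank : Module.finrank (ZMod p) V = 2) {v : V} (hv : v ≠ 0) :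
    ∃ b : Module.Basis (Fin 2) (ZMod p) V, b 0 = v := by
  obtain ⟨w, hli⟩ := exists_linearIndependent_pair_of_one_lt_finrank
    (R := ZMod p) (M := V) (by rw [hrank]; norm_num) hv
  refine ⟨basisOfLinearIndependentOfCardEqFinrank hli (by rw [hrank, Fintype.card_fin]), ?_⟩
  rw [coe_basisOfLinearIndependentOfCardEqFinrank]
  rfl

/-- `c • v = c.val • v` on a `ZMod p`-module. -/
theorem zmod_smul_eq_val_nsmul {V : Type*} [AddCommGroup V] [Module (ZMod p) V] (c : ZMod p)
    (v : V) : c • v = c.val • v := by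
  conv_lhs => rw [← ZMod.natCast_zmod_val c]
  exact Nat.cast_smul_eq_nsmul _ _ _

/-- **the line at one place `A ∣ p`**, in the vocabulary `Tp W p`, `rho W p`. -/
theorem exists_line (h : OrdAtMult W p) (hcard₁ : Nat.card (Tp W p) = p ^ 2)
    (A : ValuationSubring Qb) (hA : A.LiesOverPrime p) :
    ∃ L : Submodule (ZMod p) (Tp W p),
      (∃ b : Module.Basis (Fin 2) (ZMod p) (Tp W p), L = Submodule.span (ZMod p) {b 0}) ∧
      (∀ σ ∈ A.decompositionSubgroup ℚ, ∀ v ∈ L, rho W p σ v ∈ L) ∧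
      (∀ σ ∈ A.inertiaSubgroupIn ℚ, ∀ v : Tp W p, rho W p σ v - v ∈ L) := by
  obtain ⟨C, δ, -, hst, hcyc, -, hin, -⟩ := h A hA
  obtain ⟨g, hgC, hgord, hgen⟩ := hcyc 1
  rw [pow_one] at hgord hgen
  -- the generator as an element of `W[p]`
  have hpg : p • g = 0 := by rw [← hgord]; exact addOrderOf_nsmul_eq_zero g
  have hg0 : g ≠ 0 := by
    intro h0
    rw [h0, addOrderOf_zero] at hgord
    exact hp.out.one_lt.ne hgord
  have hgT : g ∈ Submodule.torsionBy ℤ ((W.map (Int.castRingHom ℚ))⁄Qb).Point (p : ℤ) := by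
    rw [Submodule.mem_torsionBy_iff, natCast_zsmul]
    exact hpg
  set g' : Tp W p := ⟨g, hgT⟩ with hg'
  have hg'0 : g' ≠ 0 := fun h0 => hg0 (congrArg Subtype.val h0)
  obtain ⟨b, hb⟩ := exists_basis_zero_eq (finrank_Tp hcard₁) hg'0
  -- membership in the line
  have hmem : ∀ v : Tp W p, v ∈ Submodule.span (ZMod p) {g'} ↔
      (v : ((W.map (Int.castRingHom ℚ))⁄Qb).Point) ∈ C := by
    intro v
    constructor
    · intro hv
      obtain ⟨c, rfl⟩ := Submodule.mem_span_singleton.1 hv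
      rw [zmod_smul_eq_val_nsmul]
      show ((c.val • g' : Tp W p) : ((W.map (Int.castRingHom ℚ))⁄Qb).Point) ∈ C
      rw [Submodule.coe_smul_of_tower]
      exact C.nsmul_mem hgC _
    · intro hv
      have hpv : p • (v : ((W.map (Int.castRingHom ℚ))⁄Qb).Point) = 0 := by
        have := v.2
        rw [Submodule.mem_torsionBy_iff, natCast_zsmul] at this
        exact this
      obtain ⟨i, -, hi⟩ := hgen _ hv hpv
      have hvi : v = ((i : ℕ) : ZMod p) • g' := by
        apply Subtype.ext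
        rw [Nat.cast_smul_eq_nsmul, Submodule.coe_smul_of_tower]
        exact hi
      rw [hvi]
      exact Submodule.smul_mem _ _ (Submodule.mem_span_singleton_self _)
  refine ⟨Submodule.span (ZMod p) {g'}, ⟨b, by rw [hb]⟩, fun σ hσ v hv => ?_, fun σ hσ v => ?_⟩
  · rw [hmem] at hv ⊢
    show σ • (v : ((W.map (Int.castRingHom ℚ))⁄Qb).Point) ∈ C
    exact (hst σ hσ _).2 hv
  · rw [hmem]
    show σ • (v : ((W.map (Int.castRingHom ℚ))⁄Qb).Point) - v ∈ C
    exact hin σ hσ _

/-- **`OrdAt W p` from helper25's finite-level structure.** -/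
theorem ordAt_of_ordAtMult (h : OrdAtMult W p) : OrdAt W p := by
  intro hcard₁ hker A hA
  exact exists_line h hcard₁ A hA

/-- **`W[p]` is ordinary at a prime `p` of multiplicative reduction** (frozen `IsOrdinaryAt` of the
residual representation, for every choice of its two proof arguments). -/
theorem ordAt_of_mult (hΔ : W.Δ ≠ 0) (hpΔ : (p : ℤ) ∣ W.Δ) (hc₄ : ¬ (p : ℤ) ∣ W.c₄) :
    OrdAt W p :=
  ordAt_of_ordAtMult (ordAtMult W hΔ hpΔ hc₄)

/-- semistable form. -/
theorem ordAt_of_semistable (hΔ : W.Δ ≠ 0) (hss : W.IsSemistableModel) (hpΔ : (p : ℤ) ∣ W.Δ) :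
    OrdAt W p :=
  ordAt_of_mult hΔ hpΔ (hss p hp.out hpΔ)

/-- **`Core44O ⟹ Core44`**: the binder `hord` of the GATE-F line is a theorem for EVERY semistable
`W` (not only for the Frey curve). -/
theorem core44_of_core44O (h : Core44O) : Core44 :=
  fun W hΔ p hp hp5 hss hmult hpeu hirr M hM hpM hp2M hmod =>
    h W hΔ p hp hp5 hss hmult hpeu hirr
      (@ordAt_of_semistable W p ⟨hp⟩ hΔ hss hmult) M hM hpM hp2M hmod

end Fermat.Agent.GE8.LLP.OrdAtW
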