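/-
S59 PRE-WORK / E8.4-ORD, slice (e) (helper17): **de-rigidify** — from the inner theorem
`Inner.llp_of_nodeLocalStmt` (rigid level `M'`, `p = 3 → 2 ∣ M'`) to EVERY squarefree level prime
to `p`, for a semistable `W`:

* even squarefree `L` : add an auxiliary prime `r ≡ 11 (mod 12)`, `r ∤ L p` (old forms), lower `p`
  at the rigid even level `L r` (`nuTwo = nuThree = 0` by `GL/AuxPrime`), remove `r`
  (`LLQ/Final.auxSupply`: helper90's chooser + helper10's remover, binder-free);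
* odd `L` : helper86's `Aux3/Strip2.lower_p_of_even` (add `2`, lower `p`, strip `2` by Mazur's
  principle at `q = 2`).

`llp_ord_sqfree` : `Squarefree L → ¬ p ∣ L → ResMod p (L p) → ResMod p L`; `llp_ord_div` : the frozen
S39/S40 conclusion `ResMod p M → ResMod p (M / p)` at squarefree `M` with `p ∣ M`.
Inputs: the E-side `(hord : OrdAt W p)`, `hKU`, and the `W`-free node supplier
`Inner.NodeLocalStmt p`.
-/
import Fermat.Agent.GE8.LLP.Inner
import Fermat.Agent.GE8.LLQ.Aux3.Strip2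
import Fermat.Agent.GL.AuxPrime

set_option autoImplicit false
set_option linter.unusedSectionVars false
set_option linter.unusedVariables false

noncomputable section

open WeierstrassCurve WeierstrassCurve.Affine WeierstrassCurve.Affine.Point
open scoped WeierstrassCurve.Affine

namespace Fermat.Agent.GE8.LLP.OrdTop

open ModularCurve
open Fermat.Agent.GJ.KumGroup Fermat.Agent.GF.ETate Fermat.Agent.GF.Top.S44TopOrd
open Fermat.Agent.GE8.LLQ.AuxJuggle Fermat.Agent.GE8.LLP.Inner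

variable (p : ℕ) [Fact p.Prime] (hp2 : p ≠ 2) (W : WeierstrassCurve ℤ) (hΔ : W.Δ ≠ 0)
  (hW : W.IsSemistableModel)
  (hcard₁ : Nat.card (Submodule.torsionBy ℤ
    ((W.map (Int.castRingHom ℚ))⁄(AlgebraicClosure ℚ)).Point p) = p ^ 2)
  (hker : GaloisFactorsThroughFiniteLevel
    (WeierstrassCurve.Affine.Point.galoisRepModuleEnd (K := AlgebraicClosure ℚ) ℚ
      (W.map (Int.castRingHom ℚ)) p))
  (hirr : W.ModRepIsIrreducible p)
  (hord : OrdAt W p)
  (hKU : ∀ ζ : Kb, IsPrimitiveRoot ζ p → KummerUnit W p (padicPlace p) ζ)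
  (hNL : NodeLocalStmt p)

include hp2 hΔ hW hirr hord hKU hNL in
/-- **E8.4-ORD at EVEN squarefree levels**: add `r ≡ 11 (12)`, lower `p` at the rigid level `L r`,
remove `r`. -/
theorem llp_ord_even (L : ℕ) (h2L : 2 ∣ L) (hpL : ¬ p ∣ L) (hLsq : Squarefree L)
    (hres : W.IsResiduallyModularOfLevel p (L * p)) : W.IsResiduallyModularOfLevel p L := by
  have hp : p.Prime := Fact.out
  have hLp0 : L * p ≠ 0 := mul_ne_zero hLsq.ne_zero hp.ne_zero
  obtain ⟨r, hr, hrn, hr12, hrem⟩ :=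
    Fermat.Agent.GE8.LLQ.Final.auxSupply W hW hΔ p hp2 hirr (L * p) hLp0
  have hrL : ¬ r ∣ L := fun hd => hrn (Dvd.dvd.mul_right hd p)
  have hrp : r ≠ p := fun e => hrn (e ▸ Dvd.intro_left L rfl)
  have hLr0 : L * r ≠ 0 := mul_ne_zero hLsq.ne_zero hr.ne_zero
  haveI : NeZero (L * r) := ⟨hLr0⟩
  have hpLr : ¬ p ∣ L * r := fun hd => by
    rcases (Nat.Prime.dvd_mul hp).1 hd with h | h
    · exact hpL h
    · exact hrp ((Nat.prime_dvd_prime_iff_eq hp hr).1 h).symm
  have hres' : W.IsResiduallyModularOfLevel p (L * r * p) :=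
    Fermat.Agent.GB.Top.SplitT.isResiduallyModularOfLevel_of_dvd hres
      ⟨r, by ring⟩ (mul_ne_zero hLr0 hp.ne_zero)
  have hlow : W.IsResiduallyModularOfLevel p (L * r) :=
    llp_of_nodeLocalStmt W hΔ p hp2 hirr hord hKU hNL (L * r) hpLr
      (fun _ => Dvd.dvd.mul_right h2L r)
      (Fermat.Agent.GL.AuxPrime.nuTwo_eq_zero_of_dvd hr
        (Fermat.Agent.GL.AuxPrime.mod_four_of_mod_twelve hr12) (Dvd.intro_left L rfl))
      (Fermat.Agent.GL.AuxPrime.nuThree_eq_zero_of_dvd hr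
        (Fermat.Agent.GL.AuxPrime.mod_three_of_mod_twelve hr12) (Dvd.intro_left L rfl))
      hres'
  exact hrem L (squarefree_mul_prime hLsq hr hrL) hlow

include hp2 hΔ hW hirr hord hKU hNL hcard₁ hker in
/-- **E8.4-ORD at EVERY squarefree level prime to `p`** (semistable `W`, ordinary line at `p`). -/
theorem llp_ord_sqfree (L : ℕ) (hLsq : Squarefree L) (hpL : ¬ p ∣ L)
    (hres : W.IsResiduallyModularOfLevel p (L * p)) : W.IsResiduallyModularOfLevel p L :=
  Fermat.Agent.GE8.LLQ.Aux3.Strip2.lower_p_of_even p hp2 W hΔ hW hcard₁ hker hirr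
    (fun L h2L hpL hLsq hres => llp_ord_even p hp2 W hΔ hW hirr hord hKU hNL L h2L hpL hLsq hres)
    L hLsq hpL hres

include hp2 hΔ hW hirr hord hKU hNL hcard₁ hker in
/-- the same in the frozen S39/S40 conclusion shape, at a squarefree level `M` with `p ∣ M`. -/
theorem llp_ord_div (M : ℕ) (hMsq : Squarefree M) (hpM : p ∣ M)
    (hres : W.IsResiduallyModularOfLevel p M) : W.IsResiduallyModularOfLevel p (M / p) := by
  have hp : p.Prime := Fact.out
  obtain ⟨L, rfl⟩ : ∃ L, M = L * p := ⟨M / p, (Nat.div_mul_cancel hpM).symm⟩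
  rw [Nat.mul_div_cancel L hp.pos]
  have hLsq : Squarefree L := Squarefree.of_mul_left hMsq
  have hpL : ¬ p ∣ L := fun hd => by
    have h2 : p * p ∣ L * p := Nat.mul_dvd_mul hd dvd_rfl
    exact hp.not_isUnit (hMsq p h2)
  exact llp_ord_sqfree p hp2 W hΔ hW hcard₁ hker hirr hord hKU hNL L hLsq hpL hres

end Fermat.Agent.GE8.LLP.OrdTop

end
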