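/-
S59 PRE-WORK / E8.4 (LLP at `p`), THE COLUMN TOP in hypothesis form (helper17, ORD sub-gate):
**the two inputs of helper96's `GE8/Top/MinLevelSide3` — `LLPGoodSideStmt p`, `LLPPeuSideStmt p` —
from the three open nodes of E8.4**

* `(a)  hNL  : Inner.NodeLocalStmt p`            (helper91: the node-local node lemma + test units);
* `(d)  hKUg : KUGoodStmt p`, `hKUm : KUMultStmt p` (helper25: the E-side Kummer units at
                                                  `A = padicPlace p`, good / multiplicative-peu);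
* `TORP hDS  : DSOmegaSideStmt p`                (helper5's sub-gate: (DS-ω) level by level under the
                                                  frame side condition `p = 3 → 2 ∣ M' p`).

`llpGoodSide_of` : good reduction at `p` — (DS-ω) gives "level lowers or `OrdAt W p`"
(`DSOmega.lower_or_ordAt_of_dsOmegaAt`, helper77/helper5), the ordinary chain
(`OrdTop.llp_ord_even`) does the rest; both at EVEN levels, `Strip2.lower_p_of_even` (helper86)
removes the parity.
`llpPeuSide_of` : multiplicative at `p`: `OrdAtW.ordAt_of_mult` + the ordinary chain; good at `p`: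
`llpGoodSide_of`.
-/
import Fermat.Agent.GE8.LLP.OrdTop
import Fermat.Agent.GE8.LLP.OrdAtW
import Fermat.Agent.GE8.LLP.DSOmegaStmt
import Fermat.Agent.GE8.Top.MinLevelSide3

set_option autoImplicit false
set_option linter.unusedSectionVars false
set_option linter.unusedVariables false

noncomputable section

open WeierstrassCurve WeierstrassCurve.Affine WeierstrassCurve.Affine.Point
open scoped WeierstrassCurve.Affine

namespace Fermat.Agent.GE8.LLP.Column

open ModularCurve
open Fermat.Agent.GJ.KumGroup Fermat.Agent.GJ.J1 Fermat.Agent.GF.ETate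
open Fermat.Agent.GF.Top.S44TopOrd Fermat.Agent.GF.Setup.S0
open Fermat.Agent.GB.A.A6.ECDet
open Fermat.Agent.GE8.LLP.Inner Fermat.Agent.GE8.LLP.DSOmega
open Fermat.Agent.GE8.Top.MinLevelSide3

/-- **(d), good case**: the E-side Kummer unit at `A = padicPlace p` for a curve with good reduction
at `p`. -/
def KUGoodStmt (p : ℕ) [Fact p.Prime] : Prop :=
  ∀ (W : WeierstrassCurve ℤ), W.Δ ≠ 0 → W.IsGoodPrimeFor p →
    ∀ ζ : Kb, IsPrimitiveRoot ζ p → KummerUnit W p (padicPlace p) ζ

/-- **(d), multiplicative peu ramifiée case**. -/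
def KUMultStmt (p : ℕ) [Fact p.Prime] : Prop :=
  ∀ (W : WeierstrassCurve ℤ), W.Δ ≠ 0 → (p : ℤ) ∣ W.Δ → ¬ (p : ℤ) ∣ W.c₄ →
    (W.map (Int.castRingHom ℚ)).IsPeuRamifieeAt p p →
    ∀ ζ : Kb, IsPrimitiveRoot ζ p → KummerUnit W p (padicPlace p) ζ

/-- **TORP target**: (DS-ω) level by level, under the frame side condition. -/
def DSOmegaSideStmt (p : ℕ) [Fact p.Prime] : Prop :=
  ∀ (M' : ℕ) [NeZero M'] (hpM' : ¬ p ∣ M'), (p = 3 → 2 ∣ M' * p) →
    DSOmegaAt p M' (exactDvd hpM')

variable {p : ℕ} [Fact p.Prime]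

/-- **E8.4, good reduction at `p` (ordinary AND supersingular)**: helper96's `LLPGoodSideStmt p`
from (a), (d)-good and (DS-ω). -/
theorem llpGoodSide_of (hp2 : p ≠ 2) (hNL : NodeLocalStmt p) (hKUg : KUGoodStmt p)
    (hDS : DSOmegaSideStmt p) : LLPGoodSideStmt p := by
  intro W hΔ hW hgood hirr M hMsq hpM _ hres
  have hp : p.Prime := Fact.out
  have hcard₁ : Nat.card (Tp W p) = p ^ 2 := hcard_of W hΔ p
  have hker := finiteLevel_rho hcard₁
  obtain ⟨L, rfl⟩ : ∃ L, M = L * p := ⟨M / p, (Nat.div_mul_cancel hpM).symm⟩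
  rw [Nat.mul_div_cancel L hp.pos]
  have hLsq : Squarefree L := Squarefree.of_mul_left hMsq
  have hpL : ¬ p ∣ L := fun hd => by
    have h2 : p * p ∣ L * p := Nat.mul_dvd_mul hd dvd_rfl
    exact hp.not_isUnit (hMsq p h2)
  refine Fermat.Agent.GE8.LLQ.Aux3.Strip2.lower_p_of_even p hp2 W hΔ hW hcard₁ hker hirr
    (fun L h2L hpL hLsq hres => ?_) L hLsq hpL hres
  haveI : NeZero L := ⟨hLsq.ne_zero⟩
  rcases lower_or_ordAt_of_dsOmegaAt hΔ hp2 hirr hpL
    (hDS L hpL (fun _ => Dvd.dvd.mul_right h2L p)) hres with h | hord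
  · exact h
  · exact OrdTop.llp_ord_even p hp2 W hΔ hW hirr hord (hKUg W hΔ hgood) hNL L h2L hpL hLsq hres

/-- **E8.4, peu ramifiée at `p`**: helper96's `LLPPeuSideStmt p` from (a), (d)-mult and the good
case. -/
theorem llpPeuSide_of (hp2 : p ≠ 2) (hNL : NodeLocalStmt p) (hKUm : KUMultStmt p)
    (hGood : LLPGoodSideStmt p) : LLPPeuSideStmt p := by
  intro W hΔ hW hc4 hirr hfin M hMsq hpM hside hres
  by_cases hpΔ : (p : ℤ) ∣ W.Δ
  · have hcard₁ : Nat.card (Tp W p) = p ^ 2 := hcard_of W hΔ p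
    exact OrdTop.llp_ord_div p hp2 W hΔ hW hcard₁ (finiteLevel_rho hcard₁) hirr
      (OrdAtW.ordAt_of_mult hΔ hpΔ (hc4 hpΔ)) (hKUm W hΔ hpΔ (hc4 hpΔ) hfin) hNL M hMsq hpM hres
  · exact hGood W hΔ hW hpΔ hirr hMsq hpM hside hres

/-- both side statements at once. -/
theorem llpSides_of (hp2 : p ≠ 2) (hNL : NodeLocalStmt p) (hKUg : KUGoodStmt p)
    (hKUm : KUMultStmt p) (hDS : DSOmegaSideStmt p) : LLPGoodSideStmt p ∧ LLPPeuSideStmt p :=
  ⟨llpGoodSide_of hp2 hNL hKUg hDS,
    llpPeuSide_of hp2 hNL hKUm (llpGoodSide_of hp2 hNL hKUg hDS)⟩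

end Fermat.Agent.GE8.LLP.Column

end
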