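/-
S59 PRE-WORK / E8.4 (LLP at `p`), column top in the shape of helper86's CANONICAL adapter
`GE8/LLQ/Aux3/MinLevelRig.exists_minLevel_of_rigid` (helper17, ORD sub-gate): **the per-`W` binder
`hRig`** ("level `N' p` ⟹ level `N'` at RIGID squarefree levels, even if `p = 3`") from the four
open Props of E8.4 (`Inner.NodeLocalStmt`, `Column.KUGoodStmt`, `Column.KUMultStmt`,
`Column.DSOmegaSideStmt`), and the minimal level itself.

* `hRig_of_eSide` : from `(hord : OrdAt W p)`, `hKU` — `Inner.llp_of_nodeLocalStmt` verbatim;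
* `hRig_mult`     : `W` multiplicative peu ramifiée at `p`;
* `hRig_good`     : `W` good at `p` (ordinary or supersingular): (DS-ω) at the level `N' p` lowers
  the level or gives `OrdAt W p`;
* `hRig_semistable` : `W` semistable, `ρ̄` peu ramifiée at `p` (either case);
* `exists_minLevel_of_column` : helper86's descent with `hRig` discharged.
-/
import Fermat.Agent.GE8.LLP.Column
import Fermat.Agent.GE8.LLQ.Aux3.MinLevelRig

set_option autoImplicit false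
set_option linter.unusedSectionVars false
set_option linter.unusedVariables false

noncomputable section

open WeierstrassCurve WeierstrassCurve.Affine WeierstrassCurve.Affine.Point
open scoped WeierstrassCurve.Affine

namespace Fermat.Agent.GE8.LLP.ColumnRig

open ModularCurve
open Fermat.Agent.GJ.KumGroup Fermat.Agent.GJ.J1 Fermat.Agent.GF.ETate
open Fermat.Agent.GF.Top.S44TopOrd
open Fermat.Agent.GE8.LLP.Inner Fermat.Agent.GE8.LLP.DSOmega Fermat.Agent.GE8.LLP.Column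

variable {p : ℕ} [hpF : Fact p.Prime]

/-- the binder `hRig` of `MinLevelRig.exists_minLevel_of_rigid`, for a curve `W`. -/
def RigStmt (W : WeierstrassCurve ℤ) (p : ℕ) : Prop :=
  ∀ N' : ℕ, nuTwo N' = 0 → nuThree N' = 0 → (p = 3 → 2 ∣ N') → ¬ p ∣ N' →
    Squarefree N' → W.IsResiduallyModularOfLevel p (N' * p) →
    W.IsResiduallyModularOfLevel p N'

/-- **`hRig` from the E-side data** (`OrdAt W p`, Kummer unit): the inner theorem. -/
theorem hRig_of_eSide (hp2 : p ≠ 2) (hNL : NodeLocalStmt p) (W : WeierstrassCurve ℤ)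
    (hΔ : W.Δ ≠ 0) (hirr : W.ModRepIsIrreducible p) (hord : OrdAt W p)
    (hKU : ∀ ζ : Kb, IsPrimitiveRoot ζ p → KummerUnit W p (padicPlace p) ζ) : RigStmt W p := by
  intro N' hν2 hν3 h3 hpN' hsq hres
  haveI : NeZero N' := ⟨hsq.ne_zero⟩
  exact llp_of_nodeLocalStmt W hΔ p hp2 hirr hord hKU hNL N' hpN' h3 hν2 hν3 hres

/-- **`hRig`, multiplicative peu ramifiée at `p`.** -/
theorem hRig_mult (hp2 : p ≠ 2) (hNL : NodeLocalStmt p) (hKUm : KUMultStmt p)
    (W : WeierstrassCurve ℤ) (hΔ : W.Δ ≠ 0) (hirr : W.ModRepIsIrreducible p)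
    (hpΔ : (p : ℤ) ∣ W.Δ) (hc₄ : ¬ (p : ℤ) ∣ W.c₄)
    (hpeu : (W.map (Int.castRingHom ℚ)).IsPeuRamifieeAt p p) : RigStmt W p :=
  hRig_of_eSide hp2 hNL W hΔ hirr (OrdAtW.ordAt_of_mult hΔ hpΔ hc₄) (hKUm W hΔ hpΔ hc₄ hpeu)

/-- **`hRig`, good reduction at `p`** (ordinary and supersingular at once): (DS-ω) at the level
`N' p` lowers the level or produces `OrdAt W p`. -/
theorem hRig_good (hp2 : p ≠ 2) (hNL : NodeLocalStmt p) (hKUg : KUGoodStmt p)
    (hDS : DSOmegaSideStmt p) (W : WeierstrassCurve ℤ) (hΔ : W.Δ ≠ 0)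
    (hirr : W.ModRepIsIrreducible p) (hgood : W.IsGoodPrimeFor p) : RigStmt W p := by
  intro N' hν2 hν3 h3 hpN' hsq hres
  haveI : NeZero N' := ⟨hsq.ne_zero⟩
  rcases lower_or_ordAt_of_dsOmegaAt hΔ hp2 hirr hpN'
    (hDS N' hpN' (fun e => Dvd.dvd.mul_right (h3 e) p)) hres with h | hord
  · exact h
  · exact llp_of_nodeLocalStmt W hΔ p hp2 hirr hord (hKUg W hΔ hgood) hNL N' hpN' h3 hν2 hν3 hres

/-- **`hRig` for a curve semistable at `p` with `ρ̄` peu ramifiée at `p`** (frozen S39 hypotheses). -/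
theorem hRig_semistable (hp2 : p ≠ 2) (hNL : NodeLocalStmt p) (hKUg : KUGoodStmt p)
    (hKUm : KUMultStmt p) (hDS : DSOmegaSideStmt p) (W : WeierstrassCurve ℤ) (hΔ : W.Δ ≠ 0)
    (hirr : W.ModRepIsIrreducible p) (hc4 : (p : ℤ) ∣ W.Δ → ¬ (p : ℤ) ∣ W.c₄)
    (hpeu : (W.map (Int.castRingHom ℚ)).IsPeuRamifieeAt p p) : RigStmt W p := by
  by_cases hpΔ : (p : ℤ) ∣ W.Δ
  · exact hRig_mult hp2 hNL hKUm W hΔ hirr hpΔ (hc4 hpΔ) hpeu
  · exact hRig_good hp2 hNL hKUg hDS W hΔ hirr hpΔ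

/-- **the minimal level prime to `p`** (helper86's `exists_minLevel_of_rigid`) with `hRig` discharged
by the E8.4 column: semistable `W`, `ρ̄` peu ramifiée at `p`. -/
theorem exists_minLevel_of_column (hp2 : p ≠ 2) (hNL : NodeLocalStmt p) (hKUg : KUGoodStmt p)
    (hKUm : KUMultStmt p) (hDS : DSOmegaSideStmt p)
    (W : WeierstrassCurve ℤ) (hΔ : W.Δ ≠ 0) (hW : W.IsSemistableModel)
    (hirr : W.ModRepIsIrreducible p)
    (hcard₁ : Nat.card (Submodule.torsionBy ℤ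
      ((W.map (Int.castRingHom ℚ))⁄(AlgebraicClosure ℚ)).Point p) = p ^ 2)
    (hker : GaloisFactorsThroughFiniteLevel
      (WeierstrassCurve.Affine.Point.galoisRepModuleEnd (K := AlgebraicClosure ℚ) ℚ
        (W.map (Int.castRingHom ℚ)) p))
    (hpeu : (W.map (Int.castRingHom ℚ)).IsPeuRamifieeAt p p)
    (hSQ : Fermat.Agent.GE8.SQ.AuxPlug.SQSideStmt)
    (hB : Fermat.Agent.GE8.LLQ.S38Min.CaseB38minE p)
    (M₀ : ℕ) (hM₀ : M₀ ≠ 0) (hres₀ : W.IsResiduallyModularOfLevel p M₀) (hp2M : ¬ p ^ 2 ∣ M₀)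
    (hcube : ∀ q : ℕ, q.Prime → q ≠ p → ¬ q ^ 3 ∣ M₀) :
    ∃ M : ℕ, M ∣ M₀ ∧ Squarefree M ∧ ¬ p ∣ M ∧ W.IsResiduallyModularOfLevel p M ∧
      ∀ q : ℕ, q.Prime → q ≠ p → q ∣ M →
        ¬ ((W.map (Int.castRingHom ℚ)).residualGaloisRepOf p hcard₁ hker).IsUnramifiedAt q :=
  Fermat.Agent.GE8.LLQ.Aux3.MinLevelRig.exists_minLevel_of_rigid hp2 W hΔ hW hirr hcard₁ hker hSQ hB
    (hRig_semistable hp2 hNL hKUg hKUm hDS W hΔ hirr (hW p hpF.out) hpeu) M₀ hM₀ hres₀ hp2M hcube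

end Fermat.Agent.GE8.LLP.ColumnRig

end
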