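/-
S59 PRE-WORK / E8.4-ORD, slice (f) (helper61, ORD RULING O1 of helper17): **node LLP for ONE semistable
curve `W` at squarefree levels** (`MinLevelSideW.LLPAtW p W` = the frozen S39 / S40 conclusions
`ResMod p M → ResMod p (M / p)` at squarefree `M`), from helper17's de-rigidified ordinary chain
`OrdTop.llp_ord_div` with the E-side suppliers plugged:

* `llpAtW_of_ord`       : from `(hord : OrdAt W p)`, `hKU`, `NodeLocalStmt p`;
* `llpAtW_mult`         : **S39 shape** — `W` multiplicative at `p` (`p ∣ Δ`), peu ramifiée at `p`: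
                          `hord := OrdAtW.ordAt_of_semistable`, `hKU := ETate` (`kummerUnit_tate`);
* `llpAtW_good_of_ord`  : **S40 shape, ordinary line** — `W` good at `p` with `OrdAt W p`:
                          `hKU := EFrame.kummerUnit_good`;
* `llpAtW_good`         : **S40 shape** — `W` good at `p`, from helper5's `TorPStmt p` (the
                          supersingular branch lowers by (TOR-p) alone; the ordinary branch is
                          `llpAtW_good_of_ord`);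
* `llpAtW_semistable`   : both at once: `W` semistable, peu ramifiée at `p`;
* `exists_minLevel_FL_ord`, `exists_minLevel_SO_ord` : helper20's minimal-level descent
  (`MinLevelFinalW`) with node LLP DISCHARGED: hypotheses left = `MP2Gate`, `LLQNodes p`,
  `TorPStmt p` (good case only), `NodeLocalStmt p`.
-/
import Fermat.Agent.GE8.LLP.OrdTop
import Fermat.Agent.GE8.LLP.OrdAtW
import Fermat.Agent.GE8.LLP.TorPStmt
import Fermat.Agent.GF.ETate.Plug
import Fermat.Agent.GF.EFrame.KummerUnitGood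
import Fermat.Agent.GE8.Top.MinLevelFinalW

set_option autoImplicit false
set_option linter.unusedSectionVars false
set_option linter.unusedVariables false

noncomputable section

open WeierstrassCurve WeierstrassCurve.Affine WeierstrassCurve.Affine.Point
open scoped WeierstrassCurve.Affine

namespace Fermat.Agent.GE8.LLP.OrdShapes

open ModularCurve
open Fermat.Agent.Common_helper32
open Fermat.Agent.GJ.KumGroup Fermat.Agent.GF.ETate Fermat.Agent.GF.Top.S44TopOrd
open Fermat.Agent.GE8.LLP.Inner Fermat.Agent.GE8.LLP.OrdTop Fermat.Agent.GE8.LLP.OrdAtW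
open Fermat.Agent.GE8.LLP.TorP
open Fermat.Agent.GE8.Top.MinLevel Fermat.Agent.GE8.Top.MinLevelSideW
open Fermat.Agent.GE8.Top.MinLevelFinal Fermat.Agent.GE8.Top.MinLevelFinalW
open Fermat.Agent.GE8.SQ.Top Fermat.Agent.GE8.RaiseP.Stmt

variable (p : ℕ) [hpF : Fact p.Prime] (hp2 : p ≠ 2) (W : WeierstrassCurve ℤ) (hΔ : W.Δ ≠ 0)
  (hW : W.IsSemistableModel)
  (hcard₁ : Nat.card (Submodule.torsionBy ℤ
    ((W.map (Int.castRingHom ℚ))⁄(AlgebraicClosure ℚ)).Point p) = p ^ 2)
  (hker : GaloisFactorsThroughFiniteLevel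
    (WeierstrassCurve.Affine.Point.galoisRepModuleEnd (K := AlgebraicClosure ℚ) ℚ
      (W.map (Int.castRingHom ℚ)) p))
  (hirr : W.ModRepIsIrreducible p)

include hp2 hΔ hW hcard₁ hker hirr in
/-- node LLP for `W` from the E-side `(hord, hKU)` and the node supplier. -/
theorem llpAtW_of_ord (hord : OrdAt W p)
    (hKU : ∀ ζ : Kb, IsPrimitiveRoot ζ p → KummerUnit W p (padicPlace p) ζ)
    (hNL : NodeLocalStmt p) : LLPAtW p W :=
  fun M hM hpM h => llp_ord_div p hp2 W hΔ hW hcard₁ hker hirr hord hKU hNL M hM hpM h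

include hp2 hΔ hW hcard₁ hker hirr in
/-- **the frozen S39 conclusion for ONE semistable `W`, multiplicative and peu ramifiée at `p`**,
at squarefree levels. -/
theorem llpAtW_mult (hmult : (p : ℤ) ∣ W.Δ)
    (hpeu : (W.map (Int.castRingHom ℚ)).IsPeuRamifieeAt p p)
    (hNL : NodeLocalStmt p) : LLPAtW p W :=
  llpAtW_of_ord p hp2 W hΔ hW hcard₁ hker hirr (ordAt_of_semistable hΔ hW hmult)
    (fun ζ hζ => Fermat.Agent.GF.ETate.Plug.kummerUnit_of_semistable' W hΔ p hp2 hW hmult hpeu rfl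
      hζ) hNL

include hp2 hΔ hW hcard₁ hker hirr in
/-- **the frozen S40 conclusion for ONE semistable `W`, good at `p`, with an ordinary line at `p`**,
at squarefree levels. -/
theorem llpAtW_good_of_ord (hgood : W.IsGoodPrimeFor p) (hord : OrdAt W p)
    (hNL : NodeLocalStmt p) : LLPAtW p W :=
  llpAtW_of_ord p hp2 W hΔ hW hcard₁ hker hirr hord
    (fun ζ hζ => Fermat.Agent.GF.EFrame.kummerUnit_good W hp2 hgood
      (Fermat.Agent.GP.Loc.PadicPlace.padicPlace_liesOverPrime p) hζ) hNL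

include hp2 hΔ hW hcard₁ hker hirr in
/-- **the frozen S40 conclusion for ONE semistable `W`, good at `p`**, at squarefree levels, from
helper5's (TOR-p): supersingular shape ⟹ (TOR-p) alone lowers the level; ordinary shape ⟹ the
ordinary chain. -/
theorem llpAtW_good (hgood : W.IsGoodPrimeFor p) (hT : TorPStmt p) (hNL : NodeLocalStmt p) :
    LLPAtW p W := by
  intro M hMsq hpM hmod
  have hp : p.Prime := hpF.out
  obtain ⟨M', rfl⟩ : ∃ M', M = M' * p := ⟨M / p, (Nat.div_mul_cancel hpM).symm⟩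
  have hM'0 : M' ≠ 0 := by
    rintro rfl
    exact hMsq.ne_zero (zero_mul p)
  have : NeZero M' := ⟨hM'0⟩
  have hpM' : ¬ p ∣ M' := fun hd => by
    have h2 : p * p ∣ M' * p := Nat.mul_dvd_mul hd dvd_rfl
    exact hp.not_isUnit (hMsq p h2)
  rcases lower_or_ordAt_of_torP hT hΔ hp2 hirr hpM' hmod with h | h
  · rw [Nat.mul_div_cancel M' hp.pos]
    exact h
  · exact llpAtW_good_of_ord p hp2 W hΔ hW hcard₁ hker hirr hgood h hNL (M' * p) hMsq hpM hmod

include hp2 hΔ hW hcard₁ hker hirr in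
/-- **node LLP for ONE semistable `W`, peu ramifiée at `p`** (good or multiplicative at `p`). -/
theorem llpAtW_semistable (hpeu : (W.map (Int.castRingHom ℚ)).IsPeuRamifieeAt p p)
    (hT : TorPStmt p) (hNL : NodeLocalStmt p) : LLPAtW p W := by
  by_cases hmult : (p : ℤ) ∣ W.Δ
  · exact llpAtW_mult p hp2 W hΔ hW hcard₁ hker hirr hmult hpeu hNL
  · exact llpAtW_good p hp2 W hΔ hW hcard₁ hker hirr hmult hT hNL

/-! ### the minimal-level descent with node LLP discharged -/

include hp2 hΔ hW hcard₁ hker hirr in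
/-- **the descent, flat case** (`W` good at `p`): hypotheses left = `MP2Gate`, `LLQNodes p`,
`TorPStmt p`, `NodeLocalStmt p`. -/
theorem exists_minLevel_FL_ord (hgate : MP2Gate) (hB : LLQNodes p) (hT : TorPStmt p)
    (hNL : NodeLocalStmt p) (hgood : W.IsGoodPrimeFor p)
    (M₀ : ℕ) (hM₀ : M₀ ≠ 0) (hres₀ : W.IsResiduallyModularOfLevel p M₀) (hp2M : ¬ p ^ 2 ∣ M₀)
    (hcube : ∀ q : ℕ, q.Prime → q ≠ p → ¬ q ^ 3 ∣ M₀) :
    ∃ M : ℕ, M ∣ M₀ ∧ Squarefree M ∧ ¬ p ∣ M ∧ W.IsResiduallyModularOfLevel p M ∧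
      ∀ q : ℕ, q.Prime → q ≠ p → q ∣ M →
        ¬ ((W.map (Int.castRingHom ℚ)).residualGaloisRepOf p hcard₁ hker).IsUnramifiedAt q :=
  exists_minLevel_FL_W hp2 W hΔ hW hirr hcard₁ hker hgate hB
    (llpAtW_good p hp2 W hΔ hW hcard₁ hker hirr hgood hT hNL) hgood M₀ hM₀ hres₀ hp2M hcube

include hp2 hΔ hW hcard₁ hker hirr in
/-- **the descent, multiplicative peu ramifiée case**: hypotheses left = `MP2Gate`, `LLQNodes p`,
`NodeLocalStmt p` (no (TOR-p)). -/
theorem exists_minLevel_SO_ord (hgate : MP2Gate) (hB : LLQNodes p) (hNL : NodeLocalStmt p)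
    (hmult : (p : ℤ) ∣ W.Δ) (hpeu : (W.map (Int.castRingHom ℚ)).IsPeuRamifieeAt p p)
    (M₀ : ℕ) (hM₀ : M₀ ≠ 0) (hres₀ : W.IsResiduallyModularOfLevel p M₀) (hp2M : ¬ p ^ 2 ∣ M₀)
    (hcube : ∀ q : ℕ, q.Prime → q ≠ p → ¬ q ^ 3 ∣ M₀) :
    ∃ N : ℕ, N ∣ M₀ ∧ Squarefree N ∧ ¬ p ∣ N ∧ W.IsResiduallyModularOfLevel p N ∧
      (∀ q : ℕ, q.Prime → q ≠ p → q ∣ N →
        ¬ ((W.map (Int.castRingHom ℚ)).residualGaloisRepOf p hcard₁ hker).IsUnramifiedAt q) ∧
      ((p = 3 → 2 ∣ N) → IsResiduallyModularNewAt W p (N * p) p) :=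
  exists_minLevel_SO_W hp2 W hΔ hW hirr hcard₁ hker hgate hB
    (llpAtW_mult p hp2 W hΔ hW hcard₁ hker hirr hmult hpeu hNL) hmult M₀ hM₀ hres₀ hp2M hcube

end Fermat.Agent.GE8.LLP.OrdShapes

end
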