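/-
S59 PRE-WORK / E8.4 (LLP at `p`), ORD sub-gate CLOSE-OUT (helper17): **three of the four open Props
of E8.4 are now THEOREMS; the column needs EXACTLY ONE Prop, `Inner.NodeLocalStmt p`, for EVERY odd
`p` (incl. `p = 3`, no `TorPStmt 3` needed)**

* `kuGoodStmt`      : `Column.KUGoodStmt p`      (helper11/helper25 `EFrame.kummerUnit_good`);
* `kuMultStmt`      : `Column.KUMultStmt p`      (helper70 `ETate.Main.kummerUnit_tate`);
* `dsOmegaSideStmt` : `Column.DSOmegaSideStmt p` (helper47 `DSOmega.dsOmegaAt`, RISK-1 CLOSED);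
* `llpSides`        : helper96's `MinLevelSide3.LLPGoodSideStmt p ∧ LLPPeuSideStmt p`
                      from `NodeLocalStmt p` alone;
* `exists_minLevel_of_nodeLocal` : helper86's rigid descent (`ColumnRig.exists_minLevel_of_column`)
                      from `NodeLocalStmt p`, `SQSideStmt`, `CaseB38minE p`;
* `llpAtW_good`, `llpAtW_semistable`, `exists_minLevel_FL_ord` : the `p = 3`-capable twins of
  helper61's `OrdShapes.llpAtW_good / llpAtW_semistable / exists_minLevel_FL_ord` — NO `TorPStmt p`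
  binder (which is a theorem only for `5 ≤ p`): the supersingular branch is lowered by (DS-ω) at
  EVEN levels (`dsOmegaAt` with `hside`), `Strip2.lower_p_of_even` (helper86) removes the parity.
-/
import Fermat.Agent.GE8.LLP.ColumnRig
import Fermat.Agent.GE8.LLP.OrdShapes
import Fermat.Agent.GE8.LLP.DSOmega.Top

set_option autoImplicit false
set_option linter.unusedSectionVars false
set_option linter.unusedVariables false

noncomputable section

open WeierstrassCurve WeierstrassCurve.Affine WeierstrassCurve.Affine.Point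
open scoped WeierstrassCurve.Affine

namespace Fermat.Agent.GE8.LLP.OrdClosed

open ModularCurve
open Fermat.Agent.Common_helper32
open Fermat.Agent.GJ.KumGroup Fermat.Agent.GJ.J1 Fermat.Agent.GF.ETate
open Fermat.Agent.GF.Top.S44TopOrd Fermat.Agent.GF.Setup.S0
open Fermat.Agent.GB.A.A6.ECDet
open Fermat.Agent.GE8.LLP.Inner Fermat.Agent.GE8.LLP.DSOmega Fermat.Agent.GE8.LLP.Column
open Fermat.Agent.GE8.Top.MinLevelSide3
open Fermat.Agent.GE8.Top.MinLevel Fermat.Agent.GE8.Top.MinLevelSideW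
open Fermat.Agent.GE8.Top.MinLevelFinal Fermat.Agent.GE8.Top.MinLevelFinalW
open Fermat.Agent.GE8.SQ.Top Fermat.Agent.GE8.RaiseP.Stmt

section Props

variable {p : ℕ} [hpF : Fact p.Prime]

/-- **(d), good case — CLOSED.** -/
theorem kuGoodStmt (hp2 : p ≠ 2) : KUGoodStmt p :=
  fun W _ hgood _ hζ => Fermat.Agent.GF.EFrame.kummerUnit_good W hp2 hgood
    (Fermat.Agent.GP.Loc.PadicPlace.padicPlace_liesOverPrime p) hζ

/-- **(d), multiplicative peu ramifiée case — CLOSED.** -/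
theorem kuMultStmt (hp2 : p ≠ 2) : KUMultStmt p :=
  fun W hΔ hpΔ hc₄ hpeu _ hζ =>
    Fermat.Agent.GF.ETate.Main.kummerUnit_tate p hp2 W hΔ hpΔ hc₄ hpeu hζ

/-- **TORP target (DS-ω) under the side condition — CLOSED** (helper47 `dsOmegaAt`). -/
theorem dsOmegaSideStmt (hp2 : p ≠ 2) : DSOmegaSideStmt p :=
  fun _ _ hpM' hs => dsOmegaAt (exactDvd hpM') hp2 hs

/-- **E8.4 ⟸ `NodeLocalStmt p` ALONE** (helper96's two side statements). -/
theorem llpSides (hp2 : p ≠ 2) (hNL : NodeLocalStmt p) :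
    LLPGoodSideStmt p ∧ LLPPeuSideStmt p :=
  llpSides_of hp2 hNL (kuGoodStmt hp2) (kuMultStmt hp2) (dsOmegaSideStmt hp2)

/-- **the rigid minimal-level descent ⟸ `NodeLocalStmt p`, `SQSideStmt`, `CaseB38minE p`.** -/
theorem exists_minLevel_of_nodeLocal (hp2 : p ≠ 2) (hNL : NodeLocalStmt p)
    (W : WeierstrassCurve ℤ) (hΔ : W.Δ ≠ 0) (hW : W.IsSemistableModel)
    (hirr : W.ModRepIsIrreducible p)
    (hcard₁ : Nat.card (Submodule.torsionBy ℤ
      ((W.map (Int.castRingHom ℚ))⁄(AlgebraicClosure ℚ)).Point p) = p ^ 2)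
    (hker : GaloisFactorsThroughFiniteLevel
      (WeierstrassCurve.Affine.Point.galoisRepModuleEnd (K := AlgebraicClosure ℚ) ℚ
        (W.map (Int.castRingHom ℚ)) p))
    (hpeu : (W.map (Int.castRingHom ℚ)).IsPeuRamifieeAt p p)
    (hSQ : Fermat.Agent.GE8.SQ.AuxPlug.SQSideStmt)
    (hB : Fermat.Agent.GE8.LLQ.S38Min.CaseB38minE p)
    (M₀ : ℕ) (hM₀ : M₀ ≠ 0) (hres₀ : W.IsResiduallyModularOfLevel p M₀) (hp2M : ¬ p ^ 2 ∣ M₀)
    (hcube : ∀ q : ℕ, q.Prime → q ≠ p → ¬ q ^ 3 ∣ M₀) :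
    ∃ M : ℕ, M ∣ M₀ ∧ Squarefree M ∧ ¬ p ∣ M ∧ W.IsResiduallyModularOfLevel p M ∧
      ∀ q : ℕ, q.Prime → q ≠ p → q ∣ M →
        ¬ ((W.map (Int.castRingHom ℚ)).residualGaloisRepOf p hcard₁ hker).IsUnramifiedAt q :=
  ColumnRig.exists_minLevel_of_column hp2 hNL (kuGoodStmt hp2) (kuMultStmt hp2)
    (dsOmegaSideStmt hp2) W hΔ hW hirr hcard₁ hker hpeu hSQ hB M₀ hM₀ hres₀ hp2M hcube

end Props

/-! ### the per-`W` node (helper61's `LLPAtW`), every odd `p` -/

variable (p : ℕ) [hpF : Fact p.Prime] (hp2 : p ≠ 2) (W : WeierstrassCurve ℤ) (hΔ : W.Δ ≠ 0)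
  (hW : W.IsSemistableModel)
  (hcard₁ : Nat.card (Submodule.torsionBy ℤ
    ((W.map (Int.castRingHom ℚ))⁄(AlgebraicClosure ℚ)).Point p) = p ^ 2)
  (hker : GaloisFactorsThroughFiniteLevel
    (WeierstrassCurve.Affine.Point.galoisRepModuleEnd (K := AlgebraicClosure ℚ) ℚ
      (W.map (Int.castRingHom ℚ)) p))
  (hirr : W.ModRepIsIrreducible p)

include hp2 hΔ hW hcard₁ hker hirr in
/-- **the frozen S40 conclusion for ONE semistable `W`, good at `p`**, at squarefree levels, for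
EVERY odd `p` (no `TorPStmt`): (DS-ω) at even levels lowers or gives `OrdAt W p`; the ordinary
chain `OrdTop.llp_ord_even` does the rest; `Strip2.lower_p_of_even` removes the parity. -/
theorem llpAtW_good (hgood : W.IsGoodPrimeFor p) (hNL : NodeLocalStmt p) : LLPAtW p W := by
  intro M hMsq hpM hres
  have hp : p.Prime := hpF.out
  obtain ⟨L, rfl⟩ : ∃ L, M = L * p := ⟨M / p, (Nat.div_mul_cancel hpM).symm⟩
  rw [Nat.mul_div_cancel L hp.pos]
  have hLsq : Squarefree L := Squarefree.of_mul_left hMsq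
  have hpL : ¬ p ∣ L := fun hd => by
    have h2 : p * p ∣ L * p := Nat.mul_dvd_mul hd dvd_rfl
    exact hp.not_isUnit (hMsq p h2)
  refine Fermat.Agent.GE8.LLQ.Aux3.Strip2.lower_p_of_even p hp2 W hΔ hW hcard₁ hker hirr
    (fun L h2L hpL hLsq hres => ?_) L hLsq hpL hres
  haveI : NeZero L := ⟨hLsq.ne_zero⟩
  rcases lower_or_ordAt_of_dsOmegaAt hΔ hp2 hirr hpL
    (dsOmegaAt (exactDvd hpL) hp2 (fun _ => Dvd.dvd.mul_right h2L p)) hres with h | hord
  · exact h
  · exact OrdTop.llp_ord_even p hp2 W hΔ hW hirr hord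
      (kuGoodStmt hp2 W hΔ hgood) hNL L h2L hpL hLsq hres

include hp2 hΔ hW hcard₁ hker hirr in
/-- **node LLP for ONE semistable `W`, peu ramifiée at `p`** (good or multiplicative at `p`),
EVERY odd `p`, from `NodeLocalStmt p` alone. -/
theorem llpAtW_semistable (hpeu : (W.map (Int.castRingHom ℚ)).IsPeuRamifieeAt p p)
    (hNL : NodeLocalStmt p) : LLPAtW p W := by
  by_cases hmult : (p : ℤ) ∣ W.Δ
  · exact OrdShapes.llpAtW_mult p hp2 W hΔ hW hcard₁ hker hirr hmult hpeu hNL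
  · exact llpAtW_good p hp2 W hΔ hW hcard₁ hker hirr hmult hNL

include hp2 hΔ hW hcard₁ hker hirr in
/-- **the descent, flat case** (`W` good at `p`), EVERY odd `p`: hypotheses left = `MP2Gate`,
`LLQNodes p`, `NodeLocalStmt p`. -/
theorem exists_minLevel_FL_ord (hgate : MP2Gate) (hB : LLQNodes p)
    (hNL : NodeLocalStmt p) (hgood : W.IsGoodPrimeFor p)
    (M₀ : ℕ) (hM₀ : M₀ ≠ 0) (hres₀ : W.IsResiduallyModularOfLevel p M₀) (hp2M : ¬ p ^ 2 ∣ M₀)
    (hcube : ∀ q : ℕ, q.Prime → q ≠ p → ¬ q ^ 3 ∣ M₀) :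
    ∃ M : ℕ, M ∣ M₀ ∧ Squarefree M ∧ ¬ p ∣ M ∧ W.IsResiduallyModularOfLevel p M ∧
      ∀ q : ℕ, q.Prime → q ≠ p → q ∣ M →
        ¬ ((W.map (Int.castRingHom ℚ)).residualGaloisRepOf p hcard₁ hker).IsUnramifiedAt q :=
  exists_minLevel_FL_W hp2 W hΔ hW hirr hcard₁ hker hgate hB
    (llpAtW_good p hp2 W hΔ hW hcard₁ hker hirr hgood hNL) hgood M₀ hM₀ hres₀ hp2M hcube

end Fermat.Agent.GE8.LLP.OrdClosed

end
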