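/-
S59 PRE-WORK / **E8.4 (LLP at `p`) CLOSED, BINDER-FREE, every odd `p` (incl. `p = 3`)** (helper17,
ORD sub-gate owner): `NodeLocalFin.nodeLocalStmt` plugged into the column tops.

* `llpSides`            : helper96's `MinLevelSide3.LLPGoodSideStmt p ∧ LLPPeuSideStmt p`;
* `llpAtW_good`         : **frozen S40 conclusion** for ONE semistable `W` good at `p`, squarefree levels;
* `llpAtW_mult`         : **frozen S39 conclusion** for ONE semistable `W` multiplicative + peu ramifiée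
                          at `p`, squarefree levels;
* `llpAtW_semistable`   : both (helper61's per-`W` node `MinLevelSideW.LLPAtW p W`);
* `exists_minLevel_FL`  : the minimal-level descent, flat case  — left: `MP2Gate`, `LLQNodes p`;
* `exists_minLevel_SO`  : the minimal-level descent, mult-peu case — left: `MP2Gate`, `LLQNodes p`;
* `exists_minLevel_rig` : helper86's rigid descent — left: `SQSideStmt`, `CaseB38minE p`.

NOTHING of E8.4 is left as a hypothesis.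
-/
import Fermat.Agent.GE8.LLP.NodeLocalFin
import Fermat.Agent.GE8.LLP.OrdClosed

set_option autoImplicit false
set_option linter.unusedSectionVars false
set_option linter.unusedVariables false

noncomputable section

open WeierstrassCurve WeierstrassCurve.Affine WeierstrassCurve.Affine.Point
open scoped WeierstrassCurve.Affine

namespace Fermat.Agent.GE8.LLP.OrdFinal

open ModularCurve
open Fermat.Agent.Common_helper32
open Fermat.Agent.GE8.LLP.Inner Fermat.Agent.GE8.LLP.NodeLocalFin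
open Fermat.Agent.GE8.Top.MinLevelSide3
open Fermat.Agent.GE8.Top.MinLevel Fermat.Agent.GE8.Top.MinLevelSideW
open Fermat.Agent.GE8.Top.MinLevelFinal Fermat.Agent.GE8.Top.MinLevelFinalW
open Fermat.Agent.GE8.SQ.Top Fermat.Agent.GE8.RaiseP.Stmt

/-- **E8.4 in helper96's side form, binder-free.** -/
theorem llpSides {p : ℕ} [Fact p.Prime] (hp2 : p ≠ 2) :
    LLPGoodSideStmt p ∧ LLPPeuSideStmt p :=
  OrdClosed.llpSides hp2 (nodeLocalStmt hp2)

variable (p : ℕ) [hpF : Fact p.Prime] (hp2 : p ≠ 2) (W : WeierstrassCurve ℤ) (hΔ : W.Δ ≠ 0)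
  (hW : W.IsSemistableModel)
  (hcard₁ : Nat.card (Submodule.torsionBy ℤ
    ((W.map (Int.castRingHom ℚ))⁄(AlgebraicClosure ℚ)).Point p) = p ^ 2)
  (hker : GaloisFactorsThroughFiniteLevel
    (WeierstrassCurve.Affine.Point.galoisRepModuleEnd (K := AlgebraicClosure ℚ) ℚ
      (W.map (Int.castRingHom ℚ)) p))
  (hirr : W.ModRepIsIrreducible p)

include hp2 hΔ hW hcard₁ hker hirr in
/-- **frozen S40 conclusion, ONE semistable `W` good at `p`, squarefree levels, every odd `p`.** -/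
theorem llpAtW_good (hgood : W.IsGoodPrimeFor p) : LLPAtW p W :=
  OrdClosed.llpAtW_good p hp2 W hΔ hW hcard₁ hker hirr hgood (nodeLocalStmt hp2)

include hp2 hΔ hW hcard₁ hker hirr in
/-- **frozen S39 conclusion, ONE semistable `W` multiplicative + peu ramifiée at `p`, squarefree
levels, every odd `p`.** -/
theorem llpAtW_mult (hmult : (p : ℤ) ∣ W.Δ)
    (hpeu : (W.map (Int.castRingHom ℚ)).IsPeuRamifieeAt p p) : LLPAtW p W :=
  OrdShapes.llpAtW_mult p hp2 W hΔ hW hcard₁ hker hirr hmult hpeu (nodeLocalStmt hp2)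

include hp2 hΔ hW hcard₁ hker hirr in
/-- **node LLP for ONE semistable `W`, peu ramifiée at `p`, every odd `p`.** -/
theorem llpAtW_semistable (hpeu : (W.map (Int.castRingHom ℚ)).IsPeuRamifieeAt p p) :
    LLPAtW p W :=
  OrdClosed.llpAtW_semistable p hp2 W hΔ hW hcard₁ hker hirr hpeu (nodeLocalStmt hp2)

include hp2 hΔ hW hcard₁ hker hirr in
/-- **the minimal-level descent, flat case** (`W` good at `p`): left = `MP2Gate`, `LLQNodes p`. -/
theorem exists_minLevel_FL (hgate : MP2Gate) (hB : LLQNodes p) (hgood : W.IsGoodPrimeFor p)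
    (M₀ : ℕ) (hM₀ : M₀ ≠ 0) (hres₀ : W.IsResiduallyModularOfLevel p M₀) (hp2M : ¬ p ^ 2 ∣ M₀)
    (hcube : ∀ q : ℕ, q.Prime → q ≠ p → ¬ q ^ 3 ∣ M₀) :
    ∃ M : ℕ, M ∣ M₀ ∧ Squarefree M ∧ ¬ p ∣ M ∧ W.IsResiduallyModularOfLevel p M ∧
      ∀ q : ℕ, q.Prime → q ≠ p → q ∣ M →
        ¬ ((W.map (Int.castRingHom ℚ)).residualGaloisRepOf p hcard₁ hker).IsUnramifiedAt q :=
  OrdClosed.exists_minLevel_FL_ord p hp2 W hΔ hW hcard₁ hker hirr hgate hB (nodeLocalStmt hp2)
    hgood M₀ hM₀ hres₀ hp2M hcube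

include hp2 hΔ hW hcard₁ hker hirr in
/-- **the minimal-level descent, multiplicative peu ramifiée case**: left = `MP2Gate`,
`LLQNodes p`. -/
theorem exists_minLevel_SO (hgate : MP2Gate) (hB : LLQNodes p)
    (hmult : (p : ℤ) ∣ W.Δ) (hpeu : (W.map (Int.castRingHom ℚ)).IsPeuRamifieeAt p p)
    (M₀ : ℕ) (hM₀ : M₀ ≠ 0) (hres₀ : W.IsResiduallyModularOfLevel p M₀) (hp2M : ¬ p ^ 2 ∣ M₀)
    (hcube : ∀ q : ℕ, q.Prime → q ≠ p → ¬ q ^ 3 ∣ M₀) :
    ∃ N : ℕ, N ∣ M₀ ∧ Squarefree N ∧ ¬ p ∣ N ∧ W.IsResiduallyModularOfLevel p N ∧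
      (∀ q : ℕ, q.Prime → q ≠ p → q ∣ N →
        ¬ ((W.map (Int.castRingHom ℚ)).residualGaloisRepOf p hcard₁ hker).IsUnramifiedAt q) ∧
      ((p = 3 → 2 ∣ N) → IsResiduallyModularNewAt W p (N * p) p) :=
  OrdShapes.exists_minLevel_SO_ord p hp2 W hΔ hW hcard₁ hker hirr hgate hB (nodeLocalStmt hp2)
    hmult hpeu M₀ hM₀ hres₀ hp2M hcube

include hp2 hΔ hW hcard₁ hker hirr in
/-- **helper86's rigid minimal-level descent**: left = `SQSideStmt`, `CaseB38minE p`. -/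
theorem exists_minLevel_rig (hpeu : (W.map (Int.castRingHom ℚ)).IsPeuRamifieeAt p p)
    (hSQ : Fermat.Agent.GE8.SQ.AuxPlug.SQSideStmt)
    (hB : Fermat.Agent.GE8.LLQ.S38Min.CaseB38minE p)
    (M₀ : ℕ) (hM₀ : M₀ ≠ 0) (hres₀ : W.IsResiduallyModularOfLevel p M₀) (hp2M : ¬ p ^ 2 ∣ M₀)
    (hcube : ∀ q : ℕ, q.Prime → q ≠ p → ¬ q ^ 3 ∣ M₀) :
    ∃ M : ℕ, M ∣ M₀ ∧ Squarefree M ∧ ¬ p ∣ M ∧ W.IsResiduallyModularOfLevel p M ∧
      ∀ q : ℕ, q.Prime → q ≠ p → q ∣ M →
        ¬ ((W.map (Int.castRingHom ℚ)).residualGaloisRepOf p hcard₁ hker).IsUnramifiedAt q :=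
  OrdClosed.exists_minLevel_of_nodeLocal hp2 (nodeLocalStmt hp2) W hΔ hW hirr hcard₁ hker hpeu hSQ
    hB M₀ hM₀ hres₀ hp2M hcube

end Fermat.Agent.GE8.LLP.OrdFinal

end
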