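/-
S59 PRE-WORK / E8.4-ORD (LLP at `p`, ordinary shapes, general `W`), slice (d) (helper25, per
helper17 RULING O1, board 7423): **the E-SIDE SUPPLIERS of the `p`-free inner chain.**

`GE8/LLP/Inner.llp_of_nodeLocalStmt` (rigid level) and `GE8/LLP/OrdTop.llp_ord_sqfree` (squarefree
level) take the E-side as two BINDERS

    (hord : OrdAt W p)
    (hKU  : ∀ ζ : ℚ̄, IsPrimitiveRoot ζ p → KummerUnit W p (padicPlace p) ζ)

Here: both binders in the two cases of the frozen S39 / S40 shapes, packaged as `ESide W p`.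

* MULTIPLICATIVE, peu ramifié at `p` (S39 shape): `hKU_mult` (Tate curve, `GF/ETate/Main`),
  `hord_mult` (`GE8/LLP/OrdAtW`), `eSide_mult`, `eSide_of_semistable`;
* GOOD at `p` (S40 shape): `hKU_good` (finite flat order, `GF/EFrame/KummerUnitGood`);
  the line: `hord_of_augLine` (the first disjunct of `GP/Flat/CasesFlat.cases_of_isFlatAt`:
  `dim (I_A - 1) W[p] = 1` at every `A ∣ p` ⟹ `OrdAt W p`), `eSide_good_of_ordAt`,
  and with (TOR-p) — ordinary AND supersingular at once, no dichotomy —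
  `lower_or_eSide_good_of_torP` : `W` lowers to `M'`, or the full E-side package holds.

This file does NOT import `Inner` (light closure); the consumers apply the packages.
-/
import Fermat.Agent.GE8.LLP.OrdAtW
import Fermat.Agent.GE8.LLP.TorPStmt
import Fermat.Agent.GF.EFrame.KummerUnitGood
import Fermat.Agent.GF.ETate.Main
import Fermat.Agent.GP.Flat.Cases
import Fermat.Agent.GP.Loc.PadicPlace

set_option autoImplicit false
set_option linter.unusedSectionVars false

namespace Fermat.Agent.GE8.LLP.ESupply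

open WeierstrassCurve
open Fermat.Agent.Common_helper32
open Fermat.Agent.GF.ETate Fermat.Agent.GF.EFrame
open Fermat.Agent.GB.A.A6.ECDet Fermat.Agent.GF.Top.S44TopOrd
open Fermat.Agent.GP.Flat.Cases
open Fermat.Agent.GE8.LLP.TorP

local notation "Qbar" => AlgebraicClosure ℚ

variable (W : WeierstrassCurve ℤ) (p : ℕ) [hp : Fact p.Prime]

/-! ### the package -/

/-- **the E-side input of the inner chain** at `p`: the ordinary line (frozen `IsOrdinaryAt`
shape) and the Kummer unit at the pinned place `padicPlace p`, for every primitive `p`-th root of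
unity. -/
def ESide : Prop :=
  OrdAt W p ∧ ∀ ζ : Qbar, IsPrimitiveRoot ζ p → KummerUnit W p (padicPlace p) ζ

variable {W p}

theorem ESide.ordAt (h : ESide W p) : OrdAt W p := h.1

theorem ESide.kummerUnit (h : ESide W p) :
    ∀ ζ : Qbar, IsPrimitiveRoot ζ p → KummerUnit W p (padicPlace p) ζ := h.2

/-! ### multiplicative, peu ramifié at `p` -/

/-- **`hKU`, multiplicative peu-ramifié case** (Tate curve over `ℂ_p`). -/
theorem hKU_mult (hΔ : W.Δ ≠ 0) (hp2 : p ≠ 2) (hpΔ : (p : ℤ) ∣ W.Δ) (hc₄ : ¬ (p : ℤ) ∣ W.c₄)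
    (hpeu : (W.map (Int.castRingHom ℚ)).IsPeuRamifieeAt p p) :
    ∀ ζ : Qbar, IsPrimitiveRoot ζ p → KummerUnit W p (padicPlace p) ζ :=
  fun _ hζ => Main.kummerUnit_tate p hp2 W hΔ hpΔ hc₄ hpeu hζ

/-- **`hord`, multiplicative case** (= `OrdAtW.ordAt_of_mult`, any prime `p`). -/
theorem hord_mult (hΔ : W.Δ ≠ 0) (hpΔ : (p : ℤ) ∣ W.Δ) (hc₄ : ¬ (p : ℤ) ∣ W.c₄) : OrdAt W p :=
  OrdAtW.ordAt_of_mult hΔ hpΔ hc₄

/-- **the E-side package, multiplicative peu-ramifié at `p ≠ 2`** (frozen S39 binders). -/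
theorem eSide_mult (hΔ : W.Δ ≠ 0) (hp2 : p ≠ 2) (hpΔ : (p : ℤ) ∣ W.Δ) (hc₄ : ¬ (p : ℤ) ∣ W.c₄)
    (hpeu : (W.map (Int.castRingHom ℚ)).IsPeuRamifieeAt p p) : ESide W p :=
  ⟨hord_mult hΔ hpΔ hc₄, hKU_mult hΔ hp2 hpΔ hc₄ hpeu⟩

/-- semistable vocabulary (`hss hmult hpeu` of the GATE-F line). -/
theorem eSide_of_semistable (hΔ : W.Δ ≠ 0) (hp2 : p ≠ 2) (hss : W.IsSemistableModel)
    (hmult : (p : ℤ) ∣ W.Δ) (hpeu : (W.map (Int.castRingHom ℚ)).IsPeuRamifieeAt p p) :
    ESide W p :=
  eSide_mult hΔ hp2 hmult (hss p hp.out hmult) hpeu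

/-! ### good reduction at `p` -/

/-- **`hKU`, good case** (finite flat order on `W[p]`). -/
theorem hKU_good (hp2 : p ≠ 2) (hgood : W.IsGoodPrimeFor p) :
    ∀ ζ : Qbar, IsPrimitiveRoot ζ p → KummerUnit W p (padicPlace p) ζ :=
  fun _ hζ => kummerUnit_good W hp2 hgood
    (Fermat.Agent.GP.Loc.PadicPlace.padicPlace_liesOverPrime p) hζ

/-- the E-side package at a good prime, given the ordinary line. -/
theorem eSide_good_of_ordAt (hp2 : p ≠ 2) (hgood : W.IsGoodPrimeFor p) (hord : OrdAt W p) :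
    ESide W p :=
  ⟨hord, hKU_good hp2 hgood⟩

/-- **`hord` from the first disjunct of `CasesFlat.cases_of_isFlatAt`**: if at every `A ∣ p` the
augmentation `(I_A - 1) W[p]` is a line, then `W[p]` has the frozen ordinary shape at `p`
(`L := (I_A - 1) W[p]`; `D_A`-stable because `I_A ⊴ D_A`). -/
theorem hord_of_augLine
    (h : ∀ A : ValuationSubring Qbar, A.LiesOverPrime p →
      Module.finrank (ZMod p) (aug (rho W p) A) = 1) : OrdAt W p := by
  intro hcard₁ hker A hA
  have h1 := h A hA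
  have hfin2 : Module.finrank (ZMod p) (Tp W p) = 2 := finrank_Tp hcard₁
  have hfinite : Finite (Tp W p) := finite_Tp hcard₁
  have hmf : Module.Finite (ZMod p) (Tp W p) := Module.Finite.of_finite
  have hLbot : aug (rho W p) A ≠ ⊥ := by
    intro hbot
    rw [hbot, finrank_bot] at h1
    exact zero_ne_one h1
  obtain ⟨v, hvL, hv0⟩ := Submodule.exists_mem_ne_zero_of_ne_bot hLbot
  obtain ⟨b, hb⟩ := OrdAtW.exists_basis_zero_eq hfin2 hv0
  have hle : Submodule.span (ZMod p) {b 0} ≤ aug (rho W p) A := by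
    rw [Submodule.span_singleton_le_iff_mem, hb]
    exact hvL
  have hfrS : Module.finrank (ZMod p) (Submodule.span (ZMod p) {b 0}) = 1 :=
    finrank_span_singleton (b.ne_zero 0)
  have hLeq : aug (rho W p) A = Submodule.span (ZMod p) {b 0} :=
    (Submodule.eq_of_le_of_finrank_eq hle (by rw [hfrS, h1])).symm
  exact ⟨aug (rho W p) A, ⟨b, hLeq⟩, fun σ hσ v hv => aug_stable (rho W p) hσ hv,
    fun σ hσ v => sub_mem_aug (rho W p) hσ v⟩

/-- the converse: the frozen ordinary shape with `ρ̄ | I_A ≠ 1` gives the augmentation line. -/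
theorem finrank_aug_of_ordAt (hord : OrdAt W p) (hcard₁ : Nat.card (Tp W p) = p ^ 2)
    (A : ValuationSubring Qbar) (hA : A.LiesOverPrime p)
    (hne : ∃ σ ∈ A.inertiaSubgroupIn ℚ, rho W p σ ≠ 1) :
    Module.finrank (ZMod p) (aug (rho W p) A) = 1 := by
  obtain ⟨L, -, hfr, -, -, hI⟩ := hord.exists_line hcard₁ A hA
  have hfinite : Finite (Tp W p) := finite_Tp hcard₁
  have hmf : Module.Finite (ZMod p) (Tp W p) := Module.Finite.of_finite
  have hle : aug (rho W p) A ≤ L := aug_le (rho W p) hI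
  have h1 : Module.finrank (ZMod p) (aug (rho W p) A) ≤ 1 := by
    have hmono := Submodule.finrank_mono hle
    rwa [hfr] at hmono
  have h0 : 0 < Module.finrank (ZMod p) (aug (rho W p) A) := by
    rw [Module.finrank_pos_iff]
    refine Submodule.nontrivial_iff_ne_bot.2 fun hbot => ?_
    obtain ⟨σ, hσ, hσ1⟩ := hne
    exact hσ1 ((aug_eq_bot_iff (rho W p)).1 hbot σ hσ)
  omega

/-! ### good reduction with (TOR-p): no ordinary / supersingular dichotomy -/

/-- **the good case, from (TOR-p)**: `W` residually modular of level `M' p`, `p ∤ M'`, good at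
`p ≠ 2`, `W[p]` irreducible: either `W` is already residually modular of level `M'`, or the full
E-side package of the inner chain holds (`OrdAt` from `TorP.lower_or_ordAt_of_torP`, the Kummer unit
from the finite flat order). -/
theorem lower_or_eSide_good_of_torP (hT : TorPStmt p) (hΔ : W.Δ ≠ 0) (hp2 : p ≠ 2)
    (hgood : W.IsGoodPrimeFor p) (hirr : W.ModRepIsIrreducible p)
    {M' : ℕ} [NeZero M'] (hpM' : ¬ p ∣ M')
    (hmod : W.IsResiduallyModularOfLevel p (M' * p)) :
    W.IsResiduallyModularOfLevel p M' ∨ ESide W p :=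
  (lower_or_ordAt_of_torP hT hΔ hp2 hirr hpM' hmod).imp_right
    (eSide_good_of_ordAt hp2 hgood)

/-- **the good case as a consumer**: any lowering step `ESide W p → ResMod p (M' p) → ResMod p M'`
(= `Inner.llp_of_nodeLocalStmt` / `OrdTop.llp_ord_sqfree` with the E-side binders packaged)
becomes unconditional at a good prime, given (TOR-p). -/
theorem lower_good_of_torP (hT : TorPStmt p) (hΔ : W.Δ ≠ 0) (hp2 : p ≠ 2)
    (hgood : W.IsGoodPrimeFor p) (hirr : W.ModRepIsIrreducible p)
    {M' : ℕ} [NeZero M'] (hpM' : ¬ p ∣ M')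
    (hstep : ESide W p → W.IsResiduallyModularOfLevel p (M' * p) →
      W.IsResiduallyModularOfLevel p M')
    (hmod : W.IsResiduallyModularOfLevel p (M' * p)) :
    W.IsResiduallyModularOfLevel p M' := by
  rcases lower_or_eSide_good_of_torP hT hΔ hp2 hgood hirr hpM' hmod with h | h
  · exact h
  · exact hstep h hmod

/-- **the multiplicative case as a consumer.** -/
theorem lower_mult (hΔ : W.Δ ≠ 0) (hp2 : p ≠ 2) (hpΔ : (p : ℤ) ∣ W.Δ) (hc₄ : ¬ (p : ℤ) ∣ W.c₄)
    (hpeu : (W.map (Int.castRingHom ℚ)).IsPeuRamifieeAt p p) {M' : ℕ}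
    (hstep : ESide W p → W.IsResiduallyModularOfLevel p (M' * p) →
      W.IsResiduallyModularOfLevel p M')
    (hmod : W.IsResiduallyModularOfLevel p (M' * p)) :
    W.IsResiduallyModularOfLevel p M' :=
  hstep (eSide_mult hΔ hp2 hpΔ hc₄ hpeu) hmod

end Fermat.Agent.GE8.LLP.ESupply
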