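import Fermat.Agent.GE8.LLP.Column
import Fermat.Agent.GE8.LLP.ESupply

set_option autoImplicit false

namespace Fermat.Agent.GE8.LLP.ESupply

open Fermat.Agent.GE8.LLP.Column

variable {p : ℕ} [Fact p.Prime]

/-- **(d), good case.** -/
theorem kuGood (hp2 : p ≠ 2) : KUGoodStmt p :=
  fun _ _ hgood => hKU_good hp2 hgood

/-- **(d), multiplicative peu ramifié case.** -/
theorem kuMult (hp2 : p ≠ 2) : KUMultStmt p :=
  fun _ hΔ hpΔ hc₄ hpeu => hKU_mult hΔ hp2 hpΔ hc₄ hpeu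

/-- the column top with (d) discharged: E8.4 from the node-local node lemma and (DS-ω). -/
theorem llpSides_of_nodeLocal_dsOmega (hp2 : p ≠ 2) (hNL : Inner.NodeLocalStmt p)
    (hDS : DSOmegaSideStmt p) :
    Fermat.Agent.GE8.Top.MinLevelSide3.LLPGoodSideStmt p ∧
      Fermat.Agent.GE8.Top.MinLevelSide3.LLPPeuSideStmt p :=
  llpSides_of hp2 hNL (kuGood hp2) (kuMult hp2) hDS

end Fermat.Agent.GE8.LLP.ESupply
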