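/-
S59 PRE-WORK / E8.4 (LLP at `p`), THE COLUMN WITH THREE OF ITS FOUR INPUTS DISCHARGED (helper61,
ORD sub-gate, after helper17's `Column` / `ColumnRig`, helper25's `ESupply(Plug)` and helper47's
`DSOmega/Top`): **E8.4 from the node-local node lemma `Inner.NodeLocalStmt p` ALONE.**

* `dsOmegaSide`            : `Column.DSOmegaSideStmt p` (every odd `p`) — helper47's
                             `DSOmega.dsOmegaAt` level by level (TORP closed);
* `llpSides_of_nodeLocal`  : `LLPGoodSideStmt p ∧ LLPPeuSideStmt p` (helper96's `MinLevelSide3`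
                             inputs) from `hNL` alone;
* `hRig_semistable_of_nodeLocal`, `exists_minLevel_of_nodeLocal` : helper17's `ColumnRig` tops
                             (helper86's `exists_minLevel_of_rigid`) from `hNL` alone.
-/
import Fermat.Agent.GE8.LLP.ColumnRig
import Fermat.Agent.GE8.LLP.ESupplyPlug
import Fermat.Agent.GE8.LLP.DSOmega.Top

set_option autoImplicit false
set_option linter.unusedSectionVars false
set_option linter.unusedVariables false

noncomputable section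

open WeierstrassCurve WeierstrassCurve.Affine WeierstrassCurve.Affine.Point
open scoped WeierstrassCurve.Affine

namespace Fermat.Agent.GE8.LLP.ColumnDS

open ModularCurve
open Fermat.Agent.GJ.KumGroup Fermat.Agent.GJ.J1 Fermat.Agent.GF.ETate
open Fermat.Agent.GF.Top.S44TopOrd Fermat.Agent.GF.Setup.S0
open Fermat.Agent.GE8.LLP.Inner Fermat.Agent.GE8.LLP.DSOmega Fermat.Agent.GE8.LLP.Column
open Fermat.Agent.GE8.LLP.ColumnRig
open Fermat.Agent.GE8.Top.MinLevelSide3

variable {p : ℕ} [hpF : Fact p.Prime]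

/-- **TORP, in the Column's shape**: (DS-ω) level by level under the frame side condition
(helper47's `DSOmega.dsOmegaAt`). -/
theorem dsOmegaSide (hp2 : p ≠ 2) : DSOmegaSideStmt p :=
  fun _ _ hpM' hside => dsOmegaAt (exactDvd hpM') hp2 hside

/-- **E8.4 (both side statements of `MinLevelSide3`) from the node-local node lemma alone.** -/
theorem llpSides_of_nodeLocal (hp2 : p ≠ 2) (hNL : NodeLocalStmt p) :
    LLPGoodSideStmt p ∧ LLPPeuSideStmt p :=
  llpSides_of hp2 hNL (ESupply.kuGood hp2) (ESupply.kuMult hp2) (dsOmegaSide hp2)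

theorem llpGoodSide_of_nodeLocal (hp2 : p ≠ 2) (hNL : NodeLocalStmt p) : LLPGoodSideStmt p :=
  (llpSides_of_nodeLocal hp2 hNL).1

theorem llpPeuSide_of_nodeLocal (hp2 : p ≠ 2) (hNL : NodeLocalStmt p) : LLPPeuSideStmt p :=
  (llpSides_of_nodeLocal hp2 hNL).2

/-- **`hRig` (rigid squarefree levels) for a semistable curve, `ρ̄` peu ramifiée at `p`**, from the
node-local node lemma alone. -/
theorem hRig_semistable_of_nodeLocal (hp2 : p ≠ 2) (hNL : NodeLocalStmt p)
    (W : WeierstrassCurve ℤ) (hΔ : W.Δ ≠ 0) (hirr : W.ModRepIsIrreducible p)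
    (hc4 : (p : ℤ) ∣ W.Δ → ¬ (p : ℤ) ∣ W.c₄)
    (hpeu : (W.map (Int.castRingHom ℚ)).IsPeuRamifieeAt p p) : RigStmt W p :=
  hRig_semistable hp2 hNL (ESupply.kuGood hp2) (ESupply.kuMult hp2) (dsOmegaSide hp2) W hΔ hirr
    hc4 hpeu

/-- **the minimal level prime to `p`** (helper17's `exists_minLevel_of_column`) from
`NodeLocalStmt p`, `SQSideStmt` and `CaseB38minE p`. -/
theorem exists_minLevel_of_nodeLocal (hp2 : p ≠ 2) (hNL : NodeLocalStmt p)
    (W : WeierstrassCurve ℤ) (hΔ : W.Δ ≠ 0) (hW : W.IsSemistableModel)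
    (hirr : W.ModRepIsIrreducible p)
    (hcard₁ : Nat.card (Submodule.torsionBy ℤ
      ((W.map (Int.castRingHom ℚ))⁄(AlgebraicClosure ℚ)).Point p) = p ^ 2)
    (hker : GaloisFactorsThroughFiniteLevel
      (WeierstrassCurve.Affine.Point.galoisRepModuleEnd (K := AlgebraicClosure ℚ) ℚ
        (W.map (Int.castRingHom ℚ)) p))
    (hpeu : (W.map (Int.castRingHom ℚ)).IsPeuRamifieeAt p p)
    (hSQ : Fermat.Agent.GE8.SQ.AuxPlug.SQSideStmt)
    (hB : Fermat.Agent.GE8.LLQ.S38Min.CaseB38minE p)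
    (M₀ : ℕ) (hM₀ : M₀ ≠ 0) (hres₀ : W.IsResiduallyModularOfLevel p M₀) (hp2M : ¬ p ^ 2 ∣ M₀)
    (hcube : ∀ q : ℕ, q.Prime → q ≠ p → ¬ q ^ 3 ∣ M₀) :
    ∃ M : ℕ, M ∣ M₀ ∧ Squarefree M ∧ ¬ p ∣ M ∧ W.IsResiduallyModularOfLevel p M ∧
      ∀ q : ℕ, q.Prime → q ≠ p → q ∣ M →
        ¬ ((W.map (Int.castRingHom ℚ)).residualGaloisRepOf p hcard₁ hker).IsUnramifiedAt q :=
  exists_minLevel_of_column hp2 hNL (ESupply.kuGood hp2) (ESupply.kuMult hp2) (dsOmegaSide hp2)
    W hΔ hW hirr hcard₁ hker hpeu hSQ hB M₀ hM₀ hres₀ hp2M hcube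

end Fermat.Agent.GE8.LLP.ColumnDS

end
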