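/-
S59 PRE-WORK / E8.4 LLP at `p = 3` (helper96's design note, board 6943 (4)), leaf EIS-CONST (helper17):
**TROP-HECKE and EIS for classes with a CONSTANT tropical vector, at a RIGID level.**

Every EIS statement of GATE-F (`GF/Eis/Main.trop1FN_kumTl_of_prop`, `Final2.trop_T_mul_of_const`,
`EisFrame.eis_of_frame`) is "proportional to the vector `ord_{P s} G`", `G = red₁ (Δ(z)/Δ(pz))`.
At a rigid level (no elliptic points) `ord_{P s} G = 12` at every node, which is `≡ 0` modulo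
`p = 3`: the proportionality hypothesis then says `trop x = 0` and the statement is empty.

Here the SAME inputs — (L1) in its modulus-free form (`GF/Eis/BadLevel.hL1_mul … (n : ℤ)`), (L2) for
`G`, the fibre formula `FF2`, clause (d) — are used with the modulus `12 p` on `f ^ 12`:
`12 p ∣ 12 (ord_Q f − n [Q node]) = ord_Q (f ^ 12) − n ord_Q G`
⟹ `12 p ∣ ord_Q ((T f) ^ 12) − n (ℓ + 1) ord_Q G = 12 (ord_Q (T f) − n (ℓ + 1) [Q node])`.
No condition on `p` beyond `p ≠ 2`.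

* `trop1FN_kumTl_of_const`   : `m(x)` constant `⟹ m(T_ℓ x) = (ℓ + 1) • m(x)`  (binder `h12`);
* `trop1FN_eq_zero_of_eigen_const` : `T_ℓ x = a x`, `a ≠ ℓ + 1`, `m(x)` constant `⟹ m(x) = 0`;
* `eis_of_frame_const` : the same on a nodal frame of level `M' p` with clauses (d), (e), `M'`
  without elliptic points (`nuTwo M' = nuThree M' = 0`), side condition `p = 3 → 2 ∣ M'` only.
-/
import Fermat.Agent.GF.Eis.EisFrame
import Fermat.Agent.GF.Eis.EtaOrd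

set_option autoImplicit false
set_option linter.unusedSectionVars false
set_option linter.style.haveILetI false

noncomputable section

namespace Fermat.Agent.GE8.LLP.EisConst

open AlgebraicCurve ModularCurve IsLocalRing HahnSeries
open Fermat.Agent.S24 Fermat.Agent.S24_helper62 Fermat.Agent.RRh45 Fermat.Agent.RR
open Fermat.Agent.GJ.J1 Fermat.Agent.GJ.J1.Val
open Fermat.Agent.GJ Fermat.Agent.GJ.KumGroup Fermat.Agent.GJ.Kum Fermat.Agent.GJ.Kum.KumType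
open Fermat.Agent.GK.AL Fermat.Agent.GK.UQ Fermat.Agent.GK.CuspSep Fermat.Agent.GK.MultiVal
open Fermat.Agent.GK.BallTwo Fermat.Agent.GK.NodalGraded
open Fermat.Agent.GS.Nodal.LSR2 Fermat.Agent.GS.Nodal.ROfSurj2 Fermat.Agent.GS.Nodal.Inst
open Fermat.Agent.GF.Trop Fermat.Agent.GF.D3 Fermat.Agent.GL.Eta Fermat.Agent.GF.Eis.Main

attribute [local instance] finiteResidues_FN hasPrincipalDivisors_FN nonempty_place_FN
  isAlgClosed_res finiteResidues_Fres hasPrincipalDivisors_Fres nonempty_place_Fres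

/-! ### arithmetic and a generic `ord` lemma -/

theorem dvd_twelve_mul_of_eq (p : ℕ) (t k : ℤ) (ht : t = (p : ℤ) * k) :
    (((12 * p : ℕ) : ℤ)) ∣ ((12 : ℕ) : ℤ) * t - 0 :=
  ⟨k, by rw [ht]; push_cast; ring⟩

theorem dvd_twelve_mul_sub (p : ℕ) (t : ℤ) (n : ℕ) (h : (p : ℤ) ∣ t - n) :
    (((12 * p : ℕ) : ℤ)) ∣ ((12 : ℕ) : ℤ) * t - (n : ℤ) * 12 := by
  obtain ⟨k, hk⟩ := h
  exact ⟨k, by rw [show t = (p : ℤ) * k + n by linarith]; push_cast; ring⟩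

theorem dvd_of_twelve_mul_dvd (p : ℕ) (t : ℤ) (n m : ℕ)
    (h : (((12 * p : ℕ) : ℤ)) ∣ ((12 : ℕ) : ℤ) * t - (n : ℤ) * ((m : ℤ) * 12)) :
    (p : ℤ) ∣ t - (n : ℤ) * (m : ℤ) := by
  obtain ⟨k, hk⟩ := h
  refine ⟨k, ?_⟩
  have h12 : (12 : ℤ) * (t - (n : ℤ) * (m : ℤ)) = (12 : ℤ) * ((p : ℤ) * k) := by
    push_cast at hk
    linarith
  exact mul_left_cancel₀ (by norm_num) h12

theorem ord_pow_nat {k E : Type*} [Field k] [Field E] [Algebra k E] (Q : Place k E) (a : E)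
    (n : ℕ) : Q.ord (a ^ n) = ((n : ℕ) : ℤ) * Q.ord a := by
  rw [← zpow_natCast, Q.ord_zpow]

section Level

variable {p : ℕ} [Fact p.Prime] (N : ℕ) [NeZero N] [NeZero p] (A : ValuationSubring Kbar)
  (h : ExactDvd p N)

local notation "𝕜" => ResidueField A

variable {ι : Type} [Fintype ι] (P : ι → Place (ResidueField A) (FresBar N A))

/-- **TROP-HECKE for a constant tropical vector**, when `G = red₁ (Δ(z)/Δ(pz))` has order exactly
`12` at every node.  (L1) is taken modulus-free. -/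
theorem trop1FN_kumTl_of_const (hA : A.LiesOverPrime p) (hp2 : p ≠ 2)
    {d1 : Place 𝕜 (FresBar N A) → Set (Place Kbar (FN N))}
    {d2 : Place 𝕜 (FresBar N A) → Set (Place Kbar (FN N))}
    {S2 : Set (Place 𝕜 (FresBar N A))}
    (hFF : FF2 (redDataBar N A) (redData2 N A h) d1 d2 {Q' | ∀ j, Q' ≠ P j} S2)
    {ℓ : ℕ} [NeZero ℓ] (hℓ : ℓ.Prime) (hℓN : ¬ ℓ ∣ N)
    (hL1 : ∀ (n : ℤ) (f Tf : FresBar N A), f ≠ 0 →
      (Tf : LaurentSeries 𝕜) = heckeNorm ℓ (f : LaurentSeries 𝕜) →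
      (∀ Q' : Place 𝕜 (FresBar N A), 0 ≤ Q'.ord (tauF N A) → n ∣ Q'.ord f) →
      ∀ Q' : Place 𝕜 (FresBar N A), 0 ≤ Q'.ord (tauF N A) → n ∣ Q'.ord Tf)
    (hoff : ∀ s, 0 ≤ (P s).ord (tauF N A))
    (hd : ∀ Q' : Place 𝕜 (FresBar N A), 0 ≤ Q'.ord (tauF N A) → (∀ s, Q' ≠ P s) →
      Q'.ord (Gred N A h) = 0)
    (h12 : ∀ s, (P s).ord (Gred N A h) = 12)
    (x : Additive (Kum Kbar (FN N) p)) (c : ZMod p)
    (hconst : ∀ s, trop1FN N A P x s = c) :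
    trop1FN N A P (kumTl N p hℓ hℓN x) = (((ℓ : ℕ) : ZMod p) + 1) • trop1FN N A P x := by
  classical
  have T := tropHyp_FN N A h hA
  have hun : Unram (redDataBar N A) := Fermat.Agent.GS.F.unram_redDataBar N A
  obtain ⟨u, hux, hu⟩ := exists_bothUnit_rep T.hc T.hPS T.hun1 T.hun2 T.harch T.hp T.hroot
    (Additive.toMul x)
  have hx : x = Additive.ofMul (Kum.mk u) := by rw [hux]; rfl
  subst hx
  set hM := Fermat.Agent.GJ.Kum.KumGate.hnMemHyp N hℓ hℓN with hMdef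
  set hD := Fermat.Agent.GJ.Kum.KumGate.hnDivHyp N p hℓ hℓN with hDdef
  have hU : IsU (redDataBar N A) (((u : (FN N)ˣ) : FN N)) := hu.1
  have hTU : IsU (redDataBar N A) (((heckeUnits hM (u : (FN N)ˣ) : (FN N)ˣ) : FN N)) :=
    isU_heckeUnits A hM hU
  -- the two reductions
  set f : FresBar N A := (redDataBar N A).red ⟨((u : (FN N)ˣ) : FN N), hU.2.1⟩ with hf
  set Tf : FresBar N A :=
    (redDataBar N A).red ⟨((heckeUnits hM (u : (FN N)ˣ) : (FN N)ˣ) : FN N), hTU.2.1⟩ with hTf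
  have hf0 : f ≠ 0 := hU.red_ne_zero
  have hT : (Tf : LaurentSeries 𝕜) = heckeNorm ℓ (f : LaurentSeries 𝕜) :=
    redS_heckeUnits A hM hU
  -- the tropical coordinates
  have hm : ∀ s, trop1FN N A P (Additive.ofMul (Kum.mk u)) s = (((P s).ord f : ℤ) : ZMod p) := by
    intro s
    show ((ordRed (redDataBar N A) hun (P s) ((u : (FN N)ˣ) : FN N) : ℤ) : ZMod p) = _
    rw [ordRed_of_isU hun (P s) hU]
  have hTm : ∀ s, trop1FN N A P (kumTl N p hℓ hℓN (Additive.ofMul (Kum.mk u))) s =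
      (((P s).ord Tf : ℤ) : ZMod p) := by
    intro s
    have e : kumTl N p hℓ hℓN (Additive.ofMul (Kum.mk u)) =
        Additive.ofMul (Kum.mk ⟨heckeUnits hM u, heckeUnits_mem hM hD u u.2⟩) := rfl
    rw [e]
    show ((ordRed (redDataBar N A) hun (P s)
      ((heckeUnits hM (u : (FN N)ˣ) : (FN N)ˣ) : FN N) : ℤ) : ZMod p) = _
    rw [ordRed_of_isU hun (P s) hTU]
  -- `f ^ 12` is `12 p`-divisible off the cusps up to `G ^ n`
  set n : ℕ := c.val with hn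
  have hnc : ((n : ℕ) : ZMod p) = c := ZMod.natCast_zmod_val c
  have hf12 : f ^ 12 ≠ 0 := pow_ne_zero 12 hf0
  have hT12 : ((Tf ^ 12 : FresBar N A) : LaurentSeries 𝕜) =
      heckeNorm ℓ ((f ^ 12 : FresBar N A) : LaurentSeries 𝕜) := by
    rw [IntermediateField.coe_pow, IntermediateField.coe_pow, heckeNorm_pow, hT]
  have hdiv : ∀ Q' : Place 𝕜 (FresBar N A),
      Q' ∉ {Q' : Place 𝕜 (FresBar N A) | ¬ 0 ≤ Q'.ord (tauF N A)} →
      (((12 * p : ℕ) : ℤ)) ∣ Q'.ord (f ^ 12) - n * Q'.ord (Gred N A h) := by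
    intro Q' hQ'
    have hQ0 : 0 ≤ Q'.ord (tauF N A) := not_not.mp hQ'
    rw [ord_pow_nat]
    by_cases hnode : ∀ s, Q' ≠ P s
    · rw [hd Q' hQ0 hnode, mul_zero]
      obtain ⟨k, hk⟩ := dvd_ord_red1_of_mem hFF hu (mem_pDivUnits.mp u.2) hnode
      exact dvd_twelve_mul_of_eq p _ k hk
    · push Not at hnode
      obtain ⟨s, rfl⟩ := hnode
      have hps : (p : ℤ) ∣ (P s).ord f - n := by
        rw [← ZMod.intCast_zmod_eq_zero_iff_dvd]
        push_cast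
        rw [← hm s, hconst s, hnc, sub_self]
      rw [h12 s]
      exact dvd_twelve_mul_sub p _ n hps
  have key := Fermat.Agent.GF.Eis.EisSeries.dvd_ord_sub ℓ (12 * p)
    {Q' : Place 𝕜 (FresBar N A) | ¬ 0 ≤ Q'.ord (tauF N A)}
    (fun f Tf hf hT hdv Q' hQ' =>
      hL1 ((12 * p : ℕ) : ℤ) f Tf hf hT (fun Q'' hQ'' => hdv Q'' (not_not.mpr hQ'')) Q'
        (not_not.mp hQ'))
    hf12 (Gred_ne_zero N A h) hT12 (heckeNorm_Gred N A h hA hp2 hℓ) n hdiv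
  funext s
  have h1 := key (P s) (not_not.mpr (hoff s))
  rw [ord_pow_nat, h12 s] at h1
  have h2 : (p : ℤ) ∣ (P s).ord Tf - (n : ℤ) * ((ℓ + 1 : ℕ) : ℤ) :=
    dvd_of_twelve_mul_dvd p _ n (ℓ + 1) h1
  rw [← ZMod.intCast_zmod_eq_zero_iff_dvd] at h2
  push_cast at h2
  rw [sub_eq_zero] at h2
  rw [hTm s, h2, Pi.smul_apply, hconst s, hnc, smul_eq_mul]
  ring

/-- **EIS, eigenvector form, constant vector**: a `T_ℓ`-eigenclass with eigenvalue `a ≠ ℓ + 1` and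
CONSTANT tropical vector has trivial tropical vector. -/
theorem trop1FN_eq_zero_of_eigen_const (hA : A.LiesOverPrime p) (hp2 : p ≠ 2)
    {d1 : Place 𝕜 (FresBar N A) → Set (Place Kbar (FN N))}
    {d2 : Place 𝕜 (FresBar N A) → Set (Place Kbar (FN N))}
    {S2 : Set (Place 𝕜 (FresBar N A))}
    (hFF : FF2 (redDataBar N A) (redData2 N A h) d1 d2 {Q' | ∀ j, Q' ≠ P j} S2)
    {ℓ : ℕ} [NeZero ℓ] (hℓ : ℓ.Prime) (hℓN : ¬ ℓ ∣ N)
    (hL1 : ∀ (n : ℤ) (f Tf : FresBar N A), f ≠ 0 →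
      (Tf : LaurentSeries 𝕜) = heckeNorm ℓ (f : LaurentSeries 𝕜) →
      (∀ Q' : Place 𝕜 (FresBar N A), 0 ≤ Q'.ord (tauF N A) → n ∣ Q'.ord f) →
      ∀ Q' : Place 𝕜 (FresBar N A), 0 ≤ Q'.ord (tauF N A) → n ∣ Q'.ord Tf)
    (hoff : ∀ s, 0 ≤ (P s).ord (tauF N A))
    (hd : ∀ Q' : Place 𝕜 (FresBar N A), 0 ≤ Q'.ord (tauF N A) → (∀ s, Q' ≠ P s) →
      Q'.ord (Gred N A h) = 0)
    (h12 : ∀ s, (P s).ord (Gred N A h) = 12)
    (x : Additive (Kum Kbar (FN N) p)) (a : ZMod p)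
    (hTx : kumTl N p hℓ hℓN x = a • x) (ha : a ≠ ((ℓ : ℕ) : ZMod p) + 1)
    (hconst : ∃ c : ZMod p, ∀ s, trop1FN N A P x s = c) :
    trop1FN N A P x = 0 := by
  obtain ⟨c, hc⟩ := hconst
  have h1 := trop1FN_kumTl_of_const N A h P hA hp2 hFF hℓ hℓN hL1 hoff hd h12 x c hc
  rw [hTx] at h1
  have h2 : trop1FN N A P (a • x) = a • trop1FN N A P x :=
    ((trop1FN (q := p) N A P).toZModLinearMap p).map_smul a x
  rw [h2] at h1
  funext s
  have h3 := congrFun h1 s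
  rw [Pi.smul_apply, Pi.smul_apply, smul_eq_mul, smul_eq_mul] at h3
  have h4 : (a - (((ℓ : ℕ) : ZMod p) + 1)) * trop1FN N A P x s = 0 := by
    rw [sub_mul, h3, sub_self]
  rcases mul_eq_zero.mp h4 with h5 | h5
  · exact absurd (sub_eq_zero.mp h5) ha
  · exact h5

end Level

section Frame

variable {p : ℕ} [Fact p.Prime] [NeZero p] (M' : ℕ) [NeZero M'] (A : ValuationSubring Kbar)
  (h : ExactDvd p (M' * p))
variable {ι : Type} [Fintype ι] {P Q : ι → Place (ResidueField A) (FresBar (M' * p) A)}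
variable {C : Divisor Kbar (FN (M' * p))}
  {C₁ C₂ : Divisor (ResidueField A) (FresBar (M' * p) A)} {g c : ℤ} {n₀ : ℕ}

/-- **EIS with the constant vector on a nodal frame of a RIGID level** `M' p`
(`nuTwo M' = nuThree M' = 0`), clauses (d) + (e): a `T_ℓ`-eigenclass with eigenvalue `≠ ℓ + 1`
whose tropical vector is constant has trivial tropical vector.  `p ≠ 2`, `p = 3 → 2 ∣ M'`. -/
theorem eis_of_frame_const (FF : FrameFacts (M' * p) A h P Q)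
    (H : NodalHyp (redCompatFN (M' * p) A h) P Q C C₁ C₂ g c n₀)
    (hpM' : ¬ p ∣ M') (hp2 : p ≠ 2) (h3 : p = 3 → 2 ∣ M') (hν2 : nuTwo M' = 0)
    (hν3 : nuThree M' = 0) (hA : A.LiesOverPrime p)
    (hd : ∀ Q' : Place (ResidueField A) (FresBar (M' * p) A), 0 ≤ Q'.ord (tauF (M' * p) A) →
      (∀ s, Q' ≠ P s) →
      Q'.ord ((redDataBar (M' * p) A).red
        ⟨etaQ (M' * p) p h.dvd, etaQ_mem_Rw1 (M' * p) A p h.dvd⟩) = 0)
    (he : ∀ s, 0 < (P s).ord ((redDataBar (M' * p) A).red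
        ⟨etaQ (M' * p) p h.dvd, etaQ_mem_Rw1 (M' * p) A p h.dvd⟩))
    {ℓ : ℕ} (hℓ : ℓ.Prime) (hℓN : ¬ ℓ ∣ M' * p)
    (x : Additive (Kum Kbar (FN (M' * p)) p)) (a : ZMod p)
    (hTx : kumTl (M' * p) p hℓ hℓN x = a • x) (ha : a ≠ ((ℓ : ℕ) : ZMod p) + 1)
    (hconst : ∃ c : ZMod p, ∀ s, trop1FN (q := p) (M' * p) A P x s = c) :
    ∀ s, trop1FN (q := p) (M' * p) A P x s = 0 := by
  haveI : NeZero ℓ := ⟨hℓ.ne_zero⟩
  have hℓM : ¬ ℓ ∣ M' := fun hdvd => hℓN (Dvd.dvd.mul_right hdvd p)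
  have hoff := Fermat.Agent.GF.Eis.Final.hoff_of_frameFacts M' A h FF
  have h12 : ∀ s, (P s).ord (Gred (M' * p) A h) = 12 := fun s =>
    Fermat.Agent.GF.Eis.EtaOrd.ord_red_etaQ_eq_mul M' p A h hA hpM' (fun e2 => absurd e2 hp2) h3
      hν2 hν3 (P s) (hoff s) (he s).ne'
  have h0 := trop1FN_eq_zero_of_eigen_const (M' * p) A h P hA hp2 (Fermat.Agent.GS.Fib.ff2 H) hℓ
    hℓN
    (fun n f Tf hf hT hdv => Fermat.Agent.GF.Eis.BadLevel.hL1_mul hpM' (fun e2 => absurd e2 hp2)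
      h3 hA hℓ hℓM n f Tf hf hT hdv)
    hoff hd h12 x a hTx ha hconst
  intro s
  rw [h0]
  rfl

end Frame

end Fermat.Agent.GE8.LLP.EisConst
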