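/-
S59 PRE-WORK / E8.4 LLP at `p = 3` (helper96's design note, board 6943 (3)+(4)), leaf F2-LOCAL
(helper17): **(F2) with a NODE-LOCAL test unit `θ s`, and `trop = 0` on `Y₀` from it.**

GATE-F's `F2Asm/NRAsmSub.f2_of_nodes_sub` tests the node lemma against ONE global unit
`θ = etaQ = Δ(z)/Δ(pz)` with `(w₁, w₂, n_s)(θ) = (0, 12 (p − 1), ord_{P s} red₁ θ)`; both numbers must
be units mod `p`, which fails at `p = 3` (`(24, 12) ≡ (0, 0)`; audit 7065 [F1]).  The abstract core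
`node_congr_sub_zmod` is however per node, so `θ`, `Tt` may depend on the node `s`
(e.g. a function cutting out the second branch at `P s`: `(w₁, w₂, n_s) = (0, p − 1, 1)` in
`ϖ`-units at a node of thickness one), as long as `Tt s ≡ κ · N0 s` for ONE unit `κ`.

* `hNR_of_nodes_local`   : the node relation `w₂ f − w₁ f ≡ (Tt s / N0 s) n_s(f)`;
* `econst_of_nodes_local` : `∀ y ∈ Y₀, EConst (fun s => Tt s / N0 s) (trop y)`;
* `const_of_nodes_local`  : if `Tt s ≡ κ N0 s`, `κ ≠ 0`: the tropical vector of every `y ∈ Y₀` is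
  CONSTANT;
* `tropZero_of_nodes_local` : with `GE8/LLP/EisConst.eis_of_frame_const` (rigid level, clauses
  (d) (e)) : `trop₁ = 0` on `Y₀`.   `p ≠ 2`, side condition `p = 3 → 2 ∣ M'` only.
-/
import Fermat.Agent.GF.F2Asm.NRAsmSub
import Fermat.Agent.GF.Top.Integrate
import Fermat.Agent.GE8.LLP.EisConst

set_option autoImplicit false
set_option linter.unusedSectionVars false

noncomputable section

namespace Fermat.Agent.GE8.LLP.F2Local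

open AlgebraicCurve ModularCurve IsLocalRing
open Fermat.Agent.Common_helper32
open Fermat.Agent.S24 Fermat.Agent.S24_helper62 Fermat.Agent.RRh45 Fermat.Agent.RR
open Fermat.Agent.GJ.J1 Fermat.Agent.GJ.J1.Val Fermat.Agent.GJ.J1.InstGen
open Fermat.Agent.GJ Fermat.Agent.GJ.KumGroup Fermat.Agent.GJ.Kum.KumType
open Fermat.Agent.GJ.CycChar Fermat.Agent.GB.A.A6.ECDet Fermat.Agent.GB.A.A6.EigQ
open Fermat.Agent.GK.AL Fermat.Agent.GK.UQ Fermat.Agent.GK.CuspSep Fermat.Agent.GK.MultiVal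
open Fermat.Agent.GK.BallTwo Fermat.Agent.GK.NodalGraded
open Fermat.Agent.GS.Nodal.LSR2 Fermat.Agent.GS.Nodal.ROfSurj2 Fermat.Agent.GS.Nodal.Inst
open Fermat.Agent.GH.Closure Fermat.Agent.GF.Peu Fermat.Agent.GF.ETate
open Fermat.Agent.GF.Setup.Plane Fermat.Agent.GF.Setup.S0 Fermat.Agent.GF.Shape.Sub
open Fermat.Agent.GF.KCover Fermat.Agent.GF.F2Asm.Inst Fermat.Agent.GF.F2Asm.NRAsm
open Fermat.Agent.GF.F2Asm.NRAsmSub Fermat.Agent.GF.Trop Fermat.Agent.GL.Eta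
open Fermat.Agent.GF.Top.Skeleton

attribute [local instance] finiteResidues_FN hasPrincipalDivisors_FN nonempty_place_FN
  isAlgClosed_res finiteResidues_Fres hasPrincipalDivisors_Fres nonempty_place_Fres

section Cover

variable {N : ℕ} [NeZero N] {p : ℕ} [hpF : Fact p.Prime] {A : ValuationSubring Kb} {ζ : Kb}
  (T : TameDatum N p A ζ) (Wd : T.WData)

/-- **the node relation from per-node data with a NODE-LOCAL test unit `θ s j`.** -/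
theorem hNR_of_nodes_local (hA : (p : Kb) ∈ A.nonunits)
    (hvK : ∀ (c : fixedUnits (tameGroup A ζ) T.Fp) (c₀ : Kb),
      ((c : T.Fpˣ) : T.Fp) = algebraMap Kb T.Fp c₀ →
        A.valuation c₀ = A.valuation (1 - ζ) ^ Wd.vK c)
    {ι : Type*} (as bs : ι → ZMod p)
    (Us : ι → ZMod p → Subgroup (fixedUnits (tameGroup A ζ) T.Fp))
    (hϖU : ∀ s j, piUnit T ∈ Us s j)
    (n : ι → ZMod p → fixedUnits (tameGroup A ζ) T.Fp → ℤ)
    (hn_mul : ∀ s j y z, n s j (y * z) = n s j y + n s j z)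
    (hn_const : ∀ s j (c : fixedUnits (tameGroup A ζ) T.Fp),
      ((c : T.Fpˣ) : T.Fp) ∈ T.C → n s j c = 0)
    (θ : ι → ZMod p → fixedUnits (tameGroup A ζ) T.Fp) (hθU : ∀ s j, θ s j ∈ Us s j)
    (Tt N0 : ι → ℤ)
    (hθ1 : ∀ s j, Wd.w₁ (j + as s) (θ s j) = 0) (hθ2 : ∀ s j, Wd.w₂ (j + bs s) (θ s j) = Tt s)
    (hθn : ∀ s j, n s j (θ s j) = N0 s)
    (hN0 : ∀ s, ((N0 s : ℤ) : ZMod p) ≠ 0)
    (NL : ∀ s j, ∀ u ∈ Us s j,
      Wd.w₁ (j + as s) u = 0 → Wd.w₂ (j + bs s) u = 0 → (p : ℤ) ∣ n s j u)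
    (f : fixedUnits (tameGroup A ζ) T.Fp) (s : ι) (j : ZMod p) (hfU : f ∈ Us s j) :
    ((Wd.w₂ (j + bs s) f - Wd.w₁ (j + as s) f : ℤ) : ZMod p) =
      ((Tt s : ℤ) : ZMod p) * ((N0 s : ℤ) : ZMod p)⁻¹ * ((n s j f : ℤ) : ZMod p) :=
  node_congr_sub_zmod (Us s j) (Wd.w₁ (j + as s)) (Wd.w₂ (j + bs s)) (n s j)
    (Wd.w₁_mul _) (Wd.w₂_mul _) (hn_mul s j) (hϖU s j) (hθU s j)
    (w₁_piUnit T Wd hA hvK _) (w₂_piUnit T Wd hA hvK _)
    (hn_const s j _ (piUnit_mem_C T)) (hθ1 s j) (hθ2 s j) (hθn s j) (hN0 s) (NL s j) f hfU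

variable {W : WeierstrassCurve ℤ}

/-- **(F2) on `Y₀` from per-node data with node-local test units.** -/
theorem econst_of_nodes_local (C : Copy W p N) (hA : (p : Qb) ∈ A.nonunits)
    (hKU : KummerUnit W p A ζ)
    {M₀ : AddSubgroup (Additive (Kum Kb (FK N) p))}
    (D : LineData (gal N p) (A.inertiaSubgroupIn ℚ) C.Y0 M₀
      (fun σ => ((cyc p σ : (ZMod p)ˣ) : ZMod p)))
    (a : ZMod p) (ha : a ≠ 0)
    (hg : (Additive.ofMul (Kum.mk T.g) : Additive (Kum Kb (FK N) p)) = a • D.w₀)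
    (hlc : (qEmb N T.g₀).leadingCoeff = 1)
    (hvK : ∀ (c : fixedUnits (tameGroup A ζ) T.Fp) (c₀ : Kb),
      ((c : T.Fpˣ) : T.Fp) = algebraMap Kb T.Fp c₀ →
        A.valuation c₀ = A.valuation (1 - ζ) ^ Wd.vK c)
    {ι : Type*} (as bs : ι → ZMod p)
    (Us : ι → ZMod p → Subgroup (fixedUnits (tameGroup A ζ) T.Fp))
    (hϖU : ∀ s j, piUnit T ∈ Us s j)
    (hUf : ∀ u : pDivUnits Kb (FK N) p,
      (Additive.ofMul (Kum.mk u) : Additive (Kum Kb (FK N) p)) ∈ C.Y0 →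
      ∀ f : fixedUnits (tameGroup A ζ) T.Fp,
      (∃ h : T.Fp, h ≠ 0 ∧ ((f : T.Fpˣ) : T.Fp) =
        1 * algebraMap (FK N) T.Fp (((u : (FK N)ˣ) : FK N)) * h ^ p) → ∀ s j, f ∈ Us s j)
    (n : ι → ZMod p → fixedUnits (tameGroup A ζ) T.Fp → ℤ)
    (hn_mul : ∀ s j y z, n s j (y * z) = n s j y + n s j z)
    (hn_const : ∀ s j (c : fixedUnits (tameGroup A ζ) T.Fp),
      ((c : T.Fpˣ) : T.Fp) ∈ T.C → n s j c = 0)
    (θ : ι → ZMod p → fixedUnits (tameGroup A ζ) T.Fp) (hθU : ∀ s j, θ s j ∈ Us s j)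
    (Tt N0 : ι → ℤ)
    (hθ1 : ∀ s j, Wd.w₁ (j + as s) (θ s j) = 0) (hθ2 : ∀ s j, Wd.w₂ (j + bs s) (θ s j) = Tt s)
    (hθn : ∀ s j, n s j (θ s j) = N0 s)
    (hN0 : ∀ s, ((N0 s : ℤ) : ZMod p) ≠ 0)
    (NL : ∀ s j, ∀ u ∈ Us s j,
      Wd.w₁ (j + as s) u = 0 → Wd.w₂ (j + bs s) u = 0 → (p : ℤ) ∣ n s j u)
    (trop : Additive (Kum Kb (FK N) p) → ι → ZMod p)
    (hn : ∀ u : pDivUnits Kb (FK N) p,
      (Additive.ofMul (Kum.mk u) : Additive (Kum Kb (FK N) p)) ∈ C.Y0 →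
      ∀ f : fixedUnits (tameGroup A ζ) T.Fp,
      (∃ h : T.Fp, h ≠ 0 ∧ ((f : T.Fpˣ) : T.Fp) =
        1 * algebraMap (FK N) T.Fp (((u : (FK N)ˣ) : FK N)) * h ^ p) →
      ∀ s j, ((n s j f : ℤ) : ZMod p) = trop (Additive.ofMul (Kum.mk u)) s) :
    ∀ y ∈ C.Y0,
      EConst (fun s => ((Tt s : ℤ) : ZMod p) * ((N0 s : ℤ) : ZMod p)⁻¹) (trop y) :=
  Fermat.Agent.GF.F2Asm.Y0.econst_Y0 C hA hKU D T a ha hg hlc Wd hvK as bs _ trop
    (fun u hu f hf s j => by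
      rw [hNR_of_nodes_local T Wd hA hvK as bs Us hϖU n hn_mul hn_const θ hθU Tt N0 hθ1 hθ2 hθn
        hN0 NL f s j (hUf u hu f hf s j), hn u hu f hf s j])

/-- **the tropical vectors of `Y₀` are CONSTANT** when `Tt s ≡ κ · N0 s` for one unit `κ`
(e.g. `(Tt s, N0 s) = (p − 1, 1)`: `κ = −1`). -/
theorem const_of_nodes_local (C : Copy W p N) (hA : (p : Qb) ∈ A.nonunits)
    (hKU : KummerUnit W p A ζ)
    {M₀ : AddSubgroup (Additive (Kum Kb (FK N) p))}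
    (D : LineData (gal N p) (A.inertiaSubgroupIn ℚ) C.Y0 M₀
      (fun σ => ((cyc p σ : (ZMod p)ˣ) : ZMod p)))
    (a : ZMod p) (ha : a ≠ 0)
    (hg : (Additive.ofMul (Kum.mk T.g) : Additive (Kum Kb (FK N) p)) = a • D.w₀)
    (hlc : (qEmb N T.g₀).leadingCoeff = 1)
    (hvK : ∀ (c : fixedUnits (tameGroup A ζ) T.Fp) (c₀ : Kb),
      ((c : T.Fpˣ) : T.Fp) = algebraMap Kb T.Fp c₀ →
        A.valuation c₀ = A.valuation (1 - ζ) ^ Wd.vK c)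
    {ι : Type*} (as bs : ι → ZMod p)
    (Us : ι → ZMod p → Subgroup (fixedUnits (tameGroup A ζ) T.Fp))
    (hϖU : ∀ s j, piUnit T ∈ Us s j)
    (hUf : ∀ u : pDivUnits Kb (FK N) p,
      (Additive.ofMul (Kum.mk u) : Additive (Kum Kb (FK N) p)) ∈ C.Y0 →
      ∀ f : fixedUnits (tameGroup A ζ) T.Fp,
      (∃ h : T.Fp, h ≠ 0 ∧ ((f : T.Fpˣ) : T.Fp) =
        1 * algebraMap (FK N) T.Fp (((u : (FK N)ˣ) : FK N)) * h ^ p) → ∀ s j, f ∈ Us s j)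
    (n : ι → ZMod p → fixedUnits (tameGroup A ζ) T.Fp → ℤ)
    (hn_mul : ∀ s j y z, n s j (y * z) = n s j y + n s j z)
    (hn_const : ∀ s j (c : fixedUnits (tameGroup A ζ) T.Fp),
      ((c : T.Fpˣ) : T.Fp) ∈ T.C → n s j c = 0)
    (θ : ι → ZMod p → fixedUnits (tameGroup A ζ) T.Fp) (hθU : ∀ s j, θ s j ∈ Us s j)
    (Tt N0 : ι → ℤ)
    (hθ1 : ∀ s j, Wd.w₁ (j + as s) (θ s j) = 0) (hθ2 : ∀ s j, Wd.w₂ (j + bs s) (θ s j) = Tt s)
    (hθn : ∀ s j, n s j (θ s j) = N0 s)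
    (hN0 : ∀ s, ((N0 s : ℤ) : ZMod p) ≠ 0)
    (κ : ZMod p) (hκ : κ ≠ 0) (hTκ : ∀ s, ((Tt s : ℤ) : ZMod p) = κ * ((N0 s : ℤ) : ZMod p))
    (NL : ∀ s j, ∀ u ∈ Us s j,
      Wd.w₁ (j + as s) u = 0 → Wd.w₂ (j + bs s) u = 0 → (p : ℤ) ∣ n s j u)
    (trop : Additive (Kum Kb (FK N) p) → ι → ZMod p)
    (hn : ∀ u : pDivUnits Kb (FK N) p,
      (Additive.ofMul (Kum.mk u) : Additive (Kum Kb (FK N) p)) ∈ C.Y0 →
      ∀ f : fixedUnits (tameGroup A ζ) T.Fp,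
      (∃ h : T.Fp, h ≠ 0 ∧ ((f : T.Fpˣ) : T.Fp) =
        1 * algebraMap (FK N) T.Fp (((u : (FK N)ˣ) : FK N)) * h ^ p) →
      ∀ s j, ((n s j f : ℤ) : ZMod p) = trop (Additive.ofMul (Kum.mk u)) s) :
    ∀ y ∈ C.Y0, ∃ c : ZMod p, ∀ s, trop y s = c := by
  intro y hy
  obtain ⟨c, hc⟩ := econst_of_nodes_local T Wd C hA hKU D a ha hg hlc hvK as bs Us hϖU hUf n hn_mul
    hn_const θ hθU Tt N0 hθ1 hθ2 hθn hN0 NL trop hn y hy
  refine ⟨κ⁻¹ * c, fun s => ?_⟩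
  have h2 : ((Tt s : ℤ) : ZMod p) * ((N0 s : ℤ) : ZMod p)⁻¹ = κ := by
    rw [hTκ s, mul_assoc, mul_inv_cancel₀ (hN0 s), mul_one]
  have h1 : κ * trop y s = c := by
    rw [← h2]
    exact hc s
  rw [← h1, ← mul_assoc, inv_mul_cancel₀ hκ, one_mul]

end Cover

section Frame

variable {W : WeierstrassCurve ℤ} {p : ℕ} [hpF : Fact p.Prime] [NeZero p] {M' : ℕ} [NeZero M']

/-- **`trop₁ = 0` on `Y₀` at a RIGID level `M' p`** from the constancy of the tropical vectors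
(output of `const_of_nodes_local`) and EIS with the constant vector
(`EisConst.eis_of_frame_const`).  `hΔ`, `hC`, `ℓ₀` as in `Provider44T.TropZeroT`. -/
theorem tropZero_of_const (hΔ : W.Δ ≠ 0) (hpM' : ¬ p ∣ M') (hp2 : p ≠ 2)
    (h3 : p = 3 → 2 ∣ M') (hν2 : nuTwo M' = 0) (hν3 : nuThree M' = 0)
    (C : Copy W p (M' * p))
    (hC : C.Y0 ≤ eigQ (M' * p) p (Sset W (M' * p) p) (hMS W (M' * p) p) (aW W))
    (ℓ₀ : ℕ) (hℓ₀ : ℓ₀.Prime) (hℓ₀S : ℓ₀ ∉ Sset W (M' * p) p)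
    (hne : ((aW W ℓ₀ : ℤ) : ZMod p) ≠ ((ℓ₀ : ℕ) : ZMod p) + 1)
    (A : ValuationSubring Kbar) (hA : A.LiesOverPrime p)
    {ι : Type} [Fintype ι]
    {P Q : ι → Place (ResidueField A) (FresBar (M' * p) A)} {c : ℤ} {n₀ : ℕ}
    (FF : FrameFacts (M' * p) A (exactDvd hpM') P Q)
    (NH : NodalHyp (redCompatFN (M' * p) A (exactDvd hpM')) P Q (CS (M' * p) (exactDvd hpM'))
      (Dτ (M' * p) A p) (Dτ (M' * p) A p) (genusRR Kbar (FN (M' * p))) c n₀)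
    (hd : ∀ Q' : Place (ResidueField A) (FresBar (M' * p) A), 0 ≤ Q'.ord (tauF (M' * p) A) →
      (∀ s, Q' ≠ P s) →
      Q'.ord ((redDataBar (M' * p) A).red
        ⟨etaQ (M' * p) p (exactDvd hpM').dvd,
          etaQ_mem_Rw1 (M' * p) A p (exactDvd hpM').dvd⟩) = 0)
    (he : ∀ s, 0 < (P s).ord ((redDataBar (M' * p) A).red
        ⟨etaQ (M' * p) p (exactDvd hpM').dvd,
          etaQ_mem_Rw1 (M' * p) A p (exactDvd hpM').dvd⟩))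
    (hconst : ∀ y ∈ C.Y0, ∃ c : ZMod p, ∀ s, trop1FN (q := p) (M' * p) A P y s = c) :
    ∀ y ∈ C.Y0, trop1FN (q := p) (M' * p) A P y = 0 := by
  intro y hy
  have hℓ₀M : ¬ ℓ₀ ∣ M' * p := (good_of_notMem hΔ hℓ₀ hℓ₀S).2.1
  funext s
  exact Fermat.Agent.GE8.LLP.EisConst.eis_of_frame_const M' A (exactDvd hpM') FF NH hpM' hp2 h3
    hν2 hν3 hA hd he hℓ₀ hℓ₀M y _ (C.kumTl_eq hC hy hℓ₀ hℓ₀S hℓ₀M) hne (hconst y hy) s

end Frame

end Fermat.Agent.GE8.LLP.F2Local
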