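/-
S59 PRE-WORK / E8.4 LLP at `p = 3`, slice (a), file 5 (helper91, second seat of helper17):
**the tropical vectors of `Y₀` are CONSTANT at a rigid level `N' p` from FIELD + REDL + the
NODE-LOCAL node lemma ONLY** — helper17's `F2Local.const_of_nodes_local` with every
`θ / Us / ϖ / n / hn` binder discharged on the concrete objects:

* `Wd := WDataOf.wData T hA hD₁ hD₂ hγ₁ hγ₂`, `hvK := WDataOf.hvK …` (helper3);
* `Us s j := UsLoc T (locSub F₀ 𝔫_s)`, `𝔫_s = centreP (primeL (P s))` the centre of the frame node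
  `P s` on the finite chart `B = BRingK0 N' p A h`; `hϖU`, `hUf` (`UsLoc`);
* `n s j := OrdRedExt.nodeOrd (R1 (j + as s)) (hun1 _) (P s) _`, `hn_mul`, `hn_const`;
* `θ s j := ` the node-local test unit of `ThetaLocal.exists_theta_local` at `P s` (the same on
  every sheet `j`), `(Tt s, N0 s) = (p − 1, 1)`, `κ = −1`;
* `hn` (helper42 `trop_eq_ordRed_kummer`, `a := 1`).

This is the `p`-free twin of helper23's `GF/KCover/Eta/F2Plug.f2_of_field_redl_nl` (which needs
`5 ≤ p` for `12 (p − 1) ≢ 0` and clause (f) `p ∤ ord_{P s} red₁ η`): NO condition on `p` beyond the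
rigidity side conditions `h2 h3 hν2 hν3`, and `NL` is consumed on the NODE-LOCAL subgroups only.

Remaining binders: the context (`C hKU D a ha hg hlc`), FIELD (`hD₁ hD₂ hγ₁ hγ₂`), REDL
(`R1 hun1 hext`), the frame nodes `P s` with `hP hτ he` (finite, off the cusps, zeros of `red₁ η`),
`as bs`, and `NL` on `UsLoc T (locSub F₀ 𝔫_s)`.
-/
import Fermat.Agent.GE8.LLP.ThetaLocal
import Fermat.Agent.GE8.LLP.F2Local
import Fermat.Agent.GF.Trop.Modular

set_option autoImplicit false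
set_option linter.unusedSectionVars false
set_option linter.unusedVariables false

noncomputable section

namespace Fermat.Agent.GE8.LLP.F2PlugLocal

open ModularCurve IsLocalRing AlgebraicCurve IsDedekindDomain Polynomial
open Fermat.Agent.GL.Val.GaussK0 Fermat.Agent.GL.Val.SecondK0
open Fermat.Agent.GJ Fermat.Agent.GJ.KumGroup Fermat.Agent.GJ.Kum.KumType
open Fermat.Agent.GJ.J1 Fermat.Agent.GJ.J1.Val
open Fermat.Agent.GK.AL Fermat.Agent.GL.AL Fermat.Agent.GK.QS Fermat.Agent.GK.SS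
open Fermat.Agent.Common_helper32
open Fermat.Agent.S24 Fermat.Agent.S24_helper6
open Fermat.Agent.GJ.CycChar Fermat.Agent.GB.A.A6.ECDet
open Fermat.Agent.GH.Closure Fermat.Agent.GF.Peu Fermat.Agent.GF.ETate Fermat.Agent.GF.Trop
open Fermat.Agent.GF.Setup.Plane Fermat.Agent.GF.Shape.Sub
open Fermat.Agent.GL.BRingK0 Fermat.Agent.GL.BRingChart Fermat.Agent.GL.Thick
open Fermat.Agent.GL.KrullHeightOne Fermat.Agent.GL.Eta Fermat.Agent.GL.EtaK0
open Fermat.Agent.GF.KCover.Node Fermat.Agent.GF.KCover.Node.NodeRingK0Pkg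
open Fermat.Agent.GF.KCover.Node.NodeRingK0Level
open Fermat.Agent.GF.KCover.Node.OrdRedExt
open Fermat.Agent.GK.CuspSep
open Fermat.Agent.GF.F2Asm.KummerExt Fermat.Agent.GF.F2Asm.Inst Fermat.Agent.GF.KCover
open Fermat.Agent.GF.F2Asm Fermat.Agent.GF.F2Asm.PeuBridge Fermat.Agent.GF.F2Asm.NRAsm
open Fermat.Agent.GF.KCover.Field Fermat.Agent.GF.KCover.Field.Disc
open Fermat.Agent.GF.KCover.Field.WDataOf
open Fermat.Agent.GF.KCover.Int.K0Model
open Fermat.Agent.GE8.LLP.UsLoc Fermat.Agent.GE8.LLP.ThetaLocal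

attribute [local instance] actFK algE'
attribute [local instance] Fermat.Agent.GL.Frame.InstK0.algSubringFullC

variable {A : ValuationSubring Qb} {N' : ℕ} [NeZero N'] {p : ℕ} [hpF : Fact p.Prime] [NeZero p]
  (h : ExactDvd p (N' * p)) (hpN : ¬ p ∣ N') (hA : A.LiesOverPrime p)

variable [IsDedekindDomain (CRing N' A)] [IsFractionRing (CRing N' A) (FresBar N' A)]

local notation "F0" => modularFunctionFieldFullC (K0 A) (N' * p)
local notation "kA" => IsLocalRing.ResidueField A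

variable [IsFractionRing (BRingK0 N' p A h) (modularFunctionFieldFullC (K0 A) (N' * p))]

variable {ζ : Qb} (T : TameDatum (N' * p) p A ζ) {W : WeierstrassCurve ℤ}

/-- **the tropical vectors of `Y₀` are constant at a rigid level, from FIELD + REDL + the
node-local node lemma.** -/
theorem const_of_field_redl_nl_local (h2 : p = 2 → 3 ∣ N') (h3 : p = 3 → 2 ∣ N')
    (hν2 : nuTwo N' = 0) (hν3 : nuThree N' = 0)
    (C : Copy W p (N' * p)) (hKU : KummerUnit W p A ζ)
    {M₀ : AddSubgroup (Additive (Kum Qb (FK (N' * p)) p))}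
    (D : LineData (gal (N' * p) p) (A.inertiaSubgroupIn ℚ) C.Y0 M₀
      (fun σ => ((cyc p σ : (ZMod p)ˣ) : ZMod p)))
    (a : ZMod p) (ha : a ≠ 0)
    (hg : (Additive.ofMul (Kum.mk T.g) : Additive (Kum Qb (FK (N' * p)) p)) = a • D.w₀)
    (hlc : (qEmb (N' * p) T.g₀).leadingCoeff = 1)
    -- FIELD (helper3 `WDataOf`)
    (hD₁ : IsDisc (valF₁ T (galVal1 (N' * p) A)) (ϖ₁ T))
    (hD₂ : IsDisc (valF₁ T (galVal2 (N' * p) A h)) (ϖ₁ T))
    {γ₁ : Pack.Lc hD₁} (hγ₁ : γ₁ ^ p = Pack.jc hD₁ (g₁ T))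
    {γ₂ : Pack.Lc hD₂} (hγ₂ : γ₂ ^ p = Pack.jc hD₂ (g₁ T))
    -- the frame nodes and the sheets
    {ι : Type} (P : ι → Place kA (FresBar (N' * p) A)) (hP : ∀ s, ContainsC hpN hA (P s))
    (hτ : ∀ s, 0 ≤ (P s).ord (tauF (N' * p) A))
    (he : ∀ s, 0 < (P s).ord ((redDataBar (N' * p) A).red
      ⟨etaQ (N' * p) p h.dvd, etaQ_mem_Rw1 (N' * p) A p h.dvd⟩))
    (as bs : ι → ZMod p)
    -- REDL: one reduction datum of the cover per sheet, extending the first Gauss reduction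
    (R1 : ZMod p → RedData Qb T.Fp kA (FresBar (N' * p) A))
    (hun1 : ∀ j, Unram (R1 j)) (hext : ∀ j, RedExt (redDataBar (N' * p) A) (R1 j))
    -- the node lemma on the NODE-LOCAL subgroups
    (NL : ∀ s j, ∀ u ∈ UsLoc T
        ((locSub F0 (centreP (A := A) h hpN hA (primeL hpN hA (P s) (hP s))) :
          Subalgebra (BRingK0 N' p A h) F0) : Set F0),
      (wData T hA hD₁ hD₂ hγ₁ hγ₂).w₁ (j + as s) u = 0 →
      (wData T hA hD₁ hD₂ hγ₁ hγ₂).w₂ (j + bs s) u = 0 →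
      (p : ℤ) ∣ nodeOrd (R1 (j + as s)) (hun1 (j + as s)) (P s)
        (fixedUnits (tameGroup A ζ) T.Fp) u) :
    ∀ y ∈ C.Y0, ∃ c : ZMod p, ∀ s, trop1FN (q := p) (N' * p) A P y s = c := by
  classical
  choose θ hθU hθ1 hθ2 hθn using fun s =>
    exists_theta_local (ζ := ζ) h hpN hA T hD₁ hD₂ hγ₁ hγ₂ h2 h3 hν2 hν3 (P s) (hP s) (hτ s) (he s)
  refine Fermat.Agent.GE8.LLP.F2Local.const_of_nodes_local T (wData T hA hD₁ hD₂ hγ₁ hγ₂) C hA hKU
    D a ha hg hlc (hvK T hA hD₁ hD₂ hγ₁ hγ₂) as bs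
    (fun s _ => UsLoc T
      ((locSub F0 (centreP (A := A) h hpN hA (primeL hpN hA (P s) (hP s))) :
        Subalgebra (BRingK0 N' p A h) F0) : Set F0))
    (fun s _ => piUnit_mem_UsLoc _) (fun u _ f hfk s _ => mem_UsLoc_of_kummer _ u f hfk)
    (fun s j => nodeOrd (R1 (j + as s)) (hun1 (j + as s)) (P s)
      (fixedUnits (tameGroup A ζ) T.Fp))
    (fun s j y z => nodeOrd_mul (R1 (j + as s)) (hun1 (j + as s)) (P s) _ y z)
    (fun s j c hc => ?_)
    (fun s _ => θ s) (fun s _ => hθU s)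
    (fun _ => (p : ℤ) - 1) (fun _ => 1)
    (fun s j => hθ1 s (j + as s)) (fun s j => hθ2 s (j + bs s))
    (fun s j => hθn s (Fermat.Agent.GS.F.unram_redDataBar (N' * p) A) (R1 (j + as s))
      (hun1 (j + as s)) (hext (j + as s)))
    (fun s => ?_) (-1) (neg_ne_zero.2 one_ne_zero) (fun s => ?_) NL
    (fun y => trop1FN (q := p) (N' * p) A P y) (fun u _ f hfk s j => ?_)
  · -- `hn_const`
    obtain ⟨c₀, hc₀⟩ := T.mem_C.mp hc
    exact nodeOrd_const (R1 (j + as s)) (hun1 (j + as s)) (P s) _ c hc₀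
  · -- `hN0`
    rw [Int.cast_one]
    exact one_ne_zero
  · -- `hTκ`
    push_cast
    rw [ZMod.natCast_self]
    ring
  · -- `hn`
    obtain ⟨g, hg0, hfg⟩ := hfk
    show ((ordRed (R1 (j + as s)) (hun1 (j + as s)) (P s) (((f : T.Fpˣ) : T.Fp)) : ℤ) : ZMod p) =
      trop (redDataBar (N' * p) A) (Fermat.Agent.GS.F.unram_redDataBar (N' * p) A) p P
        (Additive.ofMul (Kum.mk u)) s
    refine trop_eq_ordRed_kummer (hext (j + as s))
      (Fermat.Agent.GS.F.unram_redDataBar (N' * p) A) (hun1 (j + as s)) P s p u (a := 1)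
      one_ne_zero hg0 ?_
    rw [map_one]
    exact hfg

end Fermat.Agent.GE8.LLP.F2PlugLocal

end
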