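/-
S59 PRE-WORK / E8.4 LLP at `p = 3`, slice (a), file 2 (helper91, second seat of helper17):
**the horizontal binder `hhor` of `NlPointDataK0.nl_point_data_K0` for the NODE-LOCAL subgroup
`UsLoc T (locSub F₀ 𝔫)`.**

helper57's chain `HhorAbs → HhorMod → HhorPoint → HhorToE → HhorK0Inst` proves `hhor` for
`u ∈ UsInst.Us T` (`p ∣ ord_P u` wherever `j` is regular).  The engine
`HorizSub.exists_unit_mul_pow_of_dvd_ord` only looks at the places `P` ABOVE the discrete valuation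
ring `V`, and `hhor` only quantifies over the `V ⊇ R = B_𝔫`: such a `P` contains the image of `R`,
i.e. it lies `Over` the set `Rs := locSub F₀ 𝔫` of `UsLoc`.

* `hhor_sheet_loc` (abstract twin of `HhorAbs.hhor_sheet`): hypothesis on `u` only at the places
  containing the image of `R`;
* `hhor_UsLoc`, `hhor_UsLoc_final` (twins of `HhorMod.hhor_Us`, `hhor_Us_final`);
* **`hhor_locSub_loc`** : the binder `hhor` of `nl_point_data_K0` VERBATIM for `Us := UsLoc T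
  (locSub F₀ 𝔫)` at helper56's `K0Inst` block (`R := locSub F₀ 𝔫`, `𝔫` ANY prime of `BRingK0`).
-/
import Fermat.Agent.GF.KCover.NodeMod.HhorK0Inst
import Fermat.Agent.GE8.LLP.UsLoc

set_option autoImplicit false
set_option linter.unusedSectionVars false
set_option linter.unusedVariables false
set_option linter.style.haveILetI false

noncomputable section

namespace Fermat.Agent.GE8.LLP.HhorLoc

/-! ### abstract -/

section Abs

open IsLocalRing AlgebraicCurve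
open Fermat.Agent.S24 Fermat.Agent.GL.Frame.ConstUnram
open Fermat.Agent.GF.KCover.Node Fermat.Agent.GF.KCover.NodeMod

variable {Kc Kb K0 F : Type*} [Field Kc] [CharZero Kc] [Field Kb] [Algebra Kc Kb]
  [Algebra.IsAlgebraic Kc Kb] [Field K0] [Field F] [Algebra Kb F]
  (ι : K0 →+* F) (c0 : Kc →+* K0)
  (hι : ∀ a : Kc, ι (c0 a) = algebraMap Kb F (algebraMap Kc Kb a))
  (hgen : ∀ y : F, ∃ a ∈ compositum Kb ι, ∃ b ∈ compositum Kb ι, b ≠ 0 ∧ y * b = a)

include hι hgen in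
/-- **the binder `hhor` from the orders at the places CONTAINING THE IMAGE OF `R` only** (twin of
`HhorAbs.hhor_sheet`; no function `J`). -/
theorem hhor_sheet_loc {B R : Type*} [CommRing B] [CommRing R] [Algebra B R] [Algebra R K0]
    (x : F) [IsGen Kb x] (l : B) (θ₀ : K0)
    (hl0 : algebraMap R K0 (algebraMap B R l) ≠ 0)
    (hconst : ∀ c : Kc, ∃ n : ℕ, ∃ r : R,
      c0 c * algebraMap R K0 (algebraMap B R l) ^ n = algebraMap R K0 r)
    (m : ℕ) (u : K0) (hu0 : u ≠ 0)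
    (hu : ∀ P : Place Kb F, (∀ r : R, ι (algebraMap R K0 r) ∈ P.toValuationSubring) →
      (m : ℤ) ∣ P.ord (ι u)) :
    ∀ V : ValuationSubring K0, IsDiscreteValuationRing V →
      (∀ r : R, algebraMap R K0 r ∈ V) → θ₀ ∈ V →
      (algebraMap R K0 (algebraMap B R l))⁻¹ ∈ V →
      ∃ z : K0, z ≠ 0 ∧ u * z ^ m ∈ V ∧ (u * z ^ m)⁻¹ ∈ V := by
  intro V hV hRV _ hl
  haveI : IsDiscreteValuationRing V := hV
  letI : Algebra Kc K0 := c0.toAlgebra
  exact HorizSub.exists_unit_mul_pow_of_dvd_ord ι hι hgen V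
    (fun c => HhorAbs.const_mem_of_inv_mem V hRV (algebraMap B R l) hl0 hl (c0 c) (hconst c))
    x m u hu0 (fun P hP => hu P (fun r => (hP _).2 (hRV r)))

end Abs

/-! ### on the concrete cover -/

open ModularCurve Polynomial AlgebraicCurve
open Fermat.Agent.S24
open Fermat.Agent.GL.KrullHeightOne
open Fermat.Agent.GK.SS Fermat.Agent.GK.AL Fermat.Agent.GJ.KumGroup Fermat.Agent.GF.Peu
open Fermat.Agent.GF.F2Asm.Inst Fermat.Agent.GF.KCover Fermat.Agent.GF.F2Asm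
open Fermat.Agent.GF.KCover.Field Fermat.Agent.GF.KCover.Field.WDataOf
open Fermat.Agent.GF.KCover.Int Fermat.Agent.GF.KCover.Int.TameLift
open Fermat.Agent.GF.KCover.Int.TameNL Fermat.Agent.GF.KCover.Int.K0Model
open Fermat.Agent.GL.Val.GaussK0 Fermat.Agent.GL.Val.SecondK0
open Fermat.Agent.GL.BRingK0 Fermat.Agent.GJ.J1 Fermat.Agent.GJ.J1.Val Fermat.Agent.GK.QS
open Fermat.Agent.GF.KCover.Node Fermat.Agent.GF.KCover.NodeMod
open Fermat.Agent.GF.KCover.NodeMod.HhorMod Fermat.Agent.GF.KCover.NodeMod.HhorPoint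
open Fermat.Agent.GL.Frame.ConstUnram Fermat.Agent.GL.Frame.HorizDiv
open Fermat.Agent.GE8.LLP.UsLoc

local notation "Qb" => AlgebraicClosure ℚ
local notation "GQ" => (AlgebraicClosure ℚ ≃ₐ[ℚ] AlgebraicClosure ℚ)

attribute [local instance] actFK algE' algK0Qb Fermat.Agent.GL.Frame.InstK0.algSubringFullC

section Gen

variable {N : ℕ} [NeZero N] {p : ℕ} [hpF : Fact p.Prime] {A : ValuationSubring Qb} {ζ : Qb}
  (T : TameDatum N p A ζ) {x : E' T ≃+* E' T}

/-- a representative in `K0 := fixedTame x` of a unit is nonzero. -/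
theorem ne_zero_of_eq_unit_loc (u : fixedUnits (tameGroup A ζ) T.Fp) (u₀ : fixedTame x)
    (hu : ((u : T.Fpˣ) : T.Fp) = inclK0 T x u₀) : u₀ ≠ 0 := by
  rintro rfl
  rw [map_zero] at hu
  exact (u : T.Fpˣ).ne_zero hu

/-- `toE' u = u₀` is the representative equation. -/
theorem coe_eq_inclK0_of_toE' (u : fixedUnits (tameGroup A ζ) T.Fp) (u₀ : fixedTame x)
    (hu : toE' T u = (u₀ : E' T)) : ((u : T.Fpˣ) : T.Fp) = inclK0 T x u₀ := by
  rw [inclK0_apply, ← hu]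
  rfl

/-- **twin of `HhorMod.hhor_Us` for `UsLoc T Rs`**: `hRs` says that the places containing the image
of `R` lie over `Rs`. -/
theorem hhor_UsLoc {Kc : Type*} [Field Kc] [CharZero Kc] [Algebra Kc Qb]
    [Algebra.IsAlgebraic Kc Qb]
    (c0 : Kc →+* fixedTame x)
    (hc0 : ∀ c : Kc, inclK0 T x (c0 c) = algebraMap Qb T.Fp (algebraMap Kc Qb c))
    (hgenT : ∀ y : T.Fp, ∃ a ∈ compositum Qb (inclK0 T x), ∃ b ∈ compositum Qb (inclK0 T x),
      b ≠ 0 ∧ y * b = a)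
    {B R : Type*} [CommRing B] [CommRing R] [Algebra B R] [Algebra R (fixedTame x)]
    (l : B) (θ₀ : fixedTame x)
    (hl0 : algebraMap R (fixedTame x) (algebraMap B R l) ≠ 0)
    (hconst : ∀ c : Kc, ∃ n : ℕ, ∃ r : R,
      c0 c * algebraMap R (fixedTame x) (algebraMap B R l) ^ n = algebraMap R (fixedTame x) r)
    {Rs : Set (modularFunctionFieldFullC (K0 A) N)}
    (hRs : ∀ P : Place Qb T.Fp,
      (∀ r : R, inclK0 T x (algebraMap R (fixedTame x) r) ∈ P.toValuationSubring) → Over T Rs P)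
    (u : UsLoc T Rs) (u₀ : fixedTame x)
    (hu : ((((u : fixedUnits (tameGroup A ζ) T.Fp)) : T.Fpˣ) : T.Fp) = inclK0 T x u₀) :
    ∀ V : ValuationSubring (fixedTame x), IsDiscreteValuationRing V →
      (∀ r : R, algebraMap R (fixedTame x) r ∈ V) → θ₀ ∈ V →
      (algebraMap R (fixedTame x) (algebraMap B R l))⁻¹ ∈ V →
      ∃ z : fixedTame x, z ≠ 0 ∧ u₀ * z ^ p ∈ V ∧ (u₀ * z ^ p)⁻¹ ∈ V :=
  hhor_sheet_loc (inclK0 T x) c0 hc0 hgenT T.x₀ l θ₀ hl0 hconst p u₀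
    (ne_zero_of_eq_unit_loc T _ u₀ hu)
    (fun P hP => by
      rw [← hu]
      exact (mem_UsLoc.1 u.2) P (hRs P hP))

variable {τ : GQ} (hτ : τ ∈ A.inertiaSubgroupIn ℚ)
  (hx1 : ∀ a, x (algebraMap (F₁ N A ζ) (E' T) a) = algebraMap (F₁ N A ζ) (E' T) (tauF₁ T hτ a))
  (hA : (p : Qb) ∈ A.nonunits)

include hA in
/-- **twin of `HhorMod.hhor_Us_final` for `UsLoc T Rs`.** -/
theorem hhor_UsLoc_final
    (hgen : ∀ σ ∈ A.inertiaSubgroupIn ℚ, ∃ m : ℕ, IsTameFix A ζ ((τ ^ m)⁻¹ * σ))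
    (θ₁ : fixedTame x) (hθ₁ : θ₁ ∉ (embK0 T hτ hx1).range)
    {B R : Type*} [CommRing B] [CommRing R] [Algebra B R] [Algebra R (fixedTame x)]
    (l : B) (θ₀ : fixedTame x)
    (hl : algebraMap R (fixedTame x) (algebraMap B R l) = ((p : ℕ) : fixedTame x))
    (hR0 : ∀ a : R0 A, ∃ r : R, algebraMap R (fixedTame x) r = constK0 T hτ hx1 (a : K0 A))
    {Rs : Set (modularFunctionFieldFullC (K0 A) N)}
    (hRs : ∀ P : Place Qb T.Fp,
      (∀ r : R, inclK0 T x (algebraMap R (fixedTame x) r) ∈ P.toValuationSubring) → Over T Rs P)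
    (u : UsLoc T Rs) (u₀ : fixedTame x)
    (hu : ((((u : fixedUnits (tameGroup A ζ) T.Fp)) : T.Fpˣ) : T.Fp) = inclK0 T x u₀) :
    ∀ V : ValuationSubring (fixedTame x), IsDiscreteValuationRing V →
      (∀ r : R, algebraMap R (fixedTame x) r ∈ V) → θ₀ ∈ V →
      (algebraMap R (fixedTame x) (algebraMap B R l))⁻¹ ∈ V →
      ∃ z : fixedTame x, z ≠ 0 ∧ u₀ * z ^ p ∈ V ∧ (u₀ * z ^ p)⁻¹ ∈ V :=
  hhor_UsLoc T (constK0 T hτ hx1) (inclK0_constK0 T hτ hx1)
    (hgen_cover T hτ hx1 θ₁ (not_mem_range_of_not_mem_range_embK0 T hτ hx1 hgen θ₁ hθ₁)) l θ₀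
    (by rw [hl]; exact natCast_ne_zero_K0x T) (hconst_of_R0 T hτ hx1 hA l hl hR0) hRs u u₀ hu

end Gen

/-! ### at the `K0Inst` block -/

section Point

variable {A : ValuationSubring Qb} {N' : ℕ} [NeZero N'] {p : ℕ} [hpF : Fact p.Prime] [NeZero p]
  (h : ExactDvd p (N' * p)) {ζ : Qb}

variable [IsDedekindDomain (CRing N' A)] [IsFractionRing (CRing N' A) (FresBar N' A)]
variable [IsFractionRing (BRingK0 N' p A h) (modularFunctionFieldFullC (K0 A) (N' * p))]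

local notation "F0" => modularFunctionFieldFullC (K0 A) (N' * p)

variable (T : TameDatum (N' * p) p A ζ) {x : E' T ≃+* E' T} {τ : GQ}
  (hτ : τ ∈ A.inertiaSubgroupIn ℚ)
  (hx : IsOver (x : E' T →+* E' T)
    ((tauF₁ T hτ : F₁ (N' * p) A ζ ≃+* F₁ (N' * p) A ζ) :
      F₁ (N' * p) A ζ →+* F₁ (N' * p) A ζ))
  (𝔫 : Ideal (BRingK0 N' p A h)) [𝔫.IsPrime]

/-- **the binder `hhor` of the per-point theorems at the `K0Inst` instance block, for the
node-local subgroup `UsLoc T (locSub F₀ 𝔫)`.** -/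
theorem hhor_locSub_loc (hA : A.LiesOverPrime p)
    (hgen : ∀ σ ∈ A.inertiaSubgroupIn ℚ, ∃ m : ℕ, IsTameFix A ζ ((τ ^ m)⁻¹ * σ))
    (hrank : letI := K0Inst.algF₀ T hτ hx
      Module.finrank F0 (fixedTame x) = p)
    (θ₀ : fixedTame x) :
    letI := K0Inst.algR (R := locSub F0 𝔫) T hτ hx
    ∀ (u : UsLoc T ((locSub F0 𝔫 : Subalgebra (BRingK0 N' p A h) F0) : Set F0))
      (u₀ : fixedTame x),
      toE' T (u : fixedUnits (tameGroup A ζ) T.Fp) = (u₀ : E' T) →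
      ∀ V : ValuationSubring (fixedTame x), IsDiscreteValuationRing V →
      (∀ r : locSub F0 𝔫, algebraMap (locSub F0 𝔫) (fixedTame x) r ∈ V) → θ₀ ∈ V →
      (algebraMap (locSub F0 𝔫) (fixedTame x)
        (algebraMap (BRingK0 N' p A h) (locSub F0 𝔫) (NodeRingK0.ellB h)))⁻¹ ∈ V →
      ∃ z : fixedTame x, z ≠ 0 ∧ u₀ * z ^ p ∈ V ∧ (u₀ * z ^ p)⁻¹ ∈ V := by
  letI := K0Inst.algR (R := locSub F0 𝔫) T hτ hx
  obtain ⟨θ₁, hθ₁⟩ := exists_not_mem_range_embK0 T hτ (fun a => hx a) hrank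
  intro u u₀ hu
  refine hhor_UsLoc_final T hτ (fun a => hx a) hA hgen θ₁ hθ₁ (NodeRingK0.ellB h) θ₀
    (algebraMap_ellB h)
    (fun a => ⟨algebraMap (BRingK0 N' p A h) (locSub F0 𝔫) (constB h a),
      HhorK0Inst.hBK_locSub h T hτ hx 𝔫 (constB h a)⟩)
    (fun P hP r hr => hP ⟨r, hr⟩) u u₀ (coe_eq_inclK0_of_toE' T _ u₀ hu)

end Point

end Fermat.Agent.GE8.LLP.HhorLoc

end
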