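/-
S59 PRE-WORK / E8.4 LLP at `p = 3` (audit 7065 root [F2]), leaf NL-RIGID (helper17):
**the modular per-place theorem `NLAll T h` for EVERY odd `p` at a RIGID level, no descent.**

GATE-F's `NodeMod/NlAllOfHyps.nlAll_of_hyps` (helper62) is stated with `(hp5 : 5 ≤ p) (h4 : 4 ∣ L)`,
but `hp5` is used only for `p ≠ 2` and for the two side conditions
`(h2 : p = 2 → 3 ∣ N') (h3 : p = 3 → 2 ∣ N')` of the `p`-free `nlPoint_mod`, and `h4` only for
`nuTwo N' = nuThree N' = 0`.  So the AUX-4N descent (`upFour`, `p ∤ [F_{2M} : F_M] ≤ 3`, the only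
consumer of `5 ≤ p` in `GF/KCover/**`) is not needed when the level `N' p` is itself rigid:

* `nlAll_rigid`       : `NLAll T h` at the literal level `N' * p`, from `p ≠ 2`, `p = 3 → 2 ∣ N'`,
  `nuTwo N' = 0`, `nuThree N' = 0` (e.g. `N' = M' r`, `r ≡ 11 (12)` prime), `SigmaRel T`, `∀ c₀, ASK`;
* `nlAll_of_hyps_odd` : the variable-level form with `4 ∣ L`, `p ≠ 2` (twin of `nlAll_of_hyps`).
-/
import Fermat.Agent.GF.KCover.NodeMod.NlAllOfHyps

set_option autoImplicit false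
set_option linter.unusedSectionVars false
set_option linter.unusedVariables false
set_option linter.style.haveILetI false

noncomputable section

open Polynomial AlgebraicCurve

namespace Fermat.Agent.GE8.LLP.NlAllRigid

open ModularCurve IsLocalRing IsDedekindDomain
open Fermat.Agent.GL.Val.GaussK0 Fermat.Agent.GL.Val.SecondK0
open Fermat.Agent.GJ.KumGroup Fermat.Agent.GJ.J1 Fermat.Agent.GJ.J1.Val
open Fermat.Agent.GK.AL Fermat.Agent.GL.AL Fermat.Agent.GK.QS Fermat.Agent.GK.SS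
open Fermat.Agent.Common_helper32
open Fermat.Agent.S24 Fermat.Agent.S24_helper6
open Fermat.Agent.GF.Trop
open Fermat.Agent.GL.BRingK0 Fermat.Agent.GL.BRingChart Fermat.Agent.GL.Thick
open Fermat.Agent.GL.KrullHeightOne
open Fermat.Agent.GF.KCover.Node Fermat.Agent.GF.KCover.Node.NodeRingK0Pkg
open Fermat.Agent.GF.KCover.Node.NodeRingK0Level
open Fermat.Agent.GF.KCover.Field Fermat.Agent.GF.KCover.Field.Disc
  Fermat.Agent.GF.KCover.Field.Pack
open Fermat.Agent.GF.KCover.Compl Fermat.Agent.GF.KCover.Compl.Bridge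
  Fermat.Agent.GF.KCover.Compl.RedCompl Fermat.Agent.GF.KCover.Compl.RedAut
  Fermat.Agent.GF.KCover.Compl.BridgeTau
open Fermat.Agent.GF.KCover.Node.OrdRedExt
  Fermat.Agent.GF.KCover.Node.NlNode Fermat.Agent.GF.KCover.Node.NlNodeSheets
  Fermat.Agent.GF.KCover.Node.NlNodeData
open Fermat.Agent.GF.F2Asm.KummerExt Fermat.Agent.GF.F2Asm.Inst Fermat.Agent.GF.KCover
open Fermat.Agent.GF.Peu Fermat.Agent.GF.F2Asm
open Fermat.Agent.GF.KCover.Field.WDataOf
open Fermat.Agent.GF.KCover.Compl.SheetsMod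
open Fermat.Agent.GF.KCover.Int Fermat.Agent.GF.KCover.Int.TameLift
open Fermat.Agent.GF.KCover.AuxLevel
open Fermat.Agent.GF.KCover.NodeMod.ASKDef
open Fermat.Agent.GF.KCover.NodeMod.NlAllOfHyps

attribute [local instance] Fermat.Agent.GL.Frame.InstK0.algSubringFullC

local notation "Qb" => AlgebraicClosure ℚ

attribute [local instance] actFK algE'

set_option maxHeartbeats 4000000 in
/-- **the node lemma at ALL finite places of a RIGID level `N' p`, every odd `p`** (no AUX-4N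
descent): twin of helper62's `nlAll_of_hyps`. -/
theorem nlAll_rigid {N' : ℕ} [NeZero N'] {p : ℕ} [hpF : Fact p.Prime] {A : ValuationSubring Qb}
    {ζ : Qb} (h : ExactDvd p (N' * p)) (hA : A.LiesOverPrime p) (hp2 : p ≠ 2)
    (h3 : p = 3 → 2 ∣ N') (hν2 : nuTwo N' = 0) (hν3 : nuThree N' = 0)
    (T : TameDatum (N' * p) p A ζ) (hσ : SigmaRel T) (hASK : ∀ c₀, ASK T h c₀) : NLAll T h := by
  have hp := hpF.out
  haveI : NeZero p := ⟨hp.ne_zero⟩
  have hpN : ¬ p ∣ N' := fun hd => h.not_sq (by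
    rw [pow_two]
    exact Nat.mul_dvd_mul hd dvd_rfl)
  haveI := Fermat.Agent.GK.SS.Modular.isDedekindDomain_CRing N' p A hA
  haveI := Fermat.Agent.GL.SmallQ.isFractionRing_CRing N' A
  intro hD₁ hD₂ harch γ₁ hγ₁ γ₂ hγ₂ Pl hjt
  have ejt : fresInclInv hpN hA (Fermat.Agent.GK.QS.jt N' A) = Fermat.Agent.GK.QS.jt (N' * p) A :=
    Subtype.ext (by
      rw [coe_fresInclInv, Fermat.Agent.GK.QS.coe_jt, Fermat.Agent.GK.QS.coe_jt])
  have hPl : ContainsC hpN hA Pl := containsC_of_jt_mem hpN hA Pl (by rw [ejt]; exact hjt)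
  obtain ⟨c₀, hc₀⟩ :=
    Fermat.Agent.GF.KCover.NodeMod.ValueJt.exists_valueAt_jt hpN hA Pl hPl
  obtain ⟨u, g1, hu0, hu, hg1, hg0, hK⟩ := hASK c₀
  obtain ⟨c, hc⟩ := nlPoint_mod h hpN hA T (fun h2 => absurd h2 hp2) h3 hν2 hν3 hσ
    hD₁ hD₂ hγ₁ hγ₂ Pl hPl hc₀ hu0 hu hg1 hg0 hK
  refine ⟨0, c, fun j hun y hy h1 h2 => ?_⟩
  have e : j + 0 = j := add_zero j
  have h1' : wOf T hD₁ hγ₁ j y = 0 := e ▸ h1
  have key := hc j y hy h1' h2
  rw [← nodeOrd_congr' (congrArg (sheet₁ T hA hD₁ hγ₁) e) (unram_sheet₁ T hA hD₁ hγ₁ j)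
    (unram_sheet₁ T hA hD₁ hγ₁ (j + 0))] at key
  exact key

/-- **variable-level twin of `nlAll_of_hyps` for every odd `p`** (`4 ∣ L`). -/
theorem nlAll_of_hyps_odd {L : ℕ} [NeZero L] {p : ℕ} [hpF : Fact p.Prime]
    {A : ValuationSubring Qb} {ζ : Qb} (h : ExactDvd p L) (hA : A.LiesOverPrime p) (hp2 : p ≠ 2)
    (h4 : 4 ∣ L) (T : TameDatum L p A ζ) (hσ : SigmaRel T) (hASK : ∀ c₀, ASK T h c₀) :
    NLAll T h := by
  have hp := hpF.out
  obtain ⟨N', rfl⟩ : ∃ N', L = N' * p := ⟨L / p, (Nat.div_mul_cancel h.dvd).symm⟩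
  haveI : NeZero N' := ⟨by rintro rfl; exact NeZero.ne (0 * p) (zero_mul p)⟩
  have hcop4 : Nat.Coprime 4 p := by
    have h2p : Nat.Coprime 2 p := by
      rw [Nat.coprime_comm, hp.coprime_iff_not_dvd]
      intro hd
      exact hp2 ((Nat.prime_dvd_prime_iff_eq hp Nat.prime_two).mp hd)
    exact Nat.Coprime.pow_left 2 h2p
  have h4' : 4 ∣ N' := hcop4.dvd_of_dvd_mul_right h4
  exact nlAll_rigid h hA hp2 (fun _ => dvd_trans ⟨2, rfl⟩ h4')
    (Fermat.Agent.GB.A4.LevelFour.nuTwo_eq_zero_of_four_dvd h4')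
    (Fermat.Agent.GB.A4.LevelFour.nuThree_eq_zero_of_two_dvd (dvd_trans ⟨2, rfl⟩ h4')) T hσ hASK

end Fermat.Agent.GE8.LLP.NlAllRigid

end
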