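/-
S59 PRE-WORK / E8.4 LLP at `p = 3`, slice (a), file 4 (helper91, second seat of helper17):
**the modular per-place theorem on the NODE-LOCAL subgroup** — helper62's
`NlAllOfHyps.nlPoint_mod` VERBATIM with

  `(UsInst.Us T, TameUs.exists_tame_action, HhorToE.hhor_toE_at_point)`
    ↦ `(UsLoc T (locSub F₀ 𝔫), UsLoc.exists_tame_action_loc, HhorLoc.hhor_locSub_loc)`,

`𝔫 := centreP h hpN hA (primeL hpN hA Pl hPl)` the centre of the place `Pl` on the finite chart.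
The engine `NlPointDataK0.nl_point_data_K0` (helper75) is abstract in `Us`, so nothing else
changes.  `p`-free (`h2 h3 hν2 hν3`), level `N' * p` literal.

* **`nlPoint_mod_loc`** : `∃ c, ∀ k, ∀ y ∈ UsLoc T (locSub F₀ 𝔫), wOf … k y = 0 →
  wOf … (k + c) y = 0 → p ∣ nodeOrd (sheet₁ T hA hD₁ hγ₁ k) … Pl _ y`
  = the binder `NL s` of `F2Local.const_of_nodes_local` for `Us s j := UsLoc T (locSub F₀ 𝔫_s)`,
  `(as s, bs s) := (0, c)`.
-/
import Fermat.Agent.GF.KCover.NodeMod.NlAllOfHyps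
import Fermat.Agent.GE8.LLP.HhorLoc

set_option autoImplicit false
set_option linter.unusedSectionVars false
set_option linter.unusedVariables false
set_option linter.style.haveILetI false

noncomputable section

open Polynomial AlgebraicCurve

namespace Fermat.Agent.GE8.LLP.NlPointLoc

open ModularCurve IsLocalRing IsDedekindDomain
open Fermat.Agent.GL.Val.GaussK0 Fermat.Agent.GL.Val.SecondK0
open Fermat.Agent.GJ.KumGroup Fermat.Agent.GJ.J1 Fermat.Agent.GJ.J1.Val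
open Fermat.Agent.GK.AL Fermat.Agent.GL.AL Fermat.Agent.GK.QS Fermat.Agent.GK.SS
open Fermat.Agent.Common_helper32
open Fermat.Agent.S24 Fermat.Agent.S24_helper6
open Fermat.Agent.GF.Trop
open Fermat.Agent.GL.BRingK0 Fermat.Agent.GL.BRingChart Fermat.Agent.GL.Thick
open Fermat.Agent.GL.KrullHeightOne
open Fermat.Agent.GF.KCover.Node Fermat.Agent.GF.KCover.Node.NodeRingK0Pkg
open Fermat.Agent.GF.KCover.Node.NodeRingK0Level
open Fermat.Agent.GF.KCover.Field Fermat.Agent.GF.KCover.Field.Disc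
  Fermat.Agent.GF.KCover.Field.Pack
open Fermat.Agent.GF.KCover.Compl Fermat.Agent.GF.KCover.Compl.Bridge
  Fermat.Agent.GF.KCover.Compl.RedCompl Fermat.Agent.GF.KCover.Compl.RedAut
  Fermat.Agent.GF.KCover.Compl.BridgeTau
open Fermat.Agent.GF.KCover.Node.OrdRedExt
  Fermat.Agent.GF.KCover.Node.NlNode Fermat.Agent.GF.KCover.Node.NlNodeSheets
  Fermat.Agent.GF.KCover.Node.NlNodeData

attribute [local instance] Fermat.Agent.GL.Frame.InstK0.algSubringFullC

local notation "Qb" => AlgebraicClosure ℚ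
local notation "GQ" => (AlgebraicClosure ℚ ≃ₐ[ℚ] AlgebraicClosure ℚ)

open Fermat.Agent.GF.KCover.NodeMod Fermat.Agent.GF.KCover.NodeMod.NlAllOfHyps
open Fermat.Agent.GE8.LLP.UsLoc

/-! ### the per-place theorem at the level `N' * p`, node-local subgroup -/

section Mod

open Fermat.Agent.GF.F2Asm.KummerExt Fermat.Agent.GF.F2Asm.Inst Fermat.Agent.GF.KCover
open Fermat.Agent.GF.Peu Fermat.Agent.GF.F2Asm
open Fermat.Agent.GF.KCover.Field.WDataOf Fermat.Agent.GF.KCover.Field.RescaleMod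
open Fermat.Agent.GF.KCover.Field.RescaleRaw
open Fermat.Agent.GF.KCover.Compl.SheetsMod
open Fermat.Agent.GF.KCover.Int Fermat.Agent.GF.KCover.Int.TameLift
open Fermat.Agent.GF.KCover.Int.K0Model
open Fermat.Agent.GF.KCover.ASNode.KrullUp
open Fermat.Agent.GB.A4.FrameTwo

attribute [local instance] actFK algE'

variable {A : ValuationSubring Qb} {N' : ℕ} [NeZero N'] {p : ℕ} [hpF : Fact p.Prime] [NeZero p]
  (h : ExactDvd p (N' * p)) (hpN : ¬ p ∣ N') (hA : A.LiesOverPrime p)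

variable [IsDedekindDomain (CRing N' A)] [IsFractionRing (CRing N' A) (FresBar N' A)]

variable {ζ : Qb} (T : TameDatum (N' * p) p A ζ)

variable [IsFractionRing (BRingK0 N' p A h) (modularFunctionFieldFullC (K0 A) (N' * p))]

local notation "F0" => modularFunctionFieldFullC (K0 A) (N' * p)

set_option maxHeartbeats 8000000 in
/-- **The modular per-place theorem at the level `N' * p` on the node-local subgroup**, every
binder of `nl_point_data_K0` discharged. -/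
theorem nlPoint_mod_loc (h2 : p = 2 → 3 ∣ N') (h3 : p = 3 → 2 ∣ N')
    (hν2 : nuTwo N' = 0) (hν3 : nuThree N' = 0)
    (hσ : SigmaRel T)
    -- the two Gauss valuations of the cover frame
    (hD₁ : IsDisc (valF₁ T (Fermat.Agent.GK.SS.galVal1 (N' * p) A)) (ϖ₁ T))
    (hD₂ : IsDisc (valF₁ T (Fermat.Agent.GK.SS.galVal2 (N' * p) A h)) (ϖ₁ T))
    {γ₁ : Pack.Lc hD₁} (hγ₁ : γ₁ ^ p = Pack.jc hD₁ (g₁ T))
    {γ₂ : Pack.Lc hD₂} (hγ₂ : γ₂ ^ p = Pack.jc hD₂ (g₁ T))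
    -- the place and its `j~`-value
    (Pl : Place (IsLocalRing.ResidueField A) (FresBar (N' * p) A))
    (hPl : ContainsC hpN hA Pl)
    {c₀ : IsLocalRing.ResidueField A}
    (hc₀ : Fermat.Agent.GK.NodalGraded.ValueAt Pl
      (fresInclInv hpN hA (Fermat.Agent.GK.QS.jt N' A)) c₀)
    -- the raw Artin–Schreier datum with its Krull input at `c₀`
    {u g1 : FK (N' * p)} (hu0 : u ≠ 0) (hu : u ∈ F₁ (N' * p) A ζ) (hg1 : g1 ∈ F₁ (N' * p) A ζ)
    (hg0 : T.g₀ = u ^ p * (1 + algebraMap Qb (FK (N' * p)) ((ζ - 1) ^ p) * g1))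
    {Mg : Type*} [Group Mg] [Finite Mg] {χ : (Qb ≃ₐ[ℚ] Qb) →* Mg}
    (hK : KrullData A (N' * p) h χ c₀ g1) :
    ∃ c : ZMod p, ∀ k : ZMod p, ∀ y ∈ UsLoc T
        ((locSub F0 (centreP (A := A) h hpN hA (primeL hpN hA Pl hPl)) :
          Subalgebra (BRingK0 N' p A h) F0) : Set F0),
      wOf T hD₁ hγ₁ k y = 0 → wOf T hD₂ hγ₂ (k + c) y = 0 →
      (p : ℤ) ∣ nodeOrd (sheet₁ T hA hD₁ hγ₁ k) (unram_sheet₁ T hA hD₁ hγ₁ k) Pl
        (fixedUnits (tameGroup A ζ) T.Fp) y := by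
  have hp := hpF.out
  -- the tame generator
  obtain ⟨τ, hτ, ω, -, hgen⟩ := exists_tame_generator (A := A) hA T.prim
  obtain ⟨x, g, -, -, hxd, hx, hxδ, hact⟩ := exists_tame_action_loc hσ hA hτ
  obtain ⟨a, -, ha, -⟩ := hact ((locSub F0 (centreP (A := A) h hpN hA (primeL hpN hA Pl hPl)) :
    Subalgebra (BRingK0 N' p A h) F0) : Set F0)
  have hx1 : ∀ b, x (algebraMap (F₁ (N' * p) A ζ) (E' T) b) =
      algebraMap (F₁ (N' * p) A ζ) (E' T) (tauF₁ T hτ b) := fun b => hx b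
  have hτdec : τ ∈ A.decompositionSubgroup ℚ :=
    Fermat.Agent.S05.mem_decompositionSubgroup_of_mem_inertiaSubgroupIn hτ
  have hcop : Nat.Coprime (p - 1) p := by
    rw [Nat.coprime_comm, hp.coprime_iff_not_dvd]
    intro hdvd
    have := Nat.le_of_dvd (by have := hp.one_lt; omega) hdvd
    have := hp.one_lt
    omega
  have hv := vRaw_ne_zero hu0 hu
  have hrel := hrel_raw T hu0 hu hg1 hg0
  have hg₀ : (1 + cz T ^ p * gRaw hg1 : F₁ (N' * p) A ζ) ≠ 0 := by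
    rw [hrel]
    exact mul_ne_zero (g₁_ne_zero T) (pow_ne_zero _ hv)
  have hxd' : (x : E' T →+* E' T) ^ (p - 1) = 1 := by
    rw [ringEquiv_coe_pow', hxd]
    rfl
  have hxδ' : Commute (x : E' T →+* E' T) (deck (frameRaw T hu0 hu hg1 hg0) (ζ₁_prim T)) := by
    have e : deck (frameRaw T hu0 hu hg1 hg0) (ζ₁_prim T) = deck (isAdj' T) (ζ₁_prim T) :=
      deck_frameAS T hv hrel
    rw [e]
    exact hxδ
  -- the local ring of the chart at the centre of `Pl`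
  obtain ⟨i1, i2, i3, -⟩ := id (frame_BRingK0 h hA)
  haveI := i1
  haveI := i2
  haveI := i3
  haveI := K0Inst.isNoetherianRing_locSub (F := F0)
    (centreP (A := A) h hpN hA (primeL hpN hA Pl hPl))
  haveI := K0Inst.isIntegrallyClosed_locSub (F := F0)
    (centreP (A := A) h hpN hA (primeL hpN hA Pl hPl))
  letI := K0Inst.algF₀ T hτ hx
  letI := K0Inst.algR (R := locSub F0 (centreP (A := A) h hpN hA (primeL hpN hA Pl hPl))) T hτ hx
  haveI := K0Inst.tower_algR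
    (R := locSub F0 (centreP (A := A) h hpN hA (primeL hpN hA Pl hPl))) T hτ hx
  -- the `K₀`-model binders
  have hRA := K0Inst.hRA h hpN hA (centreP (A := A) h hpN hA (primeL hpN hA Pl hPl)) T
    (ker_redC1K0_le_centreP h hpN hA (primeL hpN hA Pl hPl))
  have hRB : IsNodeP h hpN hA (primeL hpN hA Pl hPl) → _ := fun hnode =>
    K0Inst.hRB h hpN hA (centreP (A := A) h hpN hA (primeL hpN hA Pl hPl)) T
      (ker_redC2K0_le_centreP h hpN hA (primeL hpN hA Pl hPl) hnode)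
  have hintg := HintF1.hintg_of_krullData h hpN hA hK Pl hPl hc₀
    (R := locSub F0 (centreP (A := A) h hpN hA (primeL hpN hA Pl hPl))) hg1
  -- `Z'` is integral on the sheet `0`, the tame trace, the rank
  have hz : ‖emb (frameRaw T hu0 hu hg1 hg0) (ζ₁_prim T) (jc hD₁)
      (rootRaw_pow T hu0 hu hg1 hg0 hD₁ hγ₁) 0 (Zraw T hu0 hu hg1 hg0)‖ ≤ 1 :=
    norm_emb_Z_le_one (redDataBar (N' * p) A) (F₁ (N' * p) A ζ).subtype (hincl₁ T) hD₁
      (harch₁ T hA) (frameRaw T hu0 hu hg1 hg0) (ζ₁_prim T) (rootRaw_pow T hu0 hu hg1 hg0 hD₁ hγ₁)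
      (frameRawb T hu0 hu hg1 hg0) (E' T).subtype (hincl'_AS T) (hroot_raw T hu0 hu hg1 hg0)
      (fixedTame x) (embF₁ (N' * p) A ζ) (fun _ => rfl) (ζ₁_eq T)
      (frameRaw_root_eq T hu0 hu hg1 hg0) rfl hintg hRA
  obtain ⟨θ₀, hθ₀⟩ : ∃ θ₀ : fixedTame x,
      (θ₀ : E' T) = TraceRes.traceTame x (p - 1) (Zraw T hu0 hu hg1 hg0) :=
    ⟨⟨_, TraceRes.traceTame_mem_fixedTame hxd _⟩, rfl⟩
  obtain ⟨hrank, hfin⟩ := K0Inst.hrank T hτ hx hgen hA hD₁ (frameRaw T hu0 hu hg1 hg0)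
    (rootRaw_pow T hu0 hu hg1 hg0 hD₁ hγ₁) hxδ' hg₀ hcop hxd' (tauF₁_pow T hτ) (ζ₁_eq T)
    (cz_ne_zero T) (valF₁_cz_lt_one T hA _) (frameRaw_root_eq T hu0 hu hg1 hg0) hz θ₀ hθ₀
  haveI : FiniteDimensional F0 (fixedTame x) := hfin
  -- the reductions of the sheets on the chart ring
  have hρB₁ : ∀ (i : ZMod p) (b : BRingK0 N' p A h)
      (hb : iotaE (E' T).subtype (fixedTame x)
          (algebraMap (locSub F0 (centreP (A := A) h hpN hA (primeL hpN hA Pl hPl))) (fixedTame x)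
            (algebraMap (BRingK0 N' p A h)
              (locSub F0 (centreP (A := A) h hpN hA (primeL hpN hA Pl hPl))) b)) ∈
        (sheetK (redDataBar (N' * p) A) (F₁ (N' * p) A ζ).subtype (hincl₁ T) hD₁ (harch₁ T hA)
          (ζ₁_prim T) (rootRaw_pow T hu0 hu hg1 hg0 hD₁ hγ₁) (frameRawb T hu0 hu hg1 hg0) i).Rw),
      (sheetK (redDataBar (N' * p) A) (F₁ (N' * p) A ζ).subtype (hincl₁ T) hD₁ (harch₁ T hA)
          (ζ₁_prim T) (rootRaw_pow T hu0 hu hg1 hg0 hD₁ hγ₁) (frameRawb T hu0 hu hg1 hg0) i).red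
          ⟨_, hb⟩ =
        fresInclInv hpN hA (algebraMap (CRing N' A) (FresBar N' A) (redC1K0 h hpN hA b)) := by
    intro i b hb
    letI := algCFres (ℓ := p) hpN hA
    exact RhoB.hρB₁_of_redExt' h hA hpN (fun c => coe_algebraMap_algCFres hpN hA c)
      (redExt_sheetK (redDataBar (N' * p) A) (F₁ (N' * p) A ζ).subtype (hincl₁ T) hD₁ (harch₁ T hA)
        (ζ₁_prim T) (rootRaw_pow T hu0 hu hg1 hg0 hD₁ hγ₁) (frameRawb T hu0 hu hg1 hg0) i)
      (fun b => iotaE (E' T).subtype (fixedTame x)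
          (algebraMap (locSub F0 (centreP (A := A) h hpN hA (primeL hpN hA Pl hPl))) (fixedTame x)
            (algebraMap (BRingK0 N' p A h)
              (locSub F0 (centreP (A := A) h hpN hA (primeL hpN hA Pl hPl))) b)))
      (fun b => rfl) b hb
  have hρB₂ : IsNodeP h hpN hA (primeL hpN hA Pl hPl) → ∀ (i : ZMod p) (b : BRingK0 N' p A h)
      (hb : iotaE (E' T).subtype (fixedTame x)
          (algebraMap (locSub F0 (centreP (A := A) h hpN hA (primeL hpN hA Pl hPl))) (fixedTame x)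
            (algebraMap (BRingK0 N' p A h)
              (locSub F0 (centreP (A := A) h hpN hA (primeL hpN hA Pl hPl))) b)) ∈
        (sheetK (redData2 (N' * p) A h) (F₁ (N' * p) A ζ).subtype (hincl₂ T h) hD₂ (harch₂ T h hA)
          (ζ₁_prim T) (rootRaw_pow T hu0 hu hg1 hg0 hD₂ hγ₂) (frameRawb T hu0 hu hg1 hg0) i).Rw),
      (sheetK (redData2 (N' * p) A h) (F₁ (N' * p) A ζ).subtype (hincl₂ T h) hD₂ (harch₂ T h hA)
          (ζ₁_prim T) (rootRaw_pow T hu0 hu hg1 hg0 hD₂ hγ₂) (frameRawb T hu0 hu hg1 hg0) i).red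
          ⟨_, hb⟩ =
        fresInclInv hpN hA (algebraMap (CRing N' A) (FresBar N' A) (redC2K0 h hpN hA b)) := by
    intro _ i b hb
    letI := algCFres (ℓ := p) hpN hA
    exact RhoB.hρB₂_of_redExt' h hA hpN (fun c => coe_algebraMap_algCFres hpN hA c)
      (redExt_sheetK (redData2 (N' * p) A h) (F₁ (N' * p) A ζ).subtype (hincl₂ T h) hD₂
        (harch₂ T h hA) (ζ₁_prim T) (rootRaw_pow T hu0 hu hg1 hg0 hD₂ hγ₂)
        (frameRawb T hu0 hu hg1 hg0) i)
      (fun b => iotaE (E' T).subtype (fixedTame x)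
          (algebraMap (locSub F0 (centreP (A := A) h hpN hA (primeL hpN hA Pl hPl))) (fixedTame x)
            (algebraMap (BRingK0 N' p A h)
              (locSub F0 (centreP (A := A) h hpN hA (primeL hpN hA Pl hPl))) b)))
      (fun b => rfl) b hb
  -- the horizontal primes
  have hhor := HhorLoc.hhor_locSub_loc h T hτ hx
    (centreP (A := A) h hpN hA (primeL hpN hA Pl hPl)) hA hgen hrank θ₀
  -- the engine
  obtain ⟨c, hc⟩ := NlPointDataK0.nl_point_data_K0 h hpN hA (redDataBar (N' * p) A)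
    (redData2 (N' * p) A h) (F₁ (N' * p) A ζ).subtype (hincl₁ T) (hincl₂ T h) hD₁ hD₂
    (harch₁ T hA) (harch₂ T h hA) (frameRaw T hu0 hu hg1 hg0) (ζ₁_prim T)
    (rootRaw_pow T hu0 hu hg1 hg0 hD₁ hγ₁) (rootRaw_pow T hu0 hu hg1 hg0 hD₂ hγ₂)
    (frameRawb T hu0 hu hg1 hg0) (E' T).subtype (hincl'_AS T) (hroot_raw T hu0 hu hg1 hg0)
    h2 h3 hν2 hν3 Pl hPl
    (Fermat.Agent.GS.F.unram_redDataBar (N' * p) A)
    (tauF₁ T hτ) (valF₁_tauF₁ T hτ hA _) (valF₁_tauF₁ T hτ hA _)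
    (InertialMod.sig (N' * p) τ) (InertialMod.hσ₁ (N' * p) A hp hA hτdec)
    (InertialMod.hσ₂ (N' * p) A h hA hτdec)
    (InertialMod.hσK (N' * p) τ) (InertialMod.hres₁ (N' * p) A hp hA hτ)
    (InertialMod.hres₂ (N' * p) A h hA hτ)
    (fun b => coe_tauF₁ T hτ b) hx hxδ' hg₀ hcop hxd' (tauF₁_pow T hτ)
    (TameLift.hF T hτ hA _) (TameLift.hF T hτ hA _)
    (fixedTame x) (fun _ => mem_fixedTame) (embF₁ (N' * p) A ζ) (fun _ => rfl) hrank
    (exists_embF₁_of_fixed T hτ hgen) (tauF₁_embF₁ T hτ)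
    (fixedUnits (tameGroup A ζ) T.Fp) (UsLoc T
      ((locSub F0 (centreP (A := A) h hpN hA (primeL hpN hA Pl hPl)) :
        Subalgebra (BRingK0 N' p A h) F0) : Set F0)) a (toE' T) (coe_toE' T) (toE'_mul T) ha
    (ζ₁_eq T) (cz_ne_zero T) (valF₁_cz_lt_one T hA _) (valF₁_cz_lt_one T hA _)
    (frameRaw_root_eq T hu0 hu hg1 hg0) rfl hintg
    (RescaleSheets.val_gRaw_le_one₁ T hg1 hK.mem1) (RescaleSheets.val_gRaw_le_one₂ T h hg1 hK.mem2)
    θ₀ hθ₀ (RescaleSheets.val_natCast_lt_one₁ T hA) (RescaleSheets.val_natCast_lt_one₂ T h hA)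
    hRA hRB hρB₁ hρB₂ hhor
  refine ⟨c, fun k y hy hy1 hy2 => ?_⟩
  rw [← RescaleSheets.nodeOrd_sheet₁_frameRawb T hu0 hu hg1 hg0 hA hD₁ hγ₁ Pl
    (fixedUnits (tameGroup A ζ) T.Fp) y k]
  exact hc k y hy ((wOf_eq_wv_frameRaw T hu0 hu hg1 hg0 hD₁ hγ₁ k y).symm.trans hy1)
    ((wOf_eq_wv_frameRaw T hu0 hu hg1 hg0 hD₂ hγ₂ (k + c) y).symm.trans hy2)

end Mod

end Fermat.Agent.GE8.LLP.NlPointLoc

end
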