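/-
GATE-E (S59) / E8.4-ORD slice (a), FINAL ASSEMBLY (helper62): **the node-local package
`Inner.NodeLocal` at a place from its parts**, on an ARBITRARY subgroup `U ⊇ Us T` of the
`K'`-rational units of the tame cover.

`Inner.NodeLocal hpM' hA T hD₁ hD₂ hγ₁ hγ₂ Pl κ` (helper17, `GE8/LLP/Inner`) asks for a subgroup
`U ⊇ Us T`, a shift `c`, test units `θ k ∈ U` with `(w₁ k, w₂ (k + c), nodeOrd_k) (θ k) = (0, Tt, N0)`,
`N0 ≢ 0`, `Tt ≡ κ N0 (p)`, and the node lemma NL on `U`.  Here: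

* `HhorU`  : the horizontal-divisor binder of helper75's `NlPointU2.nl_point_loc_U'` over `U`, as a
  named `Prop` (it unfolds to that binder VERBATIM);
* `TameHor` : the tame-action + horizontal-divisor package of `U` at `Pl`: for every tame generator
  `τ` an automorphism `x` of `E'` over `τ`, commuting with the deck group, of order `∣ p − 1`,
  acting on `U`, with `HhorU` (= what `UsLoc.exists_tame_action_loc` + `HhorLoc.hhor_locSub_loc`
  deliver at `U := UsLoc T (locSub F₀ 𝔫)`; at `U := Us T` it is `TameUs.exists_tame_action` +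
  `HhorK0Inst.hhor_locSub`, see `tameHor_Us`);
* **`nl_of_tameHor`** : NL on `U` at `Pl` from `SigmaRel`-free inputs: `∀ c₀, ASK T h c₀` and
  `TameHor` (the chain `exists_valueAt_jt → ASK c₀ → RescaleRaw → exists_tame_generator →
  nl_point_loc_U'`);
* **`nodeLocal_of_parts`** : `Inner.NodeLocal` from `TameHor` and ONE test unit `θ ∈ U` whose three
  invariants do not depend on the sheet (as for the `K₀`-rational units of helper56's
  `ThetaVal`/`ThetaVal2`).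
-/
import Fermat.Agent.GE8.LLP.Inner
import Fermat.Agent.GE8.LLP.NlPointU2

set_option autoImplicit false
set_option linter.unusedSectionVars false
set_option linter.unusedVariables false
set_option linter.style.haveILetI false

noncomputable section

open Polynomial AlgebraicCurve

namespace Fermat.Agent.GE8.LLP.NodeLocalInst

open Fermat.Agent.GF Fermat.Agent.GF.KCover Fermat.Agent.GF.KCover.NodeMod

open ModularCurve IsLocalRing IsDedekindDomain
open Fermat.Agent.GL.Val.GaussK0 Fermat.Agent.GL.Val.SecondK0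
open Fermat.Agent.GJ.KumGroup Fermat.Agent.GJ.J1 Fermat.Agent.GJ.J1.Val
open Fermat.Agent.GK.AL Fermat.Agent.GL.AL Fermat.Agent.GK.QS Fermat.Agent.GK.SS
open Fermat.Agent.Common_helper32
open Fermat.Agent.S24 Fermat.Agent.S24_helper6
open Fermat.Agent.GF.Trop
open Fermat.Agent.GL.BRingK0 Fermat.Agent.GL.BRingChart Fermat.Agent.GL.Thick
open Fermat.Agent.GL.KrullHeightOne
open Fermat.Agent.GF.KCover.Node Fermat.Agent.GF.KCover.Node.NodeRingK0Pkg
open Fermat.Agent.GF.KCover.Node.NodeRingK0Level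
open Fermat.Agent.GF.KCover.Field Fermat.Agent.GF.KCover.Field.Disc
  Fermat.Agent.GF.KCover.Field.Pack
open Fermat.Agent.GF.KCover.Compl Fermat.Agent.GF.KCover.Compl.Bridge
  Fermat.Agent.GF.KCover.Compl.RedCompl Fermat.Agent.GF.KCover.Compl.RedAut
  Fermat.Agent.GF.KCover.Compl.BridgeTau
open Fermat.Agent.GF.KCover.Node.OrdRedExt
  Fermat.Agent.GF.KCover.Node.NlNode Fermat.Agent.GF.KCover.Node.NlNodeSheets
open Fermat.Agent.GF.KCover.ASNode Fermat.Agent.GF.KCover.ASNode.KrullUp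

attribute [local instance] Fermat.Agent.GL.Frame.InstK0.algSubringFullC

local notation "Qb" => AlgebraicClosure ℚ
local notation "GQ" => (AlgebraicClosure ℚ ≃ₐ[ℚ] AlgebraicClosure ℚ)

open Fermat.Agent.GF.F2Asm.KummerExt Fermat.Agent.GF.F2Asm.Inst Fermat.Agent.GF.KCover
open Fermat.Agent.GF.Peu Fermat.Agent.GF.F2Asm
open Fermat.Agent.GF.KCover.Field.WDataOf Fermat.Agent.GF.KCover.Field.RescaleMod
open Fermat.Agent.GF.KCover.Field.RescaleRaw
open Fermat.Agent.GF.KCover.Compl.SheetsMod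
open Fermat.Agent.GF.KCover.Int Fermat.Agent.GF.KCover.Int.TameLift
open Fermat.Agent.GF.KCover.Int.K0Model
open Fermat.Agent.GF.KCover.NodeMod.ASKDef

attribute [local instance] actFK algE'

variable {A : ValuationSubring Qb} {N' : ℕ} [NeZero N'] {p : ℕ} [hpF : Fact p.Prime] [NeZero p]
  (h : ExactDvd p (N' * p)) (hpN : ¬ p ∣ N') (hA : A.LiesOverPrime p)

variable [IsDedekindDomain (CRing N' A)] [IsFractionRing (CRing N' A) (FresBar N' A)]

variable {ζ : Qb} (T : TameDatum (N' * p) p A ζ)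

local notation "F0" => modularFunctionFieldFullC (K0 A) (N' * p)

/-! ### the two packages -/

/-- **the horizontal-divisor binder of `NlPointU2.nl_point_loc_U'` over a subgroup `U`** (it
RECEIVES the rank `hrank`): every `u ∈ U` is, up to a `p`-th power, a unit at every discrete
valuation ring of the `K₀`-model `fixedTame x` lying over the local ring of the chart at the centre
of `Pl` and containing `ℓ⁻¹`. -/
def HhorU [IsFractionRing (BRingK0 N' p A h) F0]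
    (U : Subgroup (fixedUnits (tameGroup A ζ) T.Fp))
    (Pl : Place (IsLocalRing.ResidueField A) (FresBar (N' * p) A)) (hPl : ContainsC hpN hA Pl)
    {τ : GQ} (hτ : τ ∈ A.inertiaSubgroupIn ℚ) {x : E' T ≃+* E' T}
    (hx : IsOver (x : E' T →+* E' T)
      ((tauF₁ T hτ : F₁ (N' * p) A ζ ≃+* F₁ (N' * p) A ζ) :
        F₁ (N' * p) A ζ →+* F₁ (N' * p) A ζ)) : Prop :=
  letI := K0Inst.algF₀ T hτ hx
  letI := K0Inst.algR
      (R := locSub F0 (centreP (A := A) h hpN hA (primeL hpN hA Pl hPl))) T hτ hx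
  Module.finrank F0 (fixedTame x) = p →
  ∀ (θ₀ : fixedTame x) (u : U) (u₀ : fixedTame x),
  toE' T (u : fixedUnits (tameGroup A ζ) T.Fp) = (u₀ : E' T) →
  ∀ V : ValuationSubring (fixedTame x), IsDiscreteValuationRing V →
  (∀ r : locSub F0 (centreP (A := A) h hpN hA (primeL hpN hA Pl hPl)),
    algebraMap (locSub F0 (centreP (A := A) h hpN hA (primeL hpN hA Pl hPl)))
      (fixedTame x) r ∈ V) → θ₀ ∈ V →
  (algebraMap (locSub F0 (centreP (A := A) h hpN hA (primeL hpN hA Pl hPl))) (fixedTame x)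
    (algebraMap (BRingK0 N' p A h)
      (locSub F0 (centreP (A := A) h hpN hA (primeL hpN hA Pl hPl)))
      (NodeRingK0.ellB h)))⁻¹ ∈ V →
  ∃ z : fixedTame x, z ≠ 0 ∧ u₀ * z ^ p ∈ V ∧ (u₀ * z ^ p)⁻¹ ∈ V

/-- **the tame-action + horizontal-divisor package of a subgroup `U` at the place `Pl`**: for every
tame generator `τ` of the inertia group, an automorphism `x` of `E'` over `τ`, commuting with the
deck group, with `x ^ (p − 1) = 1`, acting on `U` through `toE'`, and `HhorU`. -/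
def TameHor [IsFractionRing (BRingK0 N' p A h) F0]
    (U : Subgroup (fixedUnits (tameGroup A ζ) T.Fp))
    (Pl : Place (IsLocalRing.ResidueField A) (FresBar (N' * p) A)) (hPl : ContainsC hpN hA Pl) :
    Prop :=
  ∀ (τ : GQ) (hτ : τ ∈ A.inertiaSubgroupIn ℚ),
    (∀ σ ∈ A.inertiaSubgroupIn ℚ, ∃ m : ℕ, IsTameFix A ζ ((τ ^ m)⁻¹ * σ)) →
    ∃ (x : E' T ≃+* E' T)
      (hx : IsOver (x : E' T →+* E' T)
        ((tauF₁ T hτ : F₁ (N' * p) A ζ ≃+* F₁ (N' * p) A ζ) :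
          F₁ (N' * p) A ζ →+* F₁ (N' * p) A ζ)),
      Commute (x : E' T →+* E' T) (deck (isAdj' T) (ζ₁_prim T)) ∧ x ^ (p - 1) = 1 ∧
      (∃ a : U →* U, ∀ u : U, toE' T (a u : fixedUnits (tameGroup A ζ) T.Fp)
        = x (toE' T (u : fixedUnits (tameGroup A ζ) T.Fp))) ∧
      HhorU h hpN hA T U Pl hPl hτ hx

/-! ### NL on `U` -/

set_option maxHeartbeats 4000000 in
/-- **the node lemma on a subgroup `U` at a finite place `Pl`** from the `c₀`-parametric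
Artin–Schreier + Krull input and the package `TameHor`. -/
theorem nl_of_tameHor [IsFractionRing (BRingK0 N' p A h) F0]
    (h2 : p = 2 → 3 ∣ N') (h3 : p = 3 → 2 ∣ N')
    (hν2 : nuTwo N' = 0) (hν3 : nuThree N' = 0)
    (hASK : ∀ c₀, ASK T h c₀)
    (hD₁ : IsDisc (valF₁ T (Fermat.Agent.GK.SS.galVal1 (N' * p) A)) (ϖ₁ T))
    (hD₂ : IsDisc (valF₁ T (Fermat.Agent.GK.SS.galVal2 (N' * p) A h)) (ϖ₁ T))
    {γ₁ : Pack.Lc hD₁} (hγ₁ : γ₁ ^ p = Pack.jc hD₁ (g₁ T))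
    {γ₂ : Pack.Lc hD₂} (hγ₂ : γ₂ ^ p = Pack.jc hD₂ (g₁ T))
    (Pl : Place (IsLocalRing.ResidueField A) (FresBar (N' * p) A)) (hPl : ContainsC hpN hA Pl)
    (U : Subgroup (fixedUnits (tameGroup A ζ) T.Fp))
    (hTH : TameHor h hpN hA T U Pl hPl) :
    ∃ c : ZMod p, ∀ k : ZMod p, ∀ y ∈ U,
      wOf T hD₁ hγ₁ k y = 0 → wOf T hD₂ hγ₂ (k + c) y = 0 →
      (p : ℤ) ∣ nodeOrd (sheet₁ T hA hD₁ hγ₁ k) (unram_sheet₁ T hA hD₁ hγ₁ k) Pl
        (fixedUnits (tameGroup A ζ) T.Fp) y := by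
  obtain ⟨c₀, hc₀⟩ := ValueJt.exists_valueAt_jt hpN hA Pl hPl
  obtain ⟨u, g1, hu0, hu, hg1, hg0, hK⟩ := hASK c₀
  obtain ⟨τ, hτ, ω, -, hgen⟩ := exists_tame_generator (A := A) hA T.prim
  obtain ⟨x, hx, hxδ, hxd, ⟨a, ha⟩, hhor⟩ := hTH τ hτ hgen
  exact NlPointU2.nl_point_loc_U' h hpN hA T h2 h3 hν2 hν3 hD₁ hD₂ hγ₁ hγ₂
    (vRaw_ne_zero hu0 hu) (hrel_raw T hu0 hu hg1 hg0) hK hτ hgen hx hxδ hxd U a ha Pl hPl hc₀ hhor

/-- **plug test / instance at `U := Us T`**: `TameHor` from helper56's `TameUs.exists_tame_action`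
and helper57's `HhorK0Inst.hhor_locSub`. -/
theorem tameHor_Us [IsFractionRing (BRingK0 N' p A h) F0] (hσ : SigmaRel T)
    (Pl : Place (IsLocalRing.ResidueField A) (FresBar (N' * p) A)) (hPl : ContainsC hpN hA Pl) :
    TameHor h hpN hA T (UsInst.Us T) Pl hPl := by
  intro τ hτ hgen
  obtain ⟨a, x, g, -, -, ha, -, -, -, -, -, -, hxd, hx, hxδ⟩ :=
    TameUs.exists_tame_action hσ hA hτ
  exact ⟨x, hx, hxδ, hxd, ⟨a, ha⟩, fun hrank θ₀ =>
    HhorK0Inst.hhor_locSub h T hτ hx _ hA hgen hrank θ₀⟩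

/-! ### the node-local package -/

/-- **`Inner.NodeLocal` at a place from its parts**: a subgroup `U ⊇ Us T` with the package
`TameHor`, and ONE test unit `θ ∈ U` with sheet-independent invariants
`(w₁, w₂, nodeOrd) θ = (0, Tt, N0)`, `N0 ≢ 0`, `Tt ≡ κ N0 (p)`. -/
theorem nodeLocal_of_parts {M' : ℕ} [NeZero M'] (hpM' : ¬ p ∣ M')
    [IsDedekindDomain (CRing M' A)] [IsFractionRing (CRing M' A) (FresBar M' A)]
    {T : TameDatum (M' * p) p A ζ}
    [IsFractionRing (BRingK0 M' p A (Fermat.Agent.GF.Setup.S0.exactDvd hpM'))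
      (modularFunctionFieldFullC (K0 A) (M' * p))]
    (h2 : p = 2 → 3 ∣ M') (h3 : p = 3 → 2 ∣ M')
    (hν2 : nuTwo M' = 0) (hν3 : nuThree M' = 0)
    (hASK : ∀ c₀, ASK T (Fermat.Agent.GF.Setup.S0.exactDvd hpM') c₀)
    (hD₁ : IsDisc (valF₁ T (Fermat.Agent.GK.SS.galVal1 (M' * p) A)) (ϖ₁ T))
    (hD₂ : IsDisc (valF₁ T (Fermat.Agent.GK.SS.galVal2 (M' * p) A
      (Fermat.Agent.GF.Setup.S0.exactDvd hpM'))) (ϖ₁ T))
    {γ₁ : Pack.Lc hD₁} (hγ₁ : γ₁ ^ p = Pack.jc hD₁ (g₁ T))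
    {γ₂ : Pack.Lc hD₂} (hγ₂ : γ₂ ^ p = Pack.jc hD₂ (g₁ T))
    (Pl : Place (IsLocalRing.ResidueField A) (FresBar (M' * p) A)) (hPl : ContainsC hpM' hA Pl)
    (U : Subgroup (fixedUnits (tameGroup A ζ) T.Fp)) (hU : UsInst.Us T ≤ U)
    (hTH : TameHor (Fermat.Agent.GF.Setup.S0.exactDvd hpM') hpM' hA T U Pl hPl)
    (θ : fixedUnits (tameGroup A ζ) T.Fp) (hθU : θ ∈ U) (Tt N0 : ℤ)
    (hθ1 : ∀ k, wOf T hD₁ hγ₁ k θ = 0) (hθ2 : ∀ k, wOf T hD₂ hγ₂ k θ = Tt)
    (hθn : ∀ k, nodeOrd (sheet₁ T hA hD₁ hγ₁ k) (unram_sheet₁ T hA hD₁ hγ₁ k) Pl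
      (fixedUnits (tameGroup A ζ) T.Fp) θ = N0)
    (hN0 : ((N0 : ℤ) : ZMod p) ≠ 0) (κ : ZMod p)
    (hTκ : ((Tt : ℤ) : ZMod p) = κ * ((N0 : ℤ) : ZMod p)) :
    Inner.NodeLocal hpM' hA T hD₁ hD₂ hγ₁ hγ₂ Pl κ := by
  obtain ⟨c, hc⟩ := nl_of_tameHor (Fermat.Agent.GF.Setup.S0.exactDvd hpM') hpM' hA T h2 h3 hν2 hν3
    hASK hD₁ hD₂ hγ₁ hγ₂ Pl hPl U hTH
  exact ⟨U, c, fun _ => θ, Tt, N0, hU, fun _ => hθU, hθ1, fun k => hθ2 (k + c), hθn, hN0, hTκ, hc⟩

end Fermat.Agent.GE8.LLP.NodeLocalInst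

end
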