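/-
GATE-E (S59) / E8.4-ORD slice (a), FINAL ASSEMBLY part C (helper62): **`Inner.NodeLocalStmt p` for
every odd prime `p`** — the last open Prop of E8.4 (helper17 `OrdClosed`: E8.4 ⟸ `NodeLocalStmt p`
alone).

At a frame node `P s` of a rigid level `M' p`:
* `U := UsLoc T (locSub F₀ 𝔫)`, `𝔫 := centreP (primeL (P s))` (helper91 `UsLoc`), `Us T ≤ U`
  because `j ∈ B ⊆ B_𝔫`;
* `TameHor` on `U` := helper91's `UsLoc.exists_tame_action_loc` + `HhorLoc.hhor_locSub_loc`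
  (`tameHor_UsLoc`);
* the test unit `θ` with `(w₁, w₂, nodeOrd) = (0, p − 1, 1)` on every sheet := helper91's
  `ThetaLocal.exists_theta_local` (helper56's `ThetaVal3.exists_theta_point` is the twin);
* `κ = −1`;
* NL on `U` := `NodeLocalInst.nl_of_tameHor` (helper75 `nl_point_loc_U'`).
-/
import Fermat.Agent.GE8.LLP.NodeLocalInst
import Fermat.Agent.GE8.LLP.HhorLoc
import Fermat.Agent.GE8.LLP.ThetaLocal

set_option autoImplicit false
set_option linter.unusedSectionVars false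
set_option linter.unusedVariables false
set_option linter.style.haveILetI false

noncomputable section

open Polynomial AlgebraicCurve

namespace Fermat.Agent.GE8.LLP.NodeLocalFinal

open Fermat.Agent.GF Fermat.Agent.GF.KCover Fermat.Agent.GF.KCover.NodeMod

open ModularCurve IsLocalRing IsDedekindDomain
open Fermat.Agent.GL.Val.GaussK0 Fermat.Agent.GL.Val.SecondK0
open Fermat.Agent.GJ.KumGroup Fermat.Agent.GJ.J1 Fermat.Agent.GJ.J1.Val
open Fermat.Agent.GK.AL Fermat.Agent.GL.AL Fermat.Agent.GK.QS Fermat.Agent.GK.SS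
open Fermat.Agent.Common_helper32
open Fermat.Agent.S24 Fermat.Agent.S24_helper6
open Fermat.Agent.GF.Trop
open Fermat.Agent.GL.BRingK0 Fermat.Agent.GL.BRingChart Fermat.Agent.GL.Thick
open Fermat.Agent.GL.KrullHeightOne
open Fermat.Agent.GF.KCover.Node Fermat.Agent.GF.KCover.Node.NodeRingK0Pkg
open Fermat.Agent.GF.KCover.Node.NodeRingK0Level
open Fermat.Agent.GF.KCover.Field Fermat.Agent.GF.KCover.Field.Disc
  Fermat.Agent.GF.KCover.Field.Pack
open Fermat.Agent.GF.KCover.Compl Fermat.Agent.GF.KCover.Compl.Bridge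
  Fermat.Agent.GF.KCover.Compl.RedCompl Fermat.Agent.GF.KCover.Compl.RedAut
  Fermat.Agent.GF.KCover.Compl.BridgeTau
open Fermat.Agent.GF.KCover.Node.OrdRedExt
  Fermat.Agent.GF.KCover.Node.NlNode Fermat.Agent.GF.KCover.Node.NlNodeSheets
open Fermat.Agent.GF.KCover.ASNode Fermat.Agent.GF.KCover.ASNode.KrullUp

attribute [local instance] Fermat.Agent.GL.Frame.InstK0.algSubringFullC

local notation "Qb" => AlgebraicClosure ℚ
local notation "GQ" => (AlgebraicClosure ℚ ≃ₐ[ℚ] AlgebraicClosure ℚ)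

open Fermat.Agent.GF.F2Asm.KummerExt Fermat.Agent.GF.F2Asm.Inst Fermat.Agent.GF.KCover
open Fermat.Agent.GF.Peu Fermat.Agent.GF.F2Asm
open Fermat.Agent.GF.KCover.Field.WDataOf Fermat.Agent.GF.KCover.Field.RescaleMod
open Fermat.Agent.GF.KCover.Compl.SheetsMod
open Fermat.Agent.GF.KCover.Int Fermat.Agent.GF.KCover.Int.TameLift
open Fermat.Agent.GF.KCover.Int.K0Model
open Fermat.Agent.GF.KCover.NodeMod.ASKDef
open Fermat.Agent.GE8.LLP.UsLoc Fermat.Agent.GE8.LLP.NodeLocalInst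

attribute [local instance] actFK algE'

section Point

variable {A : ValuationSubring Qb} {N' : ℕ} [NeZero N'] {p : ℕ} [hpF : Fact p.Prime] [NeZero p]
  (h : ExactDvd p (N' * p)) (hpN : ¬ p ∣ N') (hA : A.LiesOverPrime p)

variable [IsDedekindDomain (CRing N' A)] [IsFractionRing (CRing N' A) (FresBar N' A)]

variable {ζ : Qb} (T : TameDatum (N' * p) p A ζ)

local notation "F0" => modularFunctionFieldFullC (K0 A) (N' * p)

/-- **`TameHor` on the node-local subgroup `UsLoc T (locSub F₀ 𝔫)`**, `𝔫` the centre of `Pl`. -/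
theorem tameHor_UsLoc [IsFractionRing (BRingK0 N' p A h) F0] (hσ : SigmaRel T)
    (Pl : Place (IsLocalRing.ResidueField A) (FresBar (N' * p) A)) (hPl : ContainsC hpN hA Pl) :
    TameHor h hpN hA T
      (UsLoc T ((locSub F0 (centreP (A := A) h hpN hA (primeL hpN hA Pl hPl)) :
        Subalgebra (BRingK0 N' p A h) F0) : Set F0)) Pl hPl := by
  intro τ hτ hgen
  obtain ⟨x, g, -, -, hxd, hx, hxδ, hact⟩ := exists_tame_action_loc hσ hA hτ
  obtain ⟨a, -, ha, -⟩ := hact ((locSub F0 (centreP (A := A) h hpN hA (primeL hpN hA Pl hPl)) :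
        Subalgebra (BRingK0 N' p A h) F0) : Set F0)
  exact ⟨x, hx, hxδ, hxd, ⟨a, ha⟩, fun hrank θ₀ =>
    HhorLoc.hhor_locSub_loc h T hτ hx _ hA hgen hrank θ₀⟩

/-- `Us T ≤ UsLoc T (locSub F₀ 𝔫)` : `j` lies in the finite chart. -/
theorem us_le_usLoc [IsFractionRing (BRingK0 N' p A h) F0]
    (𝔫 : Ideal (BRingK0 N' p A h)) [𝔫.IsPrime] :
    UsInst.Us T ≤ UsLoc T ((locSub F0 𝔫 : Subalgebra (BRingK0 N' p A h) F0) : Set F0) := by
  apply Us_le_UsLoc
  have hjB : Fermat.Agent.GL.Val.OrthK0.jK0 A (N' * p) ∈ BRingK0 N' p A h := by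
    rw [Fermat.Agent.GL.Val.OrthK0.jK0_eq_jC]
    exact jC_mem_BRingK0 N' p A h
  exact algebraMap_mem_locSub 𝔫 (⟨_, hjB⟩ : BRingK0 N' p A h)

end Point

/-! ### the statement -/

open Fermat.Agent.GF.Setup.S0 Fermat.Agent.GF.Top.Provider44D
open Fermat.Agent.GS.Nodal.LSR2 Fermat.Agent.GS.Nodal.Inst Fermat.Agent.GS.Nodal.ROfSurj2

set_option maxHeartbeats 4000000 in
/-- **E8.4-ORD slice (a): the `W`-free supplier of the node-local packages, every odd `p`.** -/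
theorem nodeLocalStmt {p : ℕ} [hpF : Fact p.Prime] (hp2 : p ≠ 2) : Inner.NodeLocalStmt p := by
  intro M' _ hpM' h3 hν2 hν3 A hA ι _ P Q c n₀ FF NH hcl ζ T hlc hσ hdeep₁ hdeep₂ hASK hD₁ hD₂
    γ₁ hγ₁ γ₂ hγ₂
  have hp := hpF.out
  haveI : NeZero p := ⟨hp.ne_zero⟩
  haveI := Fermat.Agent.GK.SS.Modular.isDedekindDomain_CRing M' p A hA
  haveI := Fermat.Agent.GL.SmallQ.isFractionRing_CRing M' A
  haveI := Fermat.Agent.GL.BRingChart.isFractionRing_BRingK0 (exactDvd hpM') hA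
  obtain ⟨hd, he⟩ := hcl
  have hneg : (-1 : ZMod p) ≠ 0 := neg_ne_zero.mpr one_ne_zero
  refine ⟨-1, hneg, fun s => ?_⟩
  -- the place
  have hτs : 0 ≤ (P s).ord (Fermat.Agent.GK.CuspSep.tauF (M' * p) A) :=
    Fermat.Agent.GF.Eis.Final.hoff_of_frameFacts M' A (exactDvd hpM') FF s
  have hPs : Fermat.Agent.GK.QS.jt (M' * p) A ∈ (P s).toValuationSubring :=
    (Fermat.Agent.GJ.J1.PlaceLattice.ord_nonneg_iff_mem (P s) _).1 hτs
  have ejt : fresInclInv hpM' hA (Fermat.Agent.GK.QS.jt M' A) = Fermat.Agent.GK.QS.jt (M' * p) A :=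
    Subtype.ext (by
      rw [coe_fresInclInv, Fermat.Agent.GK.QS.coe_jt, Fermat.Agent.GK.QS.coe_jt])
  have hPl : ContainsC hpM' hA (P s) := containsC_of_jt_mem hpM' hA (P s) (by rw [ejt]; exact hPs)
  -- the test unit
  obtain ⟨θ, hθU, hθ1, hθ2, hθn⟩ := ThetaLocal.exists_theta_local (exactDvd hpM') hpM' hA T hD₁ hD₂
    hγ₁ hγ₂ (fun h2 => absurd h2 hp2) h3 hν2 hν3 (P s) hPl hτs (he s)
  refine nodeLocal_of_parts hA hpM' (fun h2 => absurd h2 hp2) h3 hν2 hν3 hASK hD₁ hD₂ hγ₁ hγ₂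
    (P s) hPl _ (us_le_usLoc (exactDvd hpM') T _)
    (tameHor_UsLoc (exactDvd hpM') hpM' hA T hσ (P s) hPl) θ hθU ((p : ℤ) - 1) 1
    (fun k => hθ1 k) (fun k => hθ2 k)
    (fun k => hθn (Fermat.Agent.GS.F.unram_redDataBar (M' * p) A) _
      (unram_sheet₁ T hA hD₁ hγ₁ k) (redExt_sheet₁ T hA hD₁ hγ₁ k)) ?_ (-1) ?_
  · push_cast
    exact one_ne_zero
  · push_cast
    rw [ZMod.natCast_self]
    ring

end Fermat.Agent.GE8.LLP.NodeLocalFinal

end
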