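/-
S59 PRE-WORK / E8.4-ORD, slice (a), LAST file (helper91, ORD RULING O1 of helper17):
**`nodeLocalStmt : p ≠ 2 → Inner.NodeLocalStmt p`** — the ONE `Prop` E8.4 is reduced to
(`OrdClosed` / `Column`): at a rigid level `M' p`, at every node `P s` of a supersingular nodal frame
with clauses (d) (e), the node-local package `Inner.NodeLocal … (P s) (−1)`:

* `U := UsLoc T (locSub F₀ 𝔫_s)`, `𝔫_s := centreP (primeL (P s))` (`UsLoc`), `Us T ≤ U` (`j ∈ B`);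
* the node lemma on `U` : `NlPointLoc.nlPoint_mod_loc` (= helper62's `nlPoint_mod` on `UsLoc`, with
  `UsLoc.exists_tame_action_loc` + `HhorLoc.hhor_locSub_loc`);
* the test unit `θ k := θ_s` for every sheet `k` : `ThetaLocal.exists_theta_local`,
  `(w₁, w₂, n)(θ_s) = (0, p − 1, 1)`, so `Tt = p − 1`, `N0 = 1`, `κ = −1`.
-/
import Fermat.Agent.GE8.LLP.Inner
import Fermat.Agent.GE8.LLP.NlPointLoc
import Fermat.Agent.GE8.LLP.ThetaLocal
import Fermat.Agent.GF.Eis.Final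

set_option autoImplicit false
set_option linter.unusedSectionVars false
set_option linter.unusedVariables false
set_option linter.style.haveILetI false

noncomputable section

open Polynomial AlgebraicCurve

namespace Fermat.Agent.GE8.LLP.NodeLocalTop

open ModularCurve IsLocalRing IsDedekindDomain
open Fermat.Agent.GL.Val.GaussK0 Fermat.Agent.GL.Val.SecondK0
open Fermat.Agent.GJ.KumGroup Fermat.Agent.GJ.J1 Fermat.Agent.GJ.J1.Val
open Fermat.Agent.GK.AL Fermat.Agent.GL.AL Fermat.Agent.GK.QS Fermat.Agent.GK.SS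
open Fermat.Agent.Common_helper32
open Fermat.Agent.S24 Fermat.Agent.S24_helper6
open Fermat.Agent.GF.Trop
open Fermat.Agent.GL.BRingK0 Fermat.Agent.GL.BRingChart Fermat.Agent.GL.Thick
open Fermat.Agent.GL.KrullHeightOne Fermat.Agent.GL.Eta
open Fermat.Agent.GF.KCover.Node Fermat.Agent.GF.KCover.Node.NodeRingK0Pkg
open Fermat.Agent.GF.KCover.Node.NodeRingK0Level
open Fermat.Agent.GF.KCover.Field Fermat.Agent.GF.KCover.Field.Disc
  Fermat.Agent.GF.KCover.Field.Pack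
open Fermat.Agent.GF.KCover.Node.OrdRedExt
open Fermat.Agent.GF.F2Asm.KummerExt Fermat.Agent.GF.F2Asm.Inst Fermat.Agent.GF.KCover
open Fermat.Agent.GF.Peu Fermat.Agent.GF.F2Asm
open Fermat.Agent.GF.KCover.Field.WDataOf
open Fermat.Agent.GF.KCover.Compl.SheetsMod
open Fermat.Agent.GF.KCover.Int Fermat.Agent.GF.KCover.Int.TameLift
open Fermat.Agent.GF.KCover.AuxLevel
open Fermat.Agent.GF.KCover.NodeMod.ASKDef
open Fermat.Agent.GB.A4.FrameTwo
open Fermat.Agent.GK.CuspSep Fermat.Agent.GF.Setup.S0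
open Fermat.Agent.GE8.LLP.UsLoc Fermat.Agent.GE8.LLP.ThetaLocal Fermat.Agent.GE8.LLP.NlPointLoc
open Fermat.Agent.GE8.LLP.Inner

attribute [local instance] Fermat.Agent.GL.Frame.InstK0.algSubringFullC

local notation "Qb" => AlgebraicClosure ℚ

attribute [local instance] actFK algE'

set_option maxHeartbeats 4000000 in
/-- **the node-local package at a zero of `red₁ η` off the cusps, rigid level `N' p`, odd `p`.** -/
theorem nodeLocal_at {N' : ℕ} [NeZero N'] {p : ℕ} [hpF : Fact p.Prime] {A : ValuationSubring Qb}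
    {ζ : Qb} (hpN : ¬ p ∣ N') (hA : A.LiesOverPrime p) (hp2 : p ≠ 2)
    (h3 : p = 3 → 2 ∣ N') (hν2 : nuTwo N' = 0) (hν3 : nuThree N' = 0)
    (T : TameDatum (N' * p) p A ζ) (hσ : SigmaRel T) (hASK : ∀ c₀, ASK T (exactDvd hpN) c₀)
    (hD₁ : IsDisc (valF₁ T (Fermat.Agent.GK.SS.galVal1 (N' * p) A)) (ϖ₁ T))
    (hD₂ : IsDisc (valF₁ T (Fermat.Agent.GK.SS.galVal2 (N' * p) A (exactDvd hpN))) (ϖ₁ T))
    {γ₁ : Pack.Lc hD₁} (hγ₁ : γ₁ ^ p = Pack.jc hD₁ (g₁ T))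
    {γ₂ : Pack.Lc hD₂} (hγ₂ : γ₂ ^ p = Pack.jc hD₂ (g₁ T))
    (Pl : Place (IsLocalRing.ResidueField A) (FresBar (N' * p) A))
    (hτ : 0 ≤ Pl.ord (tauF (N' * p) A))
    (he : 0 < Pl.ord ((redDataBar (N' * p) A).red
      ⟨etaQ (N' * p) p (exactDvd hpN).dvd, etaQ_mem_Rw1 (N' * p) A p (exactDvd hpN).dvd⟩)) :
    NodeLocal hpN hA T hD₁ hD₂ hγ₁ hγ₂ Pl (-1) := by
  have hp := hpF.out
  haveI : NeZero p := ⟨hp.ne_zero⟩
  haveI := Fermat.Agent.GK.SS.Modular.isDedekindDomain_CRing N' p A hA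
  haveI := Fermat.Agent.GL.SmallQ.isFractionRing_CRing N' A
  obtain ⟨i1, i2, i3, -⟩ := id (frame_BRingK0 (exactDvd hpN) hA)
  haveI := i3
  have hjt : Fermat.Agent.GK.QS.jt (N' * p) A ∈ Pl.toValuationSubring :=
    (Fermat.Agent.GJ.J1.PlaceLattice.ord_nonneg_iff_mem Pl _).1 hτ
  have ejt : fresInclInv hpN hA (Fermat.Agent.GK.QS.jt N' A) = Fermat.Agent.GK.QS.jt (N' * p) A :=
    Subtype.ext (by
      rw [coe_fresInclInv, Fermat.Agent.GK.QS.coe_jt, Fermat.Agent.GK.QS.coe_jt])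
  have hPl : ContainsC hpN hA Pl := containsC_of_jt_mem hpN hA Pl (by rw [ejt]; exact hjt)
  obtain ⟨c₀, hc₀⟩ :=
    Fermat.Agent.GF.KCover.NodeMod.ValueJt.exists_valueAt_jt hpN hA Pl hPl
  obtain ⟨u, g1, hu0, hu, hg1, hg0, hK⟩ := hASK c₀
  obtain ⟨c, hc⟩ := nlPoint_mod_loc (exactDvd hpN) hpN hA T (fun h2 => absurd h2 hp2) h3 hν2 hν3 hσ
    hD₁ hD₂ hγ₁ hγ₂ Pl hPl hc₀ hu0 hu hg1 hg0 hK
  obtain ⟨θ, hθU, hθ1, hθ2, hθn⟩ := exists_theta_local (ζ := ζ) (exactDvd hpN) hpN hA T hD₁ hD₂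
    hγ₁ hγ₂ (fun h2 => absurd h2 hp2) h3 hν2 hν3 Pl hPl hτ he
  have hjB : Fermat.Agent.GL.Val.OrthK0.jK0 A (N' * p) ∈ BRingK0 N' p A (exactDvd hpN) := by
    rw [Fermat.Agent.GL.Val.OrthK0.jK0_eq_jC]
    exact jC_mem_BRingK0 N' p A (exactDvd hpN)
  have hj : Fermat.Agent.GL.Val.OrthK0.jK0 A (N' * p) ∈
      ((locSub (modularFunctionFieldFullC (K0 A) (N' * p))
        (centreP (A := A) (exactDvd hpN) hpN hA (primeL hpN hA Pl hPl)) :
        Subalgebra (BRingK0 N' p A (exactDvd hpN)) (modularFunctionFieldFullC (K0 A) (N' * p))) :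
        Set (modularFunctionFieldFullC (K0 A) (N' * p))) :=
    algebraMap_mem_locSub _ (⟨_, hjB⟩ : BRingK0 N' p A (exactDvd hpN))
  refine ⟨UsLoc T ((locSub (modularFunctionFieldFullC (K0 A) (N' * p))
      (centreP (A := A) (exactDvd hpN) hpN hA (primeL hpN hA Pl hPl)) :
      Subalgebra (BRingK0 N' p A (exactDvd hpN)) (modularFunctionFieldFullC (K0 A) (N' * p))) :
      Set (modularFunctionFieldFullC (K0 A) (N' * p))), c, fun _ => θ, (p : ℤ) - 1, 1,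
    Us_le_UsLoc hj, fun _ => hθU, fun k => hθ1 k, fun k => hθ2 (k + c), fun k => ?_, ?_, ?_, hc⟩
  · exact hθn (Fermat.Agent.GS.F.unram_redDataBar (N' * p) A) (sheet₁ T hA hD₁ hγ₁ k)
      (unram_sheet₁ T hA hD₁ hγ₁ k) (redExt_sheet₁ T hA hD₁ hγ₁ k)
  · rw [Int.cast_one]
    exact one_ne_zero
  · push_cast
    rw [ZMod.natCast_self]
    ring

/-- **E8.4-ORD slice (a): the `W`-free supplier of the node-local packages, every odd `p`.** -/
theorem nodeLocalStmt (p : ℕ) [Fact p.Prime] (hp2 : p ≠ 2) : NodeLocalStmt p := by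
  intro M' _ hpM' h3 hν2 hν3 A hA ι _ P Q c n₀ FF NH hd ζ T hlc hσ hdeep₁ hdeep₂ hASK
    hD₁ hD₂ γ₁ hγ₁ γ₂ hγ₂
  refine ⟨-1, neg_ne_zero.2 one_ne_zero, fun s => ?_⟩
  exact nodeLocal_at hpM' hA hp2 h3 hν2 hν3 T hσ hASK hD₁ hD₂ hγ₁ hγ₂ (P s)
    (Fermat.Agent.GF.Eis.Final.hoff_of_frameFacts M' A (exactDvd hpM') FF s) (hd.2 s)

end Fermat.Agent.GE8.LLP.NodeLocalTop

end
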