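/-
GATE-E / E8.4-ORD (a), θ-arithmetic (helper23), Mathlib only.

The node-local cuspidal function `θ_s` of helper91's `ThetaLocal` is an `m`-th root (`m = 12`)
of `η · c`, `η = Δ(z)/Δ(pz)` the eta quotient and `c` a unit at the node `s`.  All the functions
involved (`w₁ k`, `w₂ k`, `nodeOrd`) are additive on the group of `K'`-rational units, so the
three values of `θ_s` follow from those of `η` and `c`:

  `(w₁, w₂, n) η = (0, m t, m)`,  `(w₁, w₂, n) c = (0, 0, 0)`,  `θ ^ m = η * c`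
    ⟹ `(w₁, w₂, n) θ = (0, t, 1)`.

* `val_root` : ONE additive function;  `root_vals` : the triple;  `root_vals_twelve` : `m = 12`,
  `t = p − 1` (the Gauss values of the eta quotient: `GF/F2Asm/EtaUnitW`).
* `kappa_clause` : `((p − 1 : ℤ) : ZMod p) = (−1) * ((1 : ℤ) : ZMod p)`, `(−1 : ZMod p) ≠ 0`,
  `((1 : ℤ) : ZMod p) ≠ 0` — the `κ`, `Tt = κ N0`, `N0 ≠ 0` clauses of `Inner.NodeLocal`
  with `κ = −1`, `Tt = p − 1`, `N0 = 1`.
-/
import Mathlib

set_option autoImplicit false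
set_option linter.unusedSectionVars false

namespace Fermat.Agent.GE8.LLP.ThetaArith

variable {U : Type*} [CommGroup U]

/-- an additive function kills `1`. -/
theorem add_one' (w : U → ℤ) (hmul : ∀ y z, w (y * z) = w y + w z) : w 1 = 0 := by
  have h := hmul 1 1
  rw [mul_one] at h
  linarith

/-- an additive function on powers. -/
theorem add_pow' (w : U → ℤ) (hmul : ∀ y z, w (y * z) = w y + w z) (y : U) (k : ℕ) :
    w (y ^ k) = k * w y := by
  induction k with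
  | zero => rw [pow_zero, add_one' w hmul]; simp
  | succ k ih => rw [pow_succ, hmul, ih]; push_cast; ring

/-- **the value of an `m`-th root**: `θ ^ m = η * c`, `w η = m * t`, `w c = 0` ⟹ `w θ = t`. -/
theorem val_root (w : U → ℤ) (hmul : ∀ y z, w (y * z) = w y + w z) {m : ℕ} (hm : m ≠ 0)
    {θ η c : U} (hθ : θ ^ m = η * c) {t : ℤ} (hη : w η = m * t) (hc : w c = 0) : w θ = t := by
  have h1 : (m : ℤ) * w θ = (m : ℤ) * t := by
    rw [← add_pow' w hmul θ m, hθ, hmul, hη, hc, add_zero]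
  have hm' : (m : ℤ) ≠ 0 := by exact_mod_cast hm
  exact mul_left_cancel₀ hm' h1

/-- **the three values of an `m`-th root of `η · c`.** -/
theorem root_vals (w1 w2 n : U → ℤ)
    (h1 : ∀ y z, w1 (y * z) = w1 y + w1 z) (h2 : ∀ y z, w2 (y * z) = w2 y + w2 z)
    (hn : ∀ y z, n (y * z) = n y + n z) {m : ℕ} (hm : m ≠ 0)
    {θ η c : U} (hθ : θ ^ m = η * c) {t : ℤ}
    (hη1 : w1 η = 0) (hη2 : w2 η = m * t) (hηn : n η = m)
    (hc1 : w1 c = 0) (hc2 : w2 c = 0) (hcn : n c = 0) :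
    w1 θ = 0 ∧ w2 θ = t ∧ n θ = 1 := by
  refine ⟨?_, ?_, ?_⟩
  · exact val_root w1 h1 hm hθ (t := 0) (by rw [hη1, mul_zero]) hc1
  · exact val_root w2 h2 hm hθ hη2 hc2
  · exact val_root n hn hm hθ (t := 1) (by rw [hηn, mul_one]) hcn

/-- **`m = 12`, `t = p − 1`**: the twelfth root of `η · c` at a node where `ord red₁ η = 12`. -/
theorem root_vals_twelve (p : ℕ) (w1 w2 n : U → ℤ)
    (h1 : ∀ y z, w1 (y * z) = w1 y + w1 z) (h2 : ∀ y z, w2 (y * z) = w2 y + w2 z)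
    (hn : ∀ y z, n (y * z) = n y + n z)
    {θ η c : U} (hθ : θ ^ 12 = η * c)
    (hη1 : w1 η = 0) (hη2 : w2 η = 12 * ((p : ℤ) - 1)) (hηn : n η = 12)
    (hc1 : w1 c = 0) (hc2 : w2 c = 0) (hcn : n c = 0) :
    w1 θ = 0 ∧ w2 θ = (p : ℤ) - 1 ∧ n θ = 1 :=
  root_vals w1 w2 n h1 h2 hn (m := 12) (by norm_num) hθ hη1 (by rw [hη2]; norm_num)
    (by rw [hηn]; norm_num) hc1 hc2 hcn

/-- **the `κ`-clauses of `NodeLocal`** with `κ = −1`, `Tt = p − 1`, `N0 = 1`. -/
theorem kappa_clause (p : ℕ) [hpF : Fact p.Prime] :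
    (-1 : ZMod p) ≠ 0 ∧ (((1 : ℤ)) : ZMod p) ≠ 0 ∧
      ((((p : ℤ) - 1 : ℤ)) : ZMod p) = (-1 : ZMod p) * (((1 : ℤ)) : ZMod p) := by
  refine ⟨neg_ne_zero.mpr one_ne_zero, ?_, ?_⟩
  · rw [Int.cast_one]
    exact one_ne_zero
  · push_cast
    rw [ZMod.natCast_self]
    ring

end Fermat.Agent.GE8.LLP.ThetaArith
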