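/-
GATE-E / E8.4-ORD (a), helper56 (second seat of helper91 `ThetaLocal`): **the valuations `wOf` of a
`K₀`-rational unit of the cover.**

`T : TameDatum N p A ζ`, `u : fixedUnits I′ T.Fp` whose value in `T.Fp` is the image of a
`K₀`-rational function `y0 ∈ K₀(X₀(N))` (`u = algebraMap (F_N) T.Fp (mapK0Bar y0)`):

* `toE'_of_k0` : `toE' T u = algebraMap F₁ (E' T) (embF₁ y0)`;
* `wOf_of_k0` : `wOf T hD hγ k u = ordD hD (embF₁ y0)` for EVERY sheet `k`;
* `wOf_of_k0_unit` : `= 0` when `mapK0Bar y0` is a unit of the Gauss valuation `V`;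
* `wOf_of_k0_pow` : `n • wOf … u = ordD hD (embF₁ z0)` when `y0 ^ n = z0`;
* level `N' ℓ`, `y : BRingK0 N' ℓ A h` : `val₁_eq_one_of_redC1K0_ne_zero`, `val₂_eq_one_of_redC2K0_ne_zero`,
  **`wOf₁_chart_unit`**, **`wOf₂_chart_unit`** (`redC_iK0 y ≠ 0 ⟹ wOf_i k u = 0`).
-/
import Fermat.Agent.GF.KCover.NodeMod.K0Inst
import Fermat.Agent.GF.KCover.Compl.SheetsMod

set_option autoImplicit false
set_option linter.unusedSectionVars false
set_option linter.style.haveILetI false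

noncomputable section

namespace Fermat.Agent.GE8.LLP.ThetaVal

open ModularCurve Polynomial AlgebraicCurve IsDedekindDomain
open Fermat.Agent.GK.SS Fermat.Agent.GK.AL Fermat.Agent.GJ.KumGroup Fermat.Agent.GF.Peu
open Fermat.Agent.GJ.Kum.KumType
open Fermat.Agent.GF.F2Asm.Inst Fermat.Agent.GF.KCover
open Fermat.Agent.GF.KCover.Field Fermat.Agent.GF.KCover.Field.WDataOf
open Fermat.Agent.GF.KCover.Field.Disc
open Fermat.Agent.GF.KCover.Int Fermat.Agent.GF.KCover.Int.TameLift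
open Fermat.Agent.GF.KCover.Int.K0Model
open Fermat.Agent.GL.Val.GaussK0 Fermat.Agent.GL.Val.SecondK0
open Fermat.Agent.GJ.J1 Fermat.Agent.GJ.J1.Val
open Fermat.Agent.GL.AL Fermat.Agent.GK.QS
open Fermat.Agent.Common_helper32
open Fermat.Agent.S24 Fermat.Agent.S24_helper6
open Fermat.Agent.GL.BRingK0 Fermat.Agent.GL.BRingChart Fermat.Agent.GL.Thick
open Fermat.Agent.GF.KCover.Node
open Fermat.Agent.GF.KCover.Node.NodeRingK0Level

local notation "Qb" => AlgebraicClosure ℚ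

attribute [local instance] actFK algE'

section AnyLevel

variable {N : ℕ} [NeZero N] {p : ℕ} [hpF : Fact p.Prime] {A : ValuationSubring Qb} {ζ : Qb}
variable (T : TameDatum N p A ζ)

/-- a `K₀`-rational unit of the cover is the image of `embF₁`. -/
theorem toE'_of_k0 (u : fixedUnits (tameGroup A ζ) T.Fp)
    (y0 : modularFunctionFieldFullC (K0 A) N)
    (hu : ((u : T.Fpˣ) : T.Fp) = algebraMap (FK N) T.Fp (mapK0Bar A N y0)) :
    toE' T u = algebraMap (F₁ N A ζ) (E' T) (embF₁ N A ζ y0) := by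
  apply Subtype.ext
  rw [coe_toE', hu]
  rfl

theorem embF₁_ne_zero {y0 : modularFunctionFieldFullC (K0 A) N} (hy : y0 ≠ 0) :
    embF₁ N A ζ y0 ≠ 0 :=
  (_root_.map_ne_zero (embF₁ N A ζ)).2 hy

variable {V : GalVal N A} (hD : IsDisc (valF₁ T V) (ϖ₁ T)) {γ : Pack.Lc hD}
  (hγ : γ ^ p = Pack.jc hD (g₁ T))

/-- **all the sheet valuations of a `K₀`-rational unit are the order of the Gauss valuation.** -/
theorem wOf_of_k0 (k : ZMod p) (u : fixedUnits (tameGroup A ζ) T.Fp)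
    (y0 : modularFunctionFieldFullC (K0 A) N)
    (hu : ((u : T.Fpˣ) : T.Fp) = algebraMap (FK N) T.Fp (mapK0Bar A N y0)) :
    wOf T hD hγ k u = ordD hD (embF₁ N A ζ y0) := by
  have hy0 : y0 ≠ 0 := by
    rintro rfl
    rw [map_zero, map_zero] at hu
    exact (u : T.Fpˣ).ne_zero hu
  unfold wOf
  rw [toE'_of_k0 T u y0 hu]
  exact Pack.wv_algebraMap hD (isAdj' T) (ζ₁_prim T) hγ k (embF₁_ne_zero hy0)

/-- **a `K₀`-rational unit of the Gauss valuation has all its sheet valuations `0`.** -/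
theorem wOf_of_k0_unit (k : ZMod p) (u : fixedUnits (tameGroup A ζ) T.Fp)
    (y0 : modularFunctionFieldFullC (K0 A) N)
    (hu : ((u : T.Fpˣ) : T.Fp) = algebraMap (FK N) T.Fp (mapK0Bar A N y0))
    (hy : V.W.valuation (mapK0Bar A N y0) = 1) :
    wOf T hD hγ k u = 0 := by
  have hy0 : y0 ≠ 0 := by
    rintro rfl
    rw [map_zero, map_zero] at hu
    exact (u : T.Fpˣ).ne_zero hu
  rw [wOf_of_k0 T hD hγ k u y0 hu]
  refine ordD_eq hD (embF₁_ne_zero hy0) ?_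
  rw [zpow_zero, valF₁_apply, coe_embF₁]
  exact hy

/-- the order of a root: `y0 ^ n = z0 ⟹ n • wOf u = ord z0`. -/
theorem wOf_of_k0_pow (k : ZMod p) (u : fixedUnits (tameGroup A ζ) T.Fp)
    (y0 z0 : modularFunctionFieldFullC (K0 A) N)
    (hu : ((u : T.Fpˣ) : T.Fp) = algebraMap (FK N) T.Fp (mapK0Bar A N y0))
    (n : ℕ) (hn : y0 ^ n = z0) :
    (n : ℤ) * wOf T hD hγ k u = ordD hD (embF₁ N A ζ z0) := by
  have hy0 : y0 ≠ 0 := by
    rintro rfl
    rw [map_zero, map_zero] at hu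
    exact (u : T.Fpˣ).ne_zero hu
  subst hn
  rw [wOf_of_k0 T hD hγ k u y0 hu, map_pow]
  have hne := embF₁_ne_zero (ζ := ζ) hy0
  induction n with
  | zero => rw [pow_zero, Nat.cast_zero, zero_mul, ordD_one]
  | succ n ih =>
    rw [pow_succ, ordD_mul hD (pow_ne_zero n hne) hne, ← ih]
    push_cast
    ring

/-! ### the node order of a `K₀`-rational unit -/

open Fermat.Agent.GF.KCover.Compl.SheetsMod Fermat.Agent.GF.KCover.Node.OrdRedExt
  Fermat.Agent.GF.Trop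

/-- **the node order of a `K₀`-rational unit on every sheet above the first Gauss valuation is its
node order downstairs.** -/
theorem nodeOrd_sheet₁_of_k0 (hA : (p : Qb) ∈ A.nonunits)
    (hD₁ : IsDisc (valF₁ T (galVal1 N A)) (ϖ₁ T)) {γ₁ : Pack.Lc hD₁}
    (hγ₁ : γ₁ ^ p = Pack.jc hD₁ (g₁ T)) (k : ZMod p)
    (Pl : Place (IsLocalRing.ResidueField A) (FresBar N A))
    (u : fixedUnits (tameGroup A ζ) T.Fp) (y0 : modularFunctionFieldFullC (K0 A) N)
    (hu : ((u : T.Fpˣ) : T.Fp) = algebraMap (FK N) T.Fp (mapK0Bar A N y0)) :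
    nodeOrd (sheet₁ T hA hD₁ hγ₁ k) (unram_sheet₁ T hA hD₁ hγ₁ k) Pl
        (fixedUnits (tameGroup A ζ) T.Fp) u =
      ordRed (redDataBar N A) (Fermat.Agent.GS.F.unram_redDataBar N A) Pl (mapK0Bar A N y0) := by
  unfold nodeOrd
  rw [hu]
  exact ordRed_algebraMap_eq (redExt_sheet₁ T hA hD₁ hγ₁ k)
    (Fermat.Agent.GS.F.unram_redDataBar N A) (unram_sheet₁ T hA hD₁ hγ₁ k) Pl _

/-- … and when `mapK0Bar y0` is a unit of the first Gauss valuation it is the order of its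
reduction. -/
theorem nodeOrd_sheet₁_of_k0_unit (hA : (p : Qb) ∈ A.nonunits)
    (hD₁ : IsDisc (valF₁ T (galVal1 N A)) (ϖ₁ T)) {γ₁ : Pack.Lc hD₁}
    (hγ₁ : γ₁ ^ p = Pack.jc hD₁ (g₁ T)) (k : ZMod p)
    (Pl : Place (IsLocalRing.ResidueField A) (FresBar N A))
    (u : fixedUnits (tameGroup A ζ) T.Fp) (y0 : modularFunctionFieldFullC (K0 A) N)
    (hu : ((u : T.Fpˣ) : T.Fp) = algebraMap (FK N) T.Fp (mapK0Bar A N y0))
    (hy : IsU (redDataBar N A) (mapK0Bar A N y0)) :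
    nodeOrd (sheet₁ T hA hD₁ hγ₁ k) (unram_sheet₁ T hA hD₁ hγ₁ k) Pl
        (fixedUnits (tameGroup A ζ) T.Fp) u =
      Pl.ord ((redDataBar N A).red ⟨mapK0Bar A N y0, hy.2.1⟩) := by
  rw [nodeOrd_sheet₁_of_k0 T hA hD₁ hγ₁ k Pl u y0 hu]
  exact ordRed_of_isU (Fermat.Agent.GS.F.unram_redDataBar N A) Pl hy

end AnyLevel

/-! ### units of the finite chart `BRingK0` -/

section Chart

open Fermat.Agent.GF.KCover.Compl.SheetsMod Fermat.Agent.GF.KCover.Node.OrdRedExt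
  Fermat.Agent.GF.Trop

attribute [local instance] Fermat.Agent.GL.Frame.InstK0.algSubringFullC

variable {A : ValuationSubring Qb} {N' : ℕ} [NeZero N'] {ℓ : ℕ} [Fact ℓ.Prime] [NeZero ℓ]
  (h : ExactDvd ℓ (N' * ℓ)) (hℓN : ¬ ℓ ∣ N') (hA : A.LiesOverPrime ℓ)

variable [IsDedekindDomain (CRing N' A)] [IsFractionRing (CRing N' A) (FresBar N' A)]

local notation "F0" => modularFunctionFieldFullC (K0 A) (N' * ℓ)

/-- an element of the chart not in the first vertical prime is a unit of the first Gauss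
valuation. -/
theorem isU₁_of_redC1K0_ne_zero (y : BRingK0 N' ℓ A h) (hy : redC1K0 h hℓN hA y ≠ 0) :
    IsU (redDataBar (N' * ℓ) A) (mapK0Bar A (N' * ℓ) (y : F0)) := by
  have hmem := (mapK0Bar_mem_Rw h y).1
  have hnon : mapK0Bar A (N' * ℓ) (y : F0) ∉ (redDataBar (N' * ℓ) A).Rw.nonunits := fun hn =>
    hy ((redC1K0_eq_zero_iff h hA hℓN).2 ((mem_nonunits_Rw1K0_iff A (N' * ℓ) _).2 hn))
  have h0 : mapK0Bar A (N' * ℓ) (y : F0) ≠ 0 := fun h0 =>
    hnon (h0 ▸ (redDataBar (N' * ℓ) A).Rw.nonunits.zero_mem)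
  refine ⟨h0, hmem, ?_⟩
  by_contra hinv
  exact hnon ((ValuationSubring.mem_nonunits_iff_or _).2 (Or.inr hinv))

/-- an element of the chart not in the second vertical prime is a unit of the second Gauss
valuation. -/
theorem isU₂_of_redC2K0_ne_zero (y : BRingK0 N' ℓ A h) (hy : redC2K0 h hℓN hA y ≠ 0) :
    IsU (redData2 (N' * ℓ) A h) (mapK0Bar A (N' * ℓ) (y : F0)) := by
  have hmem := (mapK0Bar_mem_Rw h y).2
  have hnon : mapK0Bar A (N' * ℓ) (y : F0) ∉ (redData2 (N' * ℓ) A h).Rw.nonunits := fun hn =>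
    hy ((NodeRingK0.redC2K0_eq_zero_iff h hℓN hA y).2
      ((mem_nonunits_Rw2K0_iff A (N' * ℓ) h _).2 hn))
  have h0 : mapK0Bar A (N' * ℓ) (y : F0) ≠ 0 := fun h0 =>
    hnon (h0 ▸ (redData2 (N' * ℓ) A h).Rw.nonunits.zero_mem)
  refine ⟨h0, hmem, ?_⟩
  by_contra hinv
  exact hnon ((ValuationSubring.mem_nonunits_iff_or _).2 (Or.inr hinv))

variable {p : ℕ} [hpF : Fact p.Prime] {ζ : Qb} (T : TameDatum (N' * ℓ) p A ζ)

/-- **`hθ1`-type**: a `K₀`-rational unit of the cover coming from an element of the chart outside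
the first vertical prime has `wOf₁ k = 0` on EVERY sheet. -/
theorem wOf₁_chart_unit (hD₁ : IsDisc (valF₁ T (galVal1 (N' * ℓ) A)) (ϖ₁ T)) {γ₁ : Pack.Lc hD₁}
    (hγ₁ : γ₁ ^ p = Pack.jc hD₁ (g₁ T)) (k : ZMod p) (u : fixedUnits (tameGroup A ζ) T.Fp)
    (y : BRingK0 N' ℓ A h)
    (hu : ((u : T.Fpˣ) : T.Fp) =
      algebraMap (FK (N' * ℓ)) T.Fp (mapK0Bar A (N' * ℓ) (y : F0)))
    (hy : redC1K0 h hℓN hA y ≠ 0) : wOf T hD₁ hγ₁ k u = 0 := by
  refine wOf_of_k0_unit T hD₁ hγ₁ k u (y : F0) hu ?_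
  have hU := isU₁_of_redC1K0_ne_zero h hℓN hA y hy
  exact (vs_val_eq_one_iff (redDataBar (N' * ℓ) A).Rw).2 hU

/-- the same above the second Gauss valuation. -/
theorem wOf₂_chart_unit (hD₂ : IsDisc (valF₁ T (galVal2 (N' * ℓ) A h)) (ϖ₁ T))
    {γ₂ : Pack.Lc hD₂} (hγ₂ : γ₂ ^ p = Pack.jc hD₂ (g₁ T)) (k : ZMod p)
    (u : fixedUnits (tameGroup A ζ) T.Fp) (y : BRingK0 N' ℓ A h)
    (hu : ((u : T.Fpˣ) : T.Fp) =
      algebraMap (FK (N' * ℓ)) T.Fp (mapK0Bar A (N' * ℓ) (y : F0)))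
    (hy : redC2K0 h hℓN hA y ≠ 0) : wOf T hD₂ hγ₂ k u = 0 := by
  refine wOf_of_k0_unit T hD₂ hγ₂ k u (y : F0) hu ?_
  have hU := isU₂_of_redC2K0_ne_zero h hℓN hA y hy
  exact (vs_val_eq_one_iff (redData2 (N' * ℓ) A h).Rw).2 hU

/-- **`hθn`-type**: the node order on every sheet above the first Gauss valuation of a unit coming
from the chart is the order of its image in the coordinate ring of the first component. -/
theorem nodeOrd_sheet₁_chart_unit (hAp : (p : Qb) ∈ A.nonunits)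
    (hD₁ : IsDisc (valF₁ T (galVal1 (N' * ℓ) A)) (ϖ₁ T)) {γ₁ : Pack.Lc hD₁}
    (hγ₁ : γ₁ ^ p = Pack.jc hD₁ (g₁ T)) (k : ZMod p)
    (Pl : Place (IsLocalRing.ResidueField A) (FresBar (N' * ℓ) A))
    (u : fixedUnits (tameGroup A ζ) T.Fp) (y : BRingK0 N' ℓ A h)
    (hu : ((u : T.Fpˣ) : T.Fp) =
      algebraMap (FK (N' * ℓ)) T.Fp (mapK0Bar A (N' * ℓ) (y : F0)))
    (hy : redC1K0 h hℓN hA y ≠ 0) :
    nodeOrd (sheet₁ T hAp hD₁ hγ₁ k) (unram_sheet₁ T hAp hD₁ hγ₁ k) Pl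
        (fixedUnits (tameGroup A ζ) T.Fp) u =
      Pl.ord (fresInclInv hℓN hA
        (algebraMap (CRing N' A) (FresBar N' A) (redC1K0 h hℓN hA y))) := by
  have hU := isU₁_of_redC1K0_ne_zero h hℓN hA y hy
  rw [nodeOrd_sheet₁_of_k0_unit T hAp hD₁ hγ₁ k Pl u (y : F0) hu hU,
    red1_mapK0Bar h hℓN hA y hU.2.1]
  rfl

end Chart

end Fermat.Agent.GE8.LLP.ThetaVal

end
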