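/-
GATE-E / E8.4-ORD (a), helper56 (second seat of helper91 `ThetaLocal`), file 2: **`hθ2`** — the
second-sheet valuation of the node-local test unit.

`θ_s` = the image in the cover of a `12`-th root `y ∈ B_R` (`BRingK0`) of `g · c`, `g = etaBK0 =
Δ(z)/Δ(ℓz)`, `c ∈ B_R` outside the second vertical prime `P'₂` (automatic at a node when
`red₁ c ∉ P`).  In units of `ϖ = 1 − ζ`:

* `valF₁_natCast_prime` / `ordD_natCast_prime` : `ord_ϖ (p) = p − 1` for EVERY Gauss valuation `V`;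
* `ordD₂_etaQK0` : `ord₂ (g) = 12 · ord₂ (ℓ)` (`g / ℓ¹²` is a unit of the second Gauss valuation);
* **`wOf₂_root_eta`** : `y ^ 12 = g · c`, `red₂ c ≠ 0` ⟹ `wOf₂ k u = ord₂ (ℓ)` on EVERY sheet;
* **`wOf₂_theta`** : the same at `ℓ = p` : `wOf₂ k u = p − 1` (`= Tt` of `Inner.NodeLocal`);
* `redC2K0_ne_zero_of_node`, `redC1K0_ne_zero_of_pow` : the two side conditions from the output of
  `EtaInstK0B.exists_lift_pow_eq_K0_B` (`red₁ c ∉ v.asIdeal`, `J' ≤ v.asIdeal`).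
-/
import Fermat.Agent.GE8.LLP.ThetaVal
import Fermat.Agent.GL.Reg.EtaInstK0B
import Fermat.Agent.GL.Local.TameZeta

set_option autoImplicit false
set_option linter.unusedSectionVars false
set_option linter.style.haveILetI false

noncomputable section

namespace Fermat.Agent.GE8.LLP.ThetaVal2

open ModularCurve Polynomial AlgebraicCurve IsDedekindDomain
open Fermat.Agent.GK.SS Fermat.Agent.GK.AL Fermat.Agent.GJ.KumGroup Fermat.Agent.GF.Peu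
open Fermat.Agent.GJ.Kum.KumType
open Fermat.Agent.GF.F2Asm.Inst Fermat.Agent.GF.KCover
open Fermat.Agent.GF.KCover.Field Fermat.Agent.GF.KCover.Field.WDataOf
open Fermat.Agent.GF.KCover.Field.Disc
open Fermat.Agent.GF.KCover.Int Fermat.Agent.GF.KCover.Int.TameLift
open Fermat.Agent.GF.KCover.Int.K0Model
open Fermat.Agent.GL.Val.GaussK0 Fermat.Agent.GL.Val.SecondK0
open Fermat.Agent.GJ.J1 Fermat.Agent.GJ.J1.Val
open Fermat.Agent.GL.AL Fermat.Agent.GK.QS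
open Fermat.Agent.Common_helper32
open Fermat.Agent.S24 Fermat.Agent.S24_helper6
open Fermat.Agent.GL.BRingK0 Fermat.Agent.GL.BRingChart Fermat.Agent.GL.Thick
open Fermat.Agent.GL.EtaK0 Fermat.Agent.GL.Eta
open Fermat.Agent.GF.KCover.Node
open Fermat.Agent.GF.KCover.Node.NodeRingK0Level
open Fermat.Agent.GE8.LLP.ThetaVal
open Fermat.Agent.GK.FrobGlue Fermat.Agent.GL.SmallQ

local notation "Qb" => AlgebraicClosure ℚ

attribute [local instance] actFK algE'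

section AnyLevel

variable {N : ℕ} [NeZero N] {p : ℕ} [hpF : Fact p.Prime] {A : ValuationSubring Qb} {ζ : Qb}
variable (T : TameDatum N p A ζ)

/-- **`v (p) = v (1 − ζ) ^ (p − 1)`** for every Gauss valuation restricted to the `K'`-rational
functions. -/
theorem valF₁_natCast_prime (V : GalVal N A) :
    valF₁ T V ((p : ℕ) : F₁ N A ζ) = valF₁ T V (ϖ₁ T) ^ (p - 1) := by
  have hp : p.Prime := hpF.out
  have hval := Fermat.Agent.GL.Local.InertiaField.valuation_one_sub_zeta_pow A hp T.prim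
  have hz0 : (1 - ζ : Qb) ≠ 0 :=
    Fermat.Agent.GL.Local.InertiaField.one_sub_zeta_ne_zero hp T.prim
  have hzp : ((1 - ζ : Qb)) ^ (p - 1) ≠ 0 := pow_ne_zero _ hz0
  -- the unit `p / (1 − ζ)^(p−1)`
  have hu : A.valuation ((p : Qb) / (1 - ζ) ^ (p - 1)) = 1 := by
    rw [map_div₀, map_pow, hval]
    exact div_self ((_root_.map_ne_zero _).2 (Nat.cast_ne_zero.2 hp.ne_zero))
  have h1 := V.val_const_eq_one hu
  have h2 : (((p : ℕ) : F₁ N A ζ) : FK N) =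
      algebraMap Qb (FK N) ((p : Qb) / (1 - ζ) ^ (p - 1)) *
        algebraMap Qb (FK N) (1 - ζ) ^ (p - 1) := by
    rw [← map_pow, ← map_mul, div_mul_cancel₀ _ hzp, map_natCast]
    exact (map_natCast (F₁ N A ζ).subtype p)
  rw [valF₁_apply, h2, map_mul, h1, one_mul, map_pow]
  rfl

variable {V : GalVal N A} (hD : IsDisc (valF₁ T V) (ϖ₁ T))

/-- **`ord_ϖ (p) = p − 1`**. -/
theorem ordD_natCast_prime : ordD hD ((p : ℕ) : F₁ N A ζ) = (p : ℤ) - 1 := by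
  have hp : p.Prime := hpF.out
  have hne : ((p : ℕ) : F₁ N A ζ) ≠ 0 := Nat.cast_ne_zero.2 hp.ne_zero
  have h1 : ordD hD ((p : ℕ) : F₁ N A ζ) = ((p - 1 : ℕ) : ℤ) := by
    refine ordD_eq hD hne ?_
    rw [zpow_natCast]
    exact valF₁_natCast_prime T V
  rw [h1, Nat.cast_sub hp.one_le, Nat.cast_one]

end AnyLevel

/-! ### the chart `BRingK0` at level `N' ℓ` -/

section Chart

attribute [local instance] Fermat.Agent.GL.Frame.InstK0.algSubringFullC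

variable {A : ValuationSubring Qb} {N' : ℕ} [NeZero N'] {ℓ : ℕ} [Fact ℓ.Prime] [NeZero ℓ]
  (h : ExactDvd ℓ (N' * ℓ)) (hℓN : ¬ ℓ ∣ N') (hA : A.LiesOverPrime ℓ)

local notation "F0" => modularFunctionFieldFullC (K0 A) (N' * ℓ)

/-- the second Gauss valuation of `g = Δ(z)/Δ(ℓz)` is that of `ℓ ^ 12`. -/
theorem val₂_etaQ :
    (redData2 (N' * ℓ) A h).Rw.valuation (etaQ (N' * ℓ) ℓ h.dvd) =
      (redData2 (N' * ℓ) A h).Rw.valuation ((ℓ : ℕ) : FK (N' * ℓ)) ^ 12 := by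
  have hℓ0 : ((ℓ : ℕ) : FK (N' * ℓ)) ≠ 0 := Nat.cast_ne_zero.2 (NeZero.ne ℓ)
  have hq0 : ((ℓ : ℕ) : FK (N' * ℓ)) ^ 12 ≠ 0 := pow_ne_zero _ hℓ0
  have h1 := etaQ_div_mem_Rw2 A h
  have h2 := etaQ_div_inv_mem_Rw2 A h
  have h0 : etaQ (N' * ℓ) ℓ h.dvd / ((ℓ : ℕ) : FK (N' * ℓ)) ^ 12 ≠ 0 :=
    div_ne_zero (etaQ_ne_zero (N' * ℓ) ℓ h.dvd) hq0
  have h3 : (redData2 (N' * ℓ) A h).Rw.valuation
      (etaQ (N' * ℓ) ℓ h.dvd / ((ℓ : ℕ) : FK (N' * ℓ)) ^ 12) = 1 :=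
    (vs_val_eq_one_iff (redData2 (N' * ℓ) A h).Rw).2 ⟨h0, h1, h2⟩
  rw [map_div₀, map_pow] at h3
  have hv0 : (redData2 (N' * ℓ) A h).Rw.valuation ((ℓ : ℕ) : FK (N' * ℓ)) ^ 12 ≠ 0 :=
    pow_ne_zero _ ((_root_.map_ne_zero _).2 hℓ0)
  exact (div_eq_one_iff_eq hv0).1 h3

variable [IsDedekindDomain (CRing N' A)] [IsFractionRing (CRing N' A) (FresBar N' A)]

variable {p : ℕ} [hpF : Fact p.Prime] {ζ : Qb} (T : TameDatum (N' * ℓ) p A ζ)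
  (hD₂ : IsDisc (valF₁ T (galVal2 (N' * ℓ) A h)) (ϖ₁ T))

/-- **`ord₂ (g) = 12 · ord₂ (ℓ)`**. -/
theorem ordD₂_etaQK0 :
    ordD hD₂ (embF₁ (N' * ℓ) A ζ (etaQK0 N' ℓ A h)) =
      12 * ordD hD₂ ((ℓ : ℕ) : F₁ (N' * ℓ) A ζ) := by
  have hℓ0 : ((ℓ : ℕ) : F₁ (N' * ℓ) A ζ) ≠ 0 := Nat.cast_ne_zero.2 (NeZero.ne ℓ)
  refine ordD_eq hD₂ (embF₁_ne_zero (etaQK0_ne_zero N' ℓ A h)) ?_
  rw [valF₁_apply, coe_embF₁, mapK0Bar_etaQK0]
  have h1 := val₂_etaQ (A := A) h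
  have h2 : valF₁ T (galVal2 (N' * ℓ) A h) ((ℓ : ℕ) : F₁ (N' * ℓ) A ζ) =
      valF₁ T (galVal2 (N' * ℓ) A h) (ϖ₁ T) ^ ordD hD₂ ((ℓ : ℕ) : F₁ (N' * ℓ) A ζ) :=
    v_eq hD₂ hℓ0
  rw [valF₁_apply] at h2
  have h3 : ((((ℓ : ℕ) : F₁ (N' * ℓ) A ζ)) : FK (N' * ℓ)) = ((ℓ : ℕ) : FK (N' * ℓ)) :=
    map_natCast (F₁ (N' * ℓ) A ζ).subtype ℓ
  rw [h3] at h2
  have h4 : (redData2 (N' * ℓ) A h).Rw.valuation ((ℓ : ℕ) : FK (N' * ℓ)) =
      valF₁ T (galVal2 (N' * ℓ) A h) (ϖ₁ T) ^ ordD hD₂ ((ℓ : ℕ) : F₁ (N' * ℓ) A ζ) := h2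
  refine h1.trans ?_
  rw [h4, mul_comm (12 : ℤ), zpow_mul]
  exact (zpow_ofNat _ 12).symm

variable {γ₂ : Pack.Lc hD₂} (hγ₂ : γ₂ ^ p = Pack.jc hD₂ (g₁ T))

/-- **`hθ2`-type**: a `12`-th root in the chart of `g · c`, `c` outside the second vertical
prime, has `wOf₂ k = ord₂ (ℓ)` on EVERY sheet. -/
theorem wOf₂_root_eta (k : ZMod p) (u : fixedUnits (tameGroup A ζ) T.Fp)
    (y c : BRingK0 N' ℓ A h)
    (hu : ((u : T.Fpˣ) : T.Fp) =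
      algebraMap (FK (N' * ℓ)) T.Fp (mapK0Bar A (N' * ℓ) (y : F0)))
    (hyc : y ^ 12 = etaBK0 N' ℓ A h (ValuationSubring.nonunits_le hA) * c)
    (hc : redC2K0 h hℓN hA c ≠ 0) :
    wOf T hD₂ hγ₂ k u = ordD hD₂ ((ℓ : ℕ) : F₁ (N' * ℓ) A ζ) := by
  have hpow : (y : F0) ^ 12 = etaQK0 N' ℓ A h * (c : F0) := congrArg Subtype.val hyc
  have h1 := wOf_of_k0_pow T hD₂ hγ₂ k u (y : F0) _ hu 12 hpow
  have hU := isU₂_of_redC2K0_ne_zero h hℓN hA c hc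
  have hc0 : (c : F0) ≠ 0 := by
    intro h0
    apply hU.1
    rw [h0, map_zero]
  have hcord : ordD hD₂ (embF₁ (N' * ℓ) A ζ (c : F0)) = 0 := by
    refine ordD_eq hD₂ (embF₁_ne_zero hc0) ?_
    rw [zpow_zero, valF₁_apply, coe_embF₁]
    exact (vs_val_eq_one_iff (redData2 (N' * ℓ) A h).Rw).2 hU
  rw [map_mul, ordD_mul hD₂ (embF₁_ne_zero (etaQK0_ne_zero N' ℓ A h)) (embF₁_ne_zero hc0),
    ordD₂_etaQK0 h T hD₂, hcord, add_zero] at h1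
  have h12 : ((12 : ℕ) : ℤ) = 12 := by norm_num
  rw [h12] at h1
  exact mul_left_cancel₀ (by norm_num : (12 : ℤ) ≠ 0) h1

section Node

variable {J' : Ideal (CRing N' A)} (hJ' : BT N' ℓ A h = gluedAlg (psiC N' ℓ A hℓN hA) J')

include hJ' in
/-- at a node, `red₁ c ∉ P` forces `red₂ c ≠ 0`. -/
theorem redC2K0_ne_zero_of_node {P : Ideal (CRing N' A)} (hnode : J' ≤ P)
    (c : BRingK0 N' ℓ A h) (hc : redC1K0 h hℓN hA c ∉ P) : redC2K0 h hℓN hA c ≠ 0 := fun h0 =>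
  hc (hnode (redC1K0_mem_of_mem_P2K0 h hℓN hA hJ' ((mem_P2K0 h hℓN hA).2 h0)))

end Node

end Chart

/-! ### `ℓ = p` -/

section Same

attribute [local instance] Fermat.Agent.GL.Frame.InstK0.algSubringFullC

variable {A : ValuationSubring Qb} {N' : ℕ} [NeZero N'] {p : ℕ} [hpF : Fact p.Prime] [NeZero p]
  (h : ExactDvd p (N' * p)) (hpN : ¬ p ∣ N') (hA : A.LiesOverPrime p)
  [IsDedekindDomain (CRing N' A)] [IsFractionRing (CRing N' A) (FresBar N' A)]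
  {ζ : Qb} (T : TameDatum (N' * p) p A ζ)
  (hD₂ : IsDisc (valF₁ T (galVal2 (N' * p) A h)) (ϖ₁ T))
  {γ₂ : Pack.Lc hD₂} (hγ₂ : γ₂ ^ p = Pack.jc hD₂ (g₁ T))

/-- **`hθ2`**: at `ℓ = p` the `12`-th root of `g · c` has `wOf₂ k = p − 1` on EVERY sheet
(`Tt = p − 1` of `Inner.NodeLocal`). -/
theorem wOf₂_theta (k : ZMod p) (u : fixedUnits (tameGroup A ζ) T.Fp)
    (y c : BRingK0 N' p A h)
    (hu : ((u : T.Fpˣ) : T.Fp) =
      algebraMap (FK (N' * p)) T.Fp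
        (mapK0Bar A (N' * p) (y : modularFunctionFieldFullC (K0 A) (N' * p))))
    (hyc : y ^ 12 = etaBK0 N' p A h (ValuationSubring.nonunits_le hA) * c)
    (hc : redC2K0 h hpN hA c ≠ 0) :
    wOf T hD₂ hγ₂ k u = (p : ℤ) - 1 := by
  rw [wOf₂_root_eta h hpN hA T hD₂ hγ₂ k u y c hu hyc hc]
  exact ordD_natCast_prime T hD₂

end Same

end Fermat.Agent.GE8.LLP.ThetaVal2

end
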