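/-
GATE-E / E8.4-ORD (a), helper56 (second seat of helper91 `ThetaLocal`), file 3: **the node-local
test unit `θ` at a point `Pl` of the special fibre, with its three values** — the package
`(θ, hθ1, hθ2, hθn)` of `Inner.NodeLocal` in the `(Pl, hPl : ContainsC hpN hA Pl)` vocabulary of
`NlPointU2.nl_point_loc_U'`.

`Pl` a place of `F̃_{N'ℓ}` containing the coordinate ring `C`, off the cusps, at which
`G = red₁ (Δ(z)/Δ(ℓz))` vanishes (a NODE); `v := primeL hℓN hA Pl hPl` its centre on `C`: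

* `k0Unit T y0 hy0` : a nonzero `K₀`-rational function as a `K'`-rational unit of the cover;
* `red_etaQ_eq_redC1K0`, `redC1K0_etaBK0_mem_primeL`, `node_le_primeL` : `Pl` is a node, `J' ≤ v`;
* **`exists_root_at_point`** : `y c ∈ B_R`, `y ∈ P'₂`, `y ^ 12 = g · c`, `red₁ c ∉ v`,
  `red₁ y ≠ 0`, `red₂ c ≠ 0` (`EtaInstK0B.exists_lift_pow_eq_K0_B` at `v`);
* **`nodeOrd_theta`** (`hθn`) : `nodeOrd (sheet₁ k) Pl u = 1` on EVERY sheet (rigid level);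
* `ord_cover_theta_eq_zero` (`hθU` route) : on the generic fibre of the cover `θ` has order `0` at
  every place where `j` is finite and `c` is a unit;
* **`exists_theta_point`** : `ℓ = p` : `∃ θ y c`, `(w₁ k, w₂ k, nodeOrd_k) θ = (0, p − 1, 1)` for ALL
  `k` and all `hD_i γ_i`.
-/
import Fermat.Agent.GE8.LLP.ThetaVal2
import Fermat.Agent.GF.Eis.EtaOrd
import Fermat.Agent.GF.F2Asm.EtaCover
import Fermat.Agent.GF.F2Asm.EtaUnit

set_option autoImplicit false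
set_option linter.unusedSectionVars false
set_option linter.style.haveILetI false

noncomputable section

namespace Fermat.Agent.GE8.LLP.ThetaVal3

open ModularCurve Polynomial AlgebraicCurve IsDedekindDomain
open Fermat.Agent.GK.SS Fermat.Agent.GK.AL Fermat.Agent.GJ.KumGroup Fermat.Agent.GF.Peu
open Fermat.Agent.GJ.Kum.KumType
open Fermat.Agent.GF.F2Asm.Inst Fermat.Agent.GF.KCover
open Fermat.Agent.GF.KCover.Field Fermat.Agent.GF.KCover.Field.WDataOf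
open Fermat.Agent.GF.KCover.Field.Disc
open Fermat.Agent.GF.KCover.Int Fermat.Agent.GF.KCover.Int.TameLift
open Fermat.Agent.GF.KCover.Int.K0Model
open Fermat.Agent.GL.Val.GaussK0 Fermat.Agent.GL.Val.SecondK0
open Fermat.Agent.GJ.J1 Fermat.Agent.GJ.J1.Val
open Fermat.Agent.GL.AL Fermat.Agent.GK.QS
open Fermat.Agent.Common_helper32
open Fermat.Agent.S24 Fermat.Agent.S24_helper6
open Fermat.Agent.GL.BRingK0 Fermat.Agent.GL.BRingChart Fermat.Agent.GL.Thick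
open Fermat.Agent.GL.EtaK0 Fermat.Agent.GL.Eta
open Fermat.Agent.GF.KCover.Node
open Fermat.Agent.GF.KCover.Node.NodeRingK0Level
open Fermat.Agent.GE8.LLP.ThetaVal Fermat.Agent.GE8.LLP.ThetaVal2
open Fermat.Agent.GK.FrobGlue Fermat.Agent.GL.SmallQ
open Fermat.Agent.GK.CuspSep
open Fermat.Agent.GF.KCover.Compl.SheetsMod Fermat.Agent.GF.KCover.Node.OrdRedExt
  Fermat.Agent.GF.Trop
open Fermat.Agent.GF.F2Asm.EtaUnit

local notation "Qb" => AlgebraicClosure ℚ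

attribute [local instance] actFK algE'

/-! ### `K₀`-rational units of the cover -/

section AnyLevel

variable {N : ℕ} [NeZero N] {p : ℕ} [hpF : Fact p.Prime] {A : ValuationSubring Qb} {ζ : Qb}
variable (T : TameDatum N p A ζ)

/-- a nonzero `K₀`-rational function as a `K'`-rational unit of the cover. -/
def k0Unit (y0 : modularFunctionFieldFullC (K0 A) N) (hy0 : y0 ≠ 0) :
    fixedUnits (tameGroup A ζ) T.Fp :=
  ofFixed T (mapK0Bar A N y0) ((_root_.map_ne_zero (mapK0Bar A N)).2 hy0)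
    (fun ρ => (embF₁ N A ζ y0).2 ρ)

theorem coe_k0Unit (y0 : modularFunctionFieldFullC (K0 A) N) (hy0 : y0 ≠ 0) :
    (((k0Unit T y0 hy0 : fixedUnits (tameGroup A ζ) T.Fp) : T.Fpˣ) : T.Fp) =
      algebraMap (FK N) T.Fp (mapK0Bar A N y0) := rfl

end AnyLevel

/-! ### the point -/

section Chart

attribute [local instance] Fermat.Agent.GL.Frame.InstK0.algSubringFullC

variable {A : ValuationSubring Qb} {N' : ℕ} [NeZero N'] {ℓ : ℕ} [Fact ℓ.Prime] [NeZero ℓ]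
  (h : ExactDvd ℓ (N' * ℓ)) (hℓN : ¬ ℓ ∣ N') (hA : A.LiesOverPrime ℓ)

variable [IsDedekindDomain (CRing N' A)] [IsFractionRing (CRing N' A) (FresBar N' A)]

local notation "F0" => modularFunctionFieldFullC (K0 A) (N' * ℓ)
local notation "kA" => IsLocalRing.ResidueField A

/-- `red₁ (Δ(z)/Δ(ℓz))` is the image of `red₁ g ∈ C`. -/
theorem red_etaQ_eq_redC1K0 :
    letI := algCFres (ℓ := ℓ) hℓN hA
    (redDataBar (N' * ℓ) A).red ⟨etaQ (N' * ℓ) ℓ h.dvd, etaQ_mem_Rw1 (N' * ℓ) A ℓ h.dvd⟩ =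
      algebraMap (CRing N' A) (FresBar (N' * ℓ) A)
        (redC1K0 h hℓN hA (etaBK0 N' ℓ A h (ValuationSubring.nonunits_le hA))) := by
  letI := algCFres (ℓ := ℓ) hℓN hA
  have hb : mapK0Bar A (N' * ℓ)
      ((etaBK0 N' ℓ A h (ValuationSubring.nonunits_le hA) : BRingK0 N' ℓ A h) : F0) ∈
      (redDataBar (N' * ℓ) A).Rw := (mapK0Bar_mem_Rw h _).1
  rw [← red1_mapK0Bar h hℓN hA _ hb]
  congr 1
  exact Subtype.ext (mapK0Bar_etaQK0 N' ℓ A h).symm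

variable (Pl : Place (IsLocalRing.ResidueField A) (FresBar (N' * ℓ) A))
  (hPl : ContainsC hℓN hA Pl)

/-- a zero of `G = red₁ (Δ(z)/Δ(ℓz))` is centred at a prime containing `red₁ g`. -/
theorem redC1K0_etaBK0_mem_primeL
    (he : Pl.ord ((redDataBar (N' * ℓ) A).red
      ⟨etaQ (N' * ℓ) ℓ h.dvd, etaQ_mem_Rw1 (N' * ℓ) A ℓ h.dvd⟩) ≠ 0) :
    redC1K0 h hℓN hA (etaBK0 N' ℓ A h (ValuationSubring.nonunits_le hA)) ∈
      (primeL hℓN hA Pl hPl).asIdeal := by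
  by_contra hnot
  apply he
  rw [red_etaQ_eq_redC1K0 h hℓN hA]
  exact hvE_level hℓN hA Pl hPl _ hnot

/-- … hence a NODE: `J' ≤ v`. -/
theorem node_le_primeL {J' : Ideal (CRing N' A)}
    (hJ' : BT N' ℓ A h = gluedAlg (psiC N' ℓ A hℓN hA) J')
    (he : Pl.ord ((redDataBar (N' * ℓ) A).red
      ⟨etaQ (N' * ℓ) ℓ h.dvd, etaQ_mem_Rw1 (N' * ℓ) A ℓ h.dvd⟩) ≠ 0) :
    J' ≤ (primeL hℓN hA Pl hPl).asIdeal := by
  have hmem := redC1K0_etaBK0_mem_primeL h hℓN hA Pl hPl he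
  rw [Fermat.Agent.GL.EtaInstK0.redC1K0_etaBK0] at hmem
  haveI : (primeL hℓN hA Pl hPl).asIdeal.IsPrime := (primeL hℓN hA Pl hPl).isPrime
  exact (le_prime_iff_ssPolyAll_mem hℓN hA hJ' _).2 hmem

/-- **the `12`-th root at the point `Pl`**: `y ∈ P'₂`, `y ^ 12 = g · c`, `red₁ c ∉ v`,
`red₁ y ≠ 0`, `red₂ c ≠ 0`. -/
theorem exists_root_at_point (h2 : ℓ = 2 → 3 ∣ N') (h3 : ℓ = 3 → 2 ∣ N')
    (hν2 : nuTwo N' = 0) (hν3 : nuThree N' = 0)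
    (he : Pl.ord ((redDataBar (N' * ℓ) A).red
      ⟨etaQ (N' * ℓ) ℓ h.dvd, etaQ_mem_Rw1 (N' * ℓ) A ℓ h.dvd⟩) ≠ 0) :
    ∃ y c : BRingK0 N' ℓ A h, y ∈ P2K0 h hℓN hA ∧
      y ^ 12 = etaBK0 N' ℓ A h (ValuationSubring.nonunits_le hA) * c ∧
      redC1K0 h hℓN hA c ∉ (primeL hℓN hA Pl hPl).asIdeal ∧
      redC1K0 h hℓN hA y ≠ 0 ∧ redC2K0 h hℓN hA c ≠ 0 := by
  obtain ⟨J', hfix, hBT⟩ := exists_ideal_BT N' ℓ A h hℓN hA h2 h3
  have hnode := node_le_primeL h hℓN hA Pl hPl hBT he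
  obtain ⟨y, hyP, c, hyc, hc⟩ := Fermat.Agent.GL.EtaInstK0B.exists_lift_pow_eq_K0_B h hℓN hA
    h2 h3 hν2 hν3 hfix hBT (primeL hℓN hA Pl hPl) hnode
  refine ⟨y, c, hyP, hyc, hc, ?_, redC2K0_ne_zero_of_node h hℓN hA hBT hnode c hc⟩
  intro h0
  have h1 := congrArg (redC1K0 h hℓN hA) hyc
  rw [map_pow, h0, zero_pow (by norm_num), map_mul] at h1
  rcases mul_eq_zero.1 h1.symm with h2' | h2'
  · rw [Fermat.Agent.GL.EtaInstK0.redC1K0_etaBK0] at h2'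
    haveI : CharP kA ℓ := charP_residue A Fact.out hA
    exact aeval_jtC_ne_zero (ssPolyAll_ne_zero ℓ kA) h2'
  · exact hc (h2' ▸ Ideal.zero_mem _)

variable {p : ℕ} [hpF : Fact p.Prime] {ζ : Qb} (T : TameDatum (N' * ℓ) p A ζ)

/-- **`hθn`**: at a rigid level the `12`-th root of `g · c` (`red₁ c ∉ v`) has node order `1` at
`Pl` on EVERY sheet above the first Gauss valuation. -/
theorem nodeOrd_theta (h2 : ℓ = 2 → 3 ∣ N') (h3 : ℓ = 3 → 2 ∣ N')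
    (hν2 : nuTwo N' = 0) (hν3 : nuThree N' = 0) (hAp : (p : Qb) ∈ A.nonunits)
    (hD₁ : IsDisc (valF₁ T (galVal1 (N' * ℓ) A)) (ϖ₁ T)) {γ₁ : Pack.Lc hD₁}
    (hγ₁ : γ₁ ^ p = Pack.jc hD₁ (g₁ T)) (k : ZMod p)
    (hτ : 0 ≤ Pl.ord (tauF (N' * ℓ) A))
    (he : Pl.ord ((redDataBar (N' * ℓ) A).red
      ⟨etaQ (N' * ℓ) ℓ h.dvd, etaQ_mem_Rw1 (N' * ℓ) A ℓ h.dvd⟩) ≠ 0)
    (u : fixedUnits (tameGroup A ζ) T.Fp) (y c : BRingK0 N' ℓ A h)
    (hu : ((u : T.Fpˣ) : T.Fp) =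
      algebraMap (FK (N' * ℓ)) T.Fp (mapK0Bar A (N' * ℓ) (y : F0)))
    (hyc : y ^ 12 = etaBK0 N' ℓ A h (ValuationSubring.nonunits_le hA) * c)
    (hc : redC1K0 h hℓN hA c ∉ (primeL hℓN hA Pl hPl).asIdeal) :
    nodeOrd (sheet₁ T hAp hD₁ hγ₁ k) (unram_sheet₁ T hAp hD₁ hγ₁ k) Pl
      (fixedUnits (tameGroup A ζ) T.Fp) u = 1 := by
  letI := algCFres (ℓ := ℓ) hℓN hA
  rw [nodeOrd_sheet₁_of_k0 T hAp hD₁ hγ₁ k Pl u (y : F0) hu]
  have hun := Fermat.Agent.GS.F.unram_redDataBar (N' * ℓ) A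
  have hpow : (y : F0) ^ 12 = etaQK0 N' ℓ A h * (c : F0) := congrArg Subtype.val hyc
  have hy0 : mapK0Bar A (N' * ℓ) (y : F0) ≠ 0 := by
    intro h0
    rw [h0, map_zero] at hu
    exact (u : T.Fpˣ).ne_zero hu
  have hc1 : redC1K0 h hℓN hA c ≠ 0 := fun h0 => hc (h0 ▸ Ideal.zero_mem _)
  have hUc := isU₁_of_redC1K0_ne_zero h hℓN hA c hc1
  have hUe : IsU (redDataBar (N' * ℓ) A) (etaQ (N' * ℓ) ℓ h.dvd) :=
    ⟨etaQ_ne_zero (N' * ℓ) ℓ h.dvd, etaQ_mem_Rw1 (N' * ℓ) A ℓ h.dvd,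
      etaQ_inv_mem_Rw1 (N' * ℓ) A ℓ h.dvd⟩
  have h12 : ((12 : ℕ) : ℤ) * ordRed (redDataBar (N' * ℓ) A) hun Pl
        (mapK0Bar A (N' * ℓ) (y : F0)) =
      ordRed (redDataBar (N' * ℓ) A) hun Pl (etaQ (N' * ℓ) ℓ h.dvd) +
        ordRed (redDataBar (N' * ℓ) A) hun Pl (mapK0Bar A (N' * ℓ) (c : F0)) := by
    rw [← ordRed_pow hun Pl hy0 12, ← map_pow, hpow, map_mul, mapK0Bar_etaQK0,
      ordRed_mul hun Pl hUe.1 hUc.1]
  have he12 : ordRed (redDataBar (N' * ℓ) A) hun Pl (etaQ (N' * ℓ) ℓ h.dvd) = 12 := by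
    rw [ordRed_of_isU hun Pl hUe]
    exact Fermat.Agent.GF.Eis.EtaOrd.ord_red_etaQ_eq_mul N' ℓ A h hA hℓN h2 h3 hν2 hν3 Pl hτ he
  have hc0 : ordRed (redDataBar (N' * ℓ) A) hun Pl (mapK0Bar A (N' * ℓ) (c : F0)) = 0 := by
    rw [ordRed_of_isU hun Pl hUc, red1_mapK0Bar h hℓN hA c hUc.2.1]
    exact hvE_level hℓN hA Pl hPl _ hc
  rw [he12, hc0] at h12
  push_cast at h12
  omega

/-- **`hθU` route**: on the generic fibre of the cover, the `12`-th root of `g · c` has order `0` at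
every place where `j` is finite and `c` has order `0`. -/
theorem ord_cover_theta_eq_zero (P : Place Qb T.Fp)
    (hj : 0 ≤ P.ord (algebraMap (FK (N' * ℓ)) T.Fp (jF (N' * ℓ))))
    (y c : BRingK0 N' ℓ A h)
    (hyc : y ^ 12 = etaBK0 N' ℓ A h (ValuationSubring.nonunits_le hA) * c) (hc0 : c ≠ 0)
    (hc : P.ord (algebraMap (FK (N' * ℓ)) T.Fp (mapK0Bar A (N' * ℓ) (c : F0))) = 0) :
    P.ord (algebraMap (FK (N' * ℓ)) T.Fp (mapK0Bar A (N' * ℓ) (y : F0))) = 0 := by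
  have hpow : (y : F0) ^ 12 = etaQK0 N' ℓ A h * (c : F0) := congrArg Subtype.val hyc
  have hc0' : (c : F0) ≠ 0 := fun h0 => hc0 (Subtype.ext h0)
  have h1 : algebraMap (FK (N' * ℓ)) T.Fp (mapK0Bar A (N' * ℓ) (y : F0)) ^ 12 =
      algebraMap (FK (N' * ℓ)) T.Fp (etaQ (N' * ℓ) ℓ h.dvd) *
        algebraMap (FK (N' * ℓ)) T.Fp (mapK0Bar A (N' * ℓ) (c : F0)) := by
    rw [← map_pow, ← map_pow, hpow, map_mul, map_mul, mapK0Bar_etaQK0]
  have h2 := congrArg P.ord h1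
  have hne1 : algebraMap (FK (N' * ℓ)) T.Fp (etaQ (N' * ℓ) ℓ h.dvd) ≠ 0 :=
    (_root_.map_ne_zero _).2 (etaQ_ne_zero (N' * ℓ) ℓ h.dvd)
  have hne2 : algebraMap (FK (N' * ℓ)) T.Fp (mapK0Bar A (N' * ℓ) (c : F0)) ≠ 0 :=
    (_root_.map_ne_zero _).2 ((_root_.map_ne_zero _).2 hc0')
  rw [Fermat.Agent.S24.Global.ord_pow, Place.ord_mul P hne1 hne2,
    Fermat.Agent.GF.F2Asm.EtaCover.ord_etaQ_cover_eq_zero T ℓ h.dvd P hj, hc, add_zero] at h2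
  have h3 : ((12 : ℕ) : ℤ) ≠ 0 := by norm_num
  exact (mul_eq_zero.1 h2).resolve_left h3

end Chart

/-! ### `ℓ = p` : the package -/

section Same

attribute [local instance] Fermat.Agent.GL.Frame.InstK0.algSubringFullC

variable {A : ValuationSubring Qb} {N' : ℕ} [NeZero N'] {p : ℕ} [hpF : Fact p.Prime] [NeZero p]
  (h : ExactDvd p (N' * p)) (hpN : ¬ p ∣ N') (hA : A.LiesOverPrime p)
  [IsDedekindDomain (CRing N' A)] [IsFractionRing (CRing N' A) (FresBar N' A)]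
  {ζ : Qb} (T : TameDatum (N' * p) p A ζ)

local notation "F0" => modularFunctionFieldFullC (K0 A) (N' * p)

/-- **the node-local test unit at the point `Pl`, with its three values** :
`(w₁ k, w₂ k, nodeOrd_k) θ = (0, p − 1, 1)` on EVERY sheet `k`, for every choice of the discreteness
witnesses and roots `γ_i` (`= (0, Tt, N0)` of `Inner.NodeLocal`, any shift `c`, `κ = −1`). -/
theorem exists_theta_point (h2 : p = 2 → 3 ∣ N') (h3 : p = 3 → 2 ∣ N')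
    (hν2 : nuTwo N' = 0) (hν3 : nuThree N' = 0)
    (Pl : Place (IsLocalRing.ResidueField A) (FresBar (N' * p) A))
    (hPl : ContainsC hpN hA Pl) (hτ : 0 ≤ Pl.ord (tauF (N' * p) A))
    (he : Pl.ord ((redDataBar (N' * p) A).red
      ⟨etaQ (N' * p) p h.dvd, etaQ_mem_Rw1 (N' * p) A p h.dvd⟩) ≠ 0) :
    ∃ (θ : fixedUnits (tameGroup A ζ) T.Fp) (y c : BRingK0 N' p A h),
      ((θ : T.Fpˣ) : T.Fp) = algebraMap (FK (N' * p)) T.Fp (mapK0Bar A (N' * p) (y : F0)) ∧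
      y ^ 12 = etaBK0 N' p A h (ValuationSubring.nonunits_le hA) * c ∧
      redC1K0 h hpN hA c ∉ (primeL hpN hA Pl hPl).asIdeal ∧
      (∀ (hD₁ : IsDisc (valF₁ T (galVal1 (N' * p) A)) (ϖ₁ T)) (γ₁ : Pack.Lc hD₁)
        (hγ₁ : γ₁ ^ p = Pack.jc hD₁ (g₁ T)) (k : ZMod p), wOf T hD₁ hγ₁ k θ = 0) ∧
      (∀ (hD₂ : IsDisc (valF₁ T (galVal2 (N' * p) A h)) (ϖ₁ T)) (γ₂ : Pack.Lc hD₂)
        (hγ₂ : γ₂ ^ p = Pack.jc hD₂ (g₁ T)) (k : ZMod p), wOf T hD₂ hγ₂ k θ = (p : ℤ) - 1) ∧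
      (∀ (hD₁ : IsDisc (valF₁ T (galVal1 (N' * p) A)) (ϖ₁ T)) (γ₁ : Pack.Lc hD₁)
        (hγ₁ : γ₁ ^ p = Pack.jc hD₁ (g₁ T)) (k : ZMod p),
        nodeOrd (sheet₁ T hA hD₁ hγ₁ k) (unram_sheet₁ T hA hD₁ hγ₁ k) Pl
          (fixedUnits (tameGroup A ζ) T.Fp) θ = 1) := by
  obtain ⟨y, c, -, hyc, hc, hy1, hc2⟩ :=
    exists_root_at_point h hpN hA Pl hPl h2 h3 hν2 hν3 he
  have hy0 : (y : F0) ≠ 0 := by
    intro h0
    apply hy1
    have : y = 0 := Subtype.ext h0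
    rw [this, map_zero]
  refine ⟨k0Unit T (y : F0) hy0, y, c, coe_k0Unit T _ hy0, hyc, hc, ?_, ?_, ?_⟩
  · intro hD₁ γ₁ hγ₁ k
    exact wOf₁_chart_unit h hpN hA T hD₁ hγ₁ k _ y (coe_k0Unit T _ hy0) hy1
  · intro hD₂ γ₂ hγ₂ k
    exact wOf₂_theta h hpN hA T hD₂ hγ₂ k _ y c (coe_k0Unit T _ hy0) hyc hc2
  · intro hD₁ γ₁ hγ₁ k
    exact nodeOrd_theta h hpN hA Pl hPl T h2 h3 hν2 hν3 hA hD₁ hγ₁ k hτ he _ y c
      (coe_k0Unit T _ hy0) hyc hc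

end Same

end Fermat.Agent.GE8.LLP.ThetaVal3

end
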